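import Fermat.Agent.S20.Defs

/-!
# S20, module E0: orbit decomposition of `X N` under `T` (helper9).
-/

set_option autoImplicit false

namespace Fermat.Agent.S20

open UpperHalfPlane ModularForm MatrixGroups CongruenceSubgroup Matrix.SpecialLinearGroup Filter

/-- Generic statement: a group element `g` acting on a finite set `α`: orbit representatives of
`zpowers g`, periods, and the bijection `(c, s) ↦ g ^ s • rep c`. -/
theorem h9_exists_orbit_data {G α : Type} [Group G] [MulAction G α] [Finite α] (g : G) :
    ∃ (rep : MulAction.orbitRel.Quotient (Subgroup.zpowers g) α → α)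
      (h : MulAction.orbitRel.Quotient (Subgroup.zpowers g) α → ℕ),
      (∀ c, 0 < h c) ∧ (∀ c, g ^ h c • rep c = rep c) ∧
      Function.Bijective (fun p : (Σ c, Fin (h c)) => g ^ (p.2 : ℕ) • rep p.1) := by
  classical
  have hper : ∀ a : α, 0 < MulAction.period g a := by
    intro a
    rw [MulAction.period_eq_minimalPeriod]
    exact Function.minimalPeriod_pos_of_mem_periodicPts
      (Function.Injective.mem_periodicPts (MulAction.injective g) a)
  refine ⟨fun c => Quotient.out c, fun c => MulAction.period g (Quotient.out c),
    fun c => hper _, fun c => MulAction.pow_period_smul g _, ?_, ?_⟩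
  · -- injective
    rintro ⟨c, s⟩ ⟨c', s'⟩ heq
    simp only at heq
    -- same orbit
    have hcc : c = c' := by
      have h1 : (Quotient.mk'' (g ^ (s : ℕ) • Quotient.out c) :
          MulAction.orbitRel.Quotient (Subgroup.zpowers g) α) = c := by
        conv_rhs => rw [← Quotient.out_eq c]
        apply Quotient.sound
        refine ⟨⟨g ^ (s : ℕ), ?_⟩, rfl⟩
        exact Subgroup.pow_mem _ (Subgroup.mem_zpowers g) _
      have h2 : (Quotient.mk'' (g ^ (s' : ℕ) • Quotient.out c') :
          MulAction.orbitRel.Quotient (Subgroup.zpowers g) α) = c' := by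
        conv_rhs => rw [← Quotient.out_eq c']
        apply Quotient.sound
        refine ⟨⟨g ^ (s' : ℕ), ?_⟩, rfl⟩
        exact Subgroup.pow_mem _ (Subgroup.mem_zpowers g) _
      rw [← h1, ← h2, heq]
    subst hcc
    have hs : (s : ℕ) = (s' : ℕ) := by
      -- g^s • x = g^s' • x with s, s' < period
      set x := Quotient.out c with hx
      have hslt : (s : ℕ) < MulAction.period g x := s.2
      have hs'lt : (s' : ℕ) < MulAction.period g x := s'.2
      rcases le_total (s : ℕ) (s' : ℕ) with hle | hle
      · have : g ^ ((s' : ℕ) - (s : ℕ)) • x = x := by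
          have h3 : g ^ (s' : ℕ) = g ^ (s : ℕ) * g ^ ((s' : ℕ) - (s : ℕ)) := by
            rw [← pow_add, Nat.add_sub_cancel' hle]
          rw [h3, mul_smul] at heq
          exact (MulAction.injective (g ^ (s : ℕ)) heq).symm
        have hd := MulAction.pow_smul_eq_iff_period_dvd.mp this
        have := Nat.eq_zero_of_dvd_of_lt hd (by omega)
        omega
      · have : g ^ ((s : ℕ) - (s' : ℕ)) • x = x := by
          have h3 : g ^ (s : ℕ) = g ^ (s' : ℕ) * g ^ ((s : ℕ) - (s' : ℕ)) := by
            rw [← pow_add, Nat.add_sub_cancel' hle]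
          rw [h3, mul_smul] at heq
          exact MulAction.injective (g ^ (s' : ℕ)) heq
        have hd := MulAction.pow_smul_eq_iff_period_dvd.mp this
        have := Nat.eq_zero_of_dvd_of_lt hd (by omega)
        omega
    have : s = s' := Fin.ext hs
    rw [this]
  · -- surjective
    intro y
    set c : MulAction.orbitRel.Quotient (Subgroup.zpowers g) α := Quotient.mk'' y with hc
    have hrel : (MulAction.orbitRel (Subgroup.zpowers g) α).r y (Quotient.out c) := by
      have : (Quotient.mk'' y : MulAction.orbitRel.Quotient (Subgroup.zpowers g) α) =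
          Quotient.mk'' (Quotient.out c) := by
        rw [Quotient.out_eq']
      exact Quotient.exact this
    obtain ⟨⟨γ, hγ⟩, hγy⟩ := hrel
    obtain ⟨k, rfl⟩ := Subgroup.mem_zpowers_iff.mp hγ
    have hky : g ^ k • Quotient.out c = y := hγy
    set P := MulAction.period g (Quotient.out c) with hP
    have hPpos : 0 < P := hper _
    have hmod := MulAction.zpow_mod_period_smul k (g := g) (a := Quotient.out c)
    have hnn : 0 ≤ k % (P : ℤ) := Int.emod_nonneg _ (by exact_mod_cast hPpos.ne')
    have hlt : k % (P : ℤ) < P := Int.emod_lt_of_pos _ (by exact_mod_cast hPpos)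
    refine ⟨⟨c, ⟨(k % (P : ℤ)).toNat, ?_⟩⟩, ?_⟩
    · have : ((k % (P : ℤ)).toNat : ℤ) < P := by rw [Int.toNat_of_nonneg hnn]; exact hlt
      exact_mod_cast this
    · simp only
      have : g ^ ((k % (P : ℤ)).toNat) = g ^ (k % (P : ℤ)) := by
        rw [← zpow_natCast, Int.toNat_of_nonneg hnn]
      rw [this, hmod, hky]

/-- orbit decomposition under `T` (generic finite group action argument). -/
theorem exists_cuspData (N : ℕ) [NeZero N] : ∃ D : CuspData N, Fintype.card D.C =
    Nat.card (MulAction.orbitRel.Quotient (Subgroup.zpowers ModularGroup.T) (X N)) := by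
  classical
  obtain ⟨rep, h, hpos, hperiod, hbij⟩ :=
    h9_exists_orbit_data (G := SL(2, ℤ)) (α := X N) ModularGroup.T
  have hfin : Finite (MulAction.orbitRel.Quotient (Subgroup.zpowers ModularGroup.T) (X N)) :=
    Quotient.finite _
  refine ⟨{ C := MulAction.orbitRel.Quotient (Subgroup.zpowers ModularGroup.T) (X N)
            fin := Fintype.ofFinite _
            dec := Classical.decEq _
            rep := rep
            h := h
            h_pos := hpos
            period := hperiod
            bij := hbij }, ?_⟩
  exact (@Nat.card_eq_fintype_card _ (Fintype.ofFinite _)).symm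

end Fermat.Agent.S20
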