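import Fermat.Agent.S20.Helper16Cusps

/-!
# S20, module E (`Cusps`), part 2 (helper16): the trace pairing at the cusps

`trace_mem` and `trace_tendsto` (exact signatures of the `Cusps` interface).
-/

set_option autoImplicit false

namespace Fermat.Agent.S20

open UpperHalfPlane ModularForm MatrixGroups CongruenceSubgroup Matrix.SpecialLinearGroup Filter
open scoped Topology Manifold Real

variable {N : ℕ} [NeZero N]

/-! ### Plain-function lemmas -/

/-- If `F` has period `1`, is holomorphic and vanishes at `i∞`, then `F / Δ` tends to the first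
coefficient of `F`. -/
lemma Trace_tendsto_div_discriminant {F : ℍ → ℂ} (hF : NicePer 1 F) (h0 : qc 1 F 0 = 0) :
    Tendsto (fun τ ↦ F τ / ModularForm.discriminant τ) atImInfty (𝓝 (qc 1 F 1)) := by
  have hps : HasFPowerSeriesAt (cuspFunction 1 F)
      (FormalMultilinearSeries.ofScalars ℂ fun m ↦ qc 1 F m) 0 :=
    (hasFPowerSeriesOnBall_cuspFunction one_pos (hF.analyticAt one_pos)
      (hF.hasSum one_pos)).hasFPowerSeriesAt
  have hO := hps.isBigO_sub_partialSum_pow 2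
  have hpart : ∀ y : ℂ,
      (FormalMultilinearSeries.ofScalars ℂ fun m ↦ qc 1 F m).partialSum 2 y = qc 1 F 1 * y := by
    intro y
    rw [FormalMultilinearSeries.partialSum, Finset.sum_range_succ, Finset.sum_range_one]
    simp [FormalMultilinearSeries.ofScalars, h0]
  simp only [hpart, zero_add] at hO
  have hcomp := hO.comp_tendsto (qParam_tendsto_atImInfty one_pos)
  obtain ⟨c, hc⟩ := hcomp.bound
  have hq : ∀ τ : ℍ, Function.Periodic.qParam 1 (τ : ℂ) ≠ 0 := fun τ ↦ Complex.exp_ne_zero _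
  have h1 : (fun τ : ℍ ↦ F τ / Function.Periodic.qParam 1 (τ : ℂ) - qc 1 F 1)
      =O[atImInfty] fun τ : ℍ ↦ Function.Periodic.qParam 1 (τ : ℂ) := by
    refine Asymptotics.IsBigO.of_bound c ?_
    filter_upwards [hc] with τ hτ
    simp only [Function.comp_apply] at hτ
    have e1 : cuspFunction 1 F (Function.Periodic.qParam 1 (τ : ℂ)) = F τ := by
      simpa using eq_cuspFunction τ one_ne_zero hF.per
    rw [e1] at hτ
    have hqpos : 0 < ‖Function.Periodic.qParam 1 (τ : ℂ)‖ := norm_pos_iff.mpr (hq τ)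
    have e2 : F τ / Function.Periodic.qParam 1 (τ : ℂ) - qc 1 F 1 =
        (F τ - qc 1 F 1 * Function.Periodic.qParam 1 (τ : ℂ)) / Function.Periodic.qParam 1 (τ : ℂ) := by
      field_simp [hq τ]
    rw [e2, norm_div, div_le_iff₀ hqpos]
    simpa [pow_two, mul_assoc] using hτ
  have h2 : Tendsto (fun τ : ℍ ↦ F τ / Function.Periodic.qParam 1 (τ : ℂ)) atImInfty
      (𝓝 (qc 1 F 1)) := by
    have := h1.trans_tendsto (qParam_tendsto_atImInfty one_pos)
    simpa using this.add_const (qc 1 F 1)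
  have h3 := h2.div ModularForm.tendsto_atImInfty_tprod_one_sub_eta_q_pow one_ne_zero
  rw [div_one] at h3
  refine h3.congr fun τ ↦ ?_
  rw [ModularForm.discriminant_eq_q_prod]
  simp only [Pi.div_apply]
  rw [div_div]

/-- Integer translates of a nice periodic function are nice periodic. -/
lemma NicePer.shiftInt {h : ℝ} {F : ℍ → ℂ} (hF : NicePer h F) (s : ℤ) :
    NicePer h (fun τ : ℍ ↦ F ((s : ℝ) +ᵥ τ)) where
  per := by
    refine periodic_comp_ofComplex_of_vadd fun τ ↦ ?_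
    rw [vadd_vadd, add_comm, ← vadd_vadd, hF.vadd]
  hol := by
    rw [← Cusps_slash_T_zpow F 0 s]
    exact hF.hol.slash 0 _
  bdd := Cusps_isBoundedAtImInfty_vadd hF.bdd _

lemma Trace_qParam_vadd_int (h : ℝ) (s : ℤ) (τ : ℍ) :
    Function.Periodic.qParam h ((((s : ℝ) +ᵥ τ : ℍ)) : ℂ) =
      Complex.exp (2 * π * Complex.I * s / h) * Function.Periodic.qParam h τ := by
  simp only [Function.Periodic.qParam, coe_vadd, ← Complex.exp_add]
  congr 1
  push_cast
  ring

lemma Trace_qc_shiftInt {h : ℕ} (hh : 0 < h) {F : ℍ → ℂ} (hF : NicePer (h : ℝ) F) (s : ℤ)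
    (n : ℕ) :
    qc (h : ℝ) (fun τ : ℍ ↦ F ((s : ℝ) +ᵥ τ)) n =
      Complex.exp (2 * π * Complex.I * s / (h : ℝ)) ^ n * qc (h : ℝ) F n := by
  have hh' : (0 : ℝ) < h := Nat.cast_pos.mpr hh
  symm
  refine qc_unique hh' (hF.shiftInt s)
    (c := fun n ↦ Complex.exp (2 * π * Complex.I * s / (h : ℝ)) ^ n * qc (h : ℝ) F n)
    (fun τ ↦ ?_) n
  have := hF.hasSum hh' ((s : ℝ) +ᵥ τ)
  rw [Trace_qParam_vadd_int] at this
  have heq : (fun m : ℕ ↦ (Complex.exp (2 * π * Complex.I * s / (h : ℝ)) ^ m * qc (h : ℝ) F m) •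
        Function.Periodic.qParam (h : ℝ) (τ : ℂ) ^ m) =
      fun m : ℕ ↦ qc (h : ℝ) F m • (Complex.exp (2 * π * Complex.I * s / (h : ℝ)) *
        Function.Periodic.qParam (h : ℝ) (τ : ℂ)) ^ m := by
    funext m
    simp only [smul_eq_mul, mul_pow]
    ring
  rw [heq]
  exact this

lemma Trace_exp_pow (h : ℕ) (hh : 0 < h) (s : ℤ) :
    Complex.exp (2 * π * Complex.I * s / (h : ℝ)) ^ h = 1 := by
  rw [← Complex.exp_nat_mul]
  have hne : ((h : ℝ) : ℂ) ≠ 0 := by
    exact_mod_cast (Nat.cast_ne_zero.mpr hh.ne' : (h : ℝ) ≠ 0)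
  have : (h : ℂ) * (2 * π * Complex.I * s / ((h : ℝ) : ℂ)) = s * (2 * π * Complex.I) := by
    push_cast at hne ⊢
    field_simp
  rw [this]
  exact Complex.exp_int_mul_two_pi_mul_I s

lemma Trace_qc_sum {h : ℝ} (hh : 0 < h) {ι : Type*} (s : Finset ι) {F : ι → ℍ → ℂ}
    (hF : ∀ i ∈ s, NicePer h (F i)) (n : ℕ) :
    qc h (∑ i ∈ s, F i) n = ∑ i ∈ s, qc h (F i) n := by
  classical
  induction s using Finset.induction_on with
  | empty => simp [qc, qExpansion_zero]
  | insert a s ha ih =>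
    have hs : ∀ i ∈ s, NicePer h (F i) := fun i hi ↦ hF i (Finset.mem_insert_of_mem hi)
    rw [Finset.sum_insert ha, Finset.sum_insert ha, ← ih hs]
    unfold qc
    rw [qExpansion_add ((hF a (Finset.mem_insert_self a s)).analyticAt hh)
      ((NicePer.sum s hs).analyticAt hh), map_add]

lemma Trace_sum_range_shift {h : ℕ} (hh : 0 < h) (g : ℤ → ℂ) (hg : ∀ s, g (s + h) = g s) :
    ∑ s ∈ Finset.range h, g ((s : ℤ) - 1) = ∑ s ∈ Finset.range h, g s := by
  obtain ⟨m, rfl⟩ : ∃ m, h = m + 1 := ⟨h - 1, by omega⟩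
  rw [Finset.sum_range_succ' (fun s : ℕ ↦ g ((s : ℤ) - 1)), Finset.sum_range_succ (fun s : ℕ ↦ g s)]
  have h1 : g (((0 : ℕ) : ℤ) - 1) = g m := by
    have := hg (-1)
    rw [show ((0 : ℕ) : ℤ) - 1 = -1 by simp, ← this]
    congr 1
    push_cast
    ring
  rw [h1]
  congr 1
  refine Finset.sum_congr rfl fun s _ ↦ ?_
  congr 1
  push_cast
  ring

/-- The sum of the translates of a function of period `h` over a full set of residues: it has
period `1`, and its `h`-th coefficient (in the parameter of period `h`), i.e. its first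
coefficient, is `h` times that of `P`. -/
lemma Trace_tendsto_sum_shift {h : ℕ} (hh : 0 < h) {P : ℍ → ℂ} (hP : NicePer (h : ℝ) P)
    (hP0 : qc (h : ℝ) P 0 = 0) :
    Tendsto (fun τ : ℍ ↦ (∑ s ∈ Finset.range h, P (((-(s : ℤ) : ℤ) : ℝ) +ᵥ τ)) /
      ModularForm.discriminant τ) atImInfty (𝓝 (h * qc (h : ℝ) P h)) := by
  have hh' : (0 : ℝ) < h := Nat.cast_pos.mpr hh
  set Q : ℍ → ℂ := ∑ s ∈ Finset.range h, fun τ : ℍ ↦ P (((-(s : ℤ) : ℤ) : ℝ) +ᵥ τ) with hQ
  have hQapp : ∀ τ : ℍ, Q τ = ∑ s ∈ Finset.range h, P (((-(s : ℤ) : ℤ) : ℝ) +ᵥ τ) := by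
    intro τ
    rw [hQ, Finset.sum_apply]
  have hQh : NicePer (h : ℝ) Q := NicePer.sum _ fun s _ ↦ hP.shiftInt _
  have hQ1 : NicePer 1 Q := by
    refine ⟨?_, hQh.hol, hQh.bdd⟩
    have : ∀ τ : ℍ, Q ((1 : ℝ) +ᵥ τ) = Q τ := by
      intro τ
      rw [hQapp, hQapp]
      have key := Trace_sum_range_shift hh (fun s : ℤ ↦ P (((-s : ℤ) : ℝ) +ᵥ τ)) (fun s ↦ by
        rw [← hP.vadd (((-(s + (h : ℤ)) : ℤ) : ℝ) +ᵥ τ), vadd_vadd]
        congr 2
        push_cast
        ring)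
      rw [← key]
      refine Finset.sum_congr rfl fun s _ ↦ ?_
      rw [vadd_vadd]
      congr 2
      push_cast
      ring
    simpa using periodic_comp_ofComplex_of_vadd this
  have hcoeff : ∀ n : ℕ, qc (h : ℝ) Q n = ∑ s ∈ Finset.range h,
      Complex.exp (2 * π * Complex.I * ((-(s : ℤ) : ℤ)) / (h : ℝ)) ^ n * qc (h : ℝ) P n := by
    intro n
    rw [hQ, Trace_qc_sum hh' _ fun s _ ↦ hP.shiftInt _]
    exact Finset.sum_congr rfl fun s _ ↦ Trace_qc_shiftInt hh hP _ n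
  have e0 : qc 1 Q 0 = 0 := by
    have h1 := Cusps_qc_R1 hh hQ1 0
    simp only [dvd_zero, if_true, Nat.zero_div] at h1
    rw [← h1, hcoeff 0]
    simp [hP0]
  have e1 : qc 1 Q 1 = h * qc (h : ℝ) P h := by
    have h1 := Cusps_qc_R1 hh hQ1 h
    simp only [dvd_refl, if_true, Nat.div_self hh] at h1
    rw [← h1, hcoeff h, Finset.sum_congr rfl (fun s _ ↦ by rw [Trace_exp_pow h hh, one_mul])]
    simp
  have := Trace_tendsto_div_discriminant hQ1 e0
  rw [e1] at this
  refine this.congr fun τ ↦ ?_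
  rw [hQapp]

lemma Trace_isZeroAtImInfty_mul {V W : ℍ → ℂ} (hV : IsBoundedAtImInfty V)
    (hW : IsZeroAtImInfty W) : IsZeroAtImInfty (V * W) := by
  have h1 : V =O[atImInfty] (fun _ ↦ (1 : ℝ)) := hV
  have h2 : W =o[atImInfty] (fun _ ↦ (1 : ℝ)) := (Asymptotics.isLittleO_one_iff ℝ).mpr hW
  have h3 := h1.mul_isLittleO h2
  simp only [mul_one] at h3
  exact (Asymptotics.isLittleO_one_iff ℝ).mp h3

/-! ### The trace pairing -/

/-- the trace of (modular form) × (cusp form) is `Δ` times a level-one form ... -/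
theorem trace_mem {K K' : ℤ} {v w : ℍ → ℂ} (hv : v ∈ MF N K) (hw : w ∈ SF N K') :
    ∃ G ∈ R1 (K + K' - 12), ∀ z, ∑ x : X N, comp N K v x z * comp N K' w x z = Df z * G z := by
  have hw' : w ∈ MF N K' := SF_le_MF N K' hw
  set Tr : ℍ → ℂ := ∑ x : X N, comp N K v x * comp N K' w x with hTr
  have hTrapp : ∀ z, Tr z = ∑ x : X N, comp N K v x z * comp N K' w x z := by
    intro z
    simp [hTr, Finset.sum_apply]
  have hol : MDiff Tr := MDifferentiable.sum fun x _ ↦ (comp_mdiff hv x).mul (comp_mdiff hw' x)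
  have hinv : ∀ γ : SL(2, ℤ), Tr ∣[K + K'] γ = Tr := by
    intro γ
    rw [hTr, SlashAction.sum_slash]
    have : ∀ x : X N, (comp N K v x * comp N K' w x) ∣[K + K'] γ =
        comp N K v (γ⁻¹ • x) * comp N K' w (γ⁻¹ • x) := by
      intro x
      rw [mul_slash_SL2, comp_smul hv, comp_smul hw', inv_inv]
    simp_rw [this]
    exact (MulAction.bijective γ⁻¹).sum_comp (fun x : X N ↦ comp N K v x * comp N K' w x)
  have hzero : IsZeroAtImInfty Tr := by
    have : ∀ x ∈ (Finset.univ : Finset (X N)),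
        Tendsto (comp N K v x * comp N K' w x) atImInfty (𝓝 0) := fun x _ ↦
      Trace_isZeroAtImInfty_mul (comp_isBoundedAtImInfty hv x) (comp_isZeroAtImInfty hw x)
    have h2 := tendsto_finsetSum Finset.univ this
    simp only [Finset.sum_const_zero] at h2
    refine h2.congr fun z ↦ ?_
    rw [hTrapp]
    simp
  have hbdd : IsBoundedAtImInfty Tr := by
    have h2 : Tr =o[atImInfty] (fun _ ↦ (1 : ℝ)) := (Asymptotics.isLittleO_one_iff ℝ).mpr hzero
    exact h2.isBigO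
  obtain ⟨b, hb, hTb⟩ := R1_div_Df (mem_R1_of hol hinv hbdd) hzero
  refine ⟨b, hb, fun z ↦ ?_⟩
  rw [← hTrapp, hTb]
  rfl

/-- ... whose value at `∞` is given by the cusp expansions. -/
theorem trace_tendsto (D : CuspData N) {K K' : ℤ} {v w : ℍ → ℂ} (hv : v ∈ MF N K)
    (hw : w ∈ SF N K') :
    Tendsto (fun z => (∑ x : X N, comp N K v x z * comp N K' w x z) / Df z) atImInfty
      (𝓝 (∑ c, (D.h c : ℂ) * ∑ n ∈ Finset.range (D.h c), cc D K v c n * cc D K' w c (D.h c - n))) := by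
  have hw' : w ∈ MF N K' := SF_le_MF N K' hw
  have hA : ∀ z : ℍ, ∑ x : X N, comp N K v x z * comp N K' w x z =
      ∑ c, ∑ s ∈ Finset.range (D.h c),
        (comp N K v (D.rep c) * comp N K' w (D.rep c)) (((-(s : ℤ) : ℤ) : ℝ) +ᵥ z) := by
    intro z
    rw [← D.bij.sum_comp (fun x ↦ comp N K v x z * comp N K' w x z), Fintype.sum_sigma]
    refine Finset.sum_congr rfl fun c _ ↦ ?_
    rw [← Fin.sum_univ_eq_sum_range (fun s ↦
      (comp N K v (D.rep c) * comp N K' w (D.rep c)) (((-(s : ℤ) : ℤ) : ℝ) +ᵥ z))]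
    refine Finset.sum_congr rfl fun s _ ↦ ?_
    simp only [Pi.mul_apply]
    rw [← zpow_natCast, Cusps_comp_T_zpow hv, Cusps_comp_T_zpow hw']
  have hB : ∀ c, Tendsto (fun z : ℍ ↦ (∑ s ∈ Finset.range (D.h c),
      (comp N K v (D.rep c) * comp N K' w (D.rep c)) (((-(s : ℤ) : ℤ) : ℝ) +ᵥ z)) / Df z) atImInfty
      (𝓝 ((D.h c : ℂ) * ∑ n ∈ Finset.range (D.h c), cc D K v c n * cc D K' w c (D.h c - n))) := by
    intro c
    have hh : (0 : ℝ) < D.h c := Nat.cast_pos.mpr (D.h_pos c)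
    have hV := Cusps_nicePer D hv c
    have hW := Cusps_nicePer D hw' c
    have hW0 : qc (D.h c : ℝ) (comp N K' w (D.rep c)) 0 = 0 :=
      (isZeroAtImInfty_iff_qc_zero hh hW).mp (comp_isZeroAtImInfty hw _)
    have hP := hV.mul hW
    have hcoef : ∀ n, qc (D.h c : ℝ) (comp N K v (D.rep c) * comp N K' w (D.rep c)) n =
        ∑ p ∈ Finset.HasAntidiagonal.antidiagonal n, qc (D.h c : ℝ) (comp N K v (D.rep c)) p.1 *
          qc (D.h c : ℝ) (comp N K' w (D.rep c)) p.2 := by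
      intro n
      unfold qc
      rw [qExpansion_mul (hV.analyticAt hh) (hW.analyticAt hh), PowerSeries.coeff_mul]
    have hP0 : qc (D.h c : ℝ) (comp N K v (D.rep c) * comp N K' w (D.rep c)) 0 = 0 := by
      rw [hcoef 0]
      simp [hW0]
    have hPh : qc (D.h c : ℝ) (comp N K v (D.rep c) * comp N K' w (D.rep c)) (D.h c) =
        ∑ n ∈ Finset.range (D.h c), cc D K v c n * cc D K' w c (D.h c - n) := by
      rw [hcoef, Finset.Nat.sum_antidiagonal_eq_sum_range_succ_mk, Finset.sum_range_succ]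
      simp only [Nat.sub_self, hW0, mul_zero, add_zero]
      rfl
    have := Trace_tendsto_sum_shift (D.h_pos c) hP hP0
    rw [hPh] at this
    exact this
  have := tendsto_finsetSum Finset.univ (fun c _ ↦ hB c)
  refine this.congr fun z ↦ ?_
  rw [hA z, Finset.sum_div]

end Fermat.Agent.S20
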