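import Fermat.Agent.S20.Helper16Cusps
import Fermat.Agent.S20.Helper16Trace

/-!
# S20, module E : `Cusps` (expansions at the cusps)

The interface theorems live in the two imported files:
* `Helper16Cusps` : `cc_add`, `cc_smul`, `cc_R1_mul`, `cc_R1_mul_SF`, `mem_SF_iff`, `MF_div_Df`,
  `SF_div_Df`;
* `Helper16Trace` : `trace_mem`, `trace_tendsto`.
-/
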