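import Fermat.Agent.S20.Defs
import Fermat.Prelude.Thm_ModularForm_sturm_bound_Gamma0
import Fermat.Prelude.Thm_CongruenceSubgroup_one_mem_strictPeriods_Gamma0

/-!
# S20, module B (`Forms`): basic facts on `MF`, `SF`, `comp`

* inclusions `SF ≤ MF`, `R1 ≤ MF`, products, `Δ ∈ SF N 12`;
* vanishing in negative / odd weight, constants in weight `0`;
* finite-dimensionality and the Sturm bound (Prelude `ModularForm.sturm_bound_Gamma0`);
* `(E₄, E₆)` is a regular sequence on `MF` and on `SF`;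
* the components `comp N K f x = f ∣[K] (x.out)⁻¹`.

Only `Defs` and the Prelude Sturm bound are imported.  Private helpers are prefixed `Forms_`.
-/

set_option autoImplicit false
set_option linter.unusedSectionVars false

namespace Fermat.Agent.S20

open UpperHalfPlane ModularForm MatrixGroups CongruenceSubgroup Matrix.SpecialLinearGroup Filter
open Asymptotics
open scoped Topology Manifold

variable {N : ℕ} [NeZero N]

/-! ### Level-one facts used below (all from Mathlib) -/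

/-- A level-one modular form tends to its constant `q`-coefficient at `i∞`. -/
theorem Forms_tendsto_levelOne {k : ℤ} (f : ModularForm 𝒮ℒ k) :
    Tendsto f atImInfty (𝓝 ((qExpansion 1 f).coeff 0)) := by
  have hanal := ModularFormClass.analyticAt_cuspFunction_zero f one_pos one_mem_strictPeriods_SL
  have hper := SlashInvariantFormClass.periodic_comp_ofComplex f one_mem_strictPeriods_SL
  have h0 : (qExpansion 1 f).coeff 0 = cuspFunction 1 f 0 := by
    rw [qExpansion_coeff_zero one_pos hanal hper, cuspFunction_apply_zero one_pos hanal hper]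
  rw [h0]
  exact (hanal.continuousAt.tendsto.comp (qParam_tendsto_atImInfty one_pos)).congr
    (fun τ ↦ SlashInvariantFormClass.eq_cuspFunction f τ one_mem_strictPeriods_SL
      one_ne_zero)

theorem Forms_tendsto_E₄ : Tendsto E₄ atImInfty (𝓝 1) := by
  have := Forms_tendsto_levelOne E₄
  rwa [EisensteinSeries.E_qExpansion_coeff_zero _ ⟨2, rfl⟩] at this

/-- `E₄` and `E₆` have no common zero on `ℍ`. -/
theorem Forms_E₄_E₆_not_both_zero (z : ℍ) : E₄ z ≠ 0 ∨ E₆ z ≠ 0 := by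
  by_contra h
  push Not at h
  have h1 := ModularForm.discriminant_eq_E₄_cube_sub_E₆_sq z
  rw [h.1, h.2] at h1
  exact ModularForm.discriminant_ne_zero z (by simpa using h1)

/-! ### Restriction from level one to `Γ₀(N)` -/

/-- Restriction of a level-one modular form to `Γ₀(N)`. -/
def Forms_res (N : ℕ) [NeZero N] {k : ℤ} (f : ModularForm 𝒮ℒ k) : ModularForm (G0 N) k where
  toFun := f
  slash_action_eq' := by
    rintro _ ⟨γ, -, rfl⟩
    exact f.slash_action_eq' _ ⟨γ, rfl⟩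
  holo' := f.holo'
  bdd_at_cusps' := fun hc =>
    f.bdd_at_cusps' ((Subgroup.IsArithmetic.isCusp_iff_isCusp_SL2Z _).mp hc)

/-- Restriction of a level-one cusp form to `Γ₀(N)`. -/
def Forms_resCusp (N : ℕ) [NeZero N] {k : ℤ} (f : CuspForm 𝒮ℒ k) : CuspForm (G0 N) k where
  toFun := f
  slash_action_eq' := by
    rintro _ ⟨γ, -, rfl⟩
    exact f.slash_action_eq' _ ⟨γ, rfl⟩
  holo' := f.holo'
  zero_at_cusps' := fun hc =>
    f.zero_at_cusps' ((Subgroup.IsArithmetic.isCusp_iff_isCusp_SL2Z _).mp hc)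

/-! ### Inclusions and products -/

theorem SF_le_MF (N : ℕ) (K : ℤ) : SF N K ≤ MF N K := by
  intro f hf
  obtain ⟨g, rfl⟩ := mem_SF.mp hf
  exact mem_MF.mpr ⟨CuspForm.toModularFormₗ g, rfl⟩

theorem R1_le_MF (N : ℕ) [NeZero N] (K : ℤ) : R1 K ≤ MF N K := by
  intro f hf
  obtain ⟨g, rfl⟩ := mem_R1.mp hf
  exact mem_MF.mpr ⟨Forms_res N g, rfl⟩

theorem MF_mul {K K' : ℤ} {f g : ℍ → ℂ} (hf : f ∈ MF N K) (hg : g ∈ MF N K') :
    f * g ∈ MF N (K + K') := by
  obtain ⟨F, rfl⟩ := mem_MF.mp hf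
  obtain ⟨G, rfl⟩ := mem_MF.mp hg
  exact mem_MF.mpr ⟨F.mul G, rfl⟩

theorem SF_mul_MF {K K' : ℤ} {f g : ℍ → ℂ} (hf : f ∈ SF N K) (hg : g ∈ MF N K') :
    f * g ∈ SF N (K + K') := by
  obtain ⟨F, rfl⟩ := mem_SF.mp hf
  obtain ⟨G, rfl⟩ := mem_MF.mp hg
  exact mem_SF.mpr ⟨F.mulModularForm G, rfl⟩

theorem Df_mem_SF : Df ∈ SF N 12 :=
  mem_SF.mpr ⟨Forms_resCusp N CuspForm.discriminant, rfl⟩

theorem MF_mdiff {K : ℤ} {f : ℍ → ℂ} (hf : f ∈ MF N K) : MDiff f := by
  obtain ⟨F, rfl⟩ := mem_MF.mp hf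
  exact F.holo'

theorem MF_neg {K : ℤ} (hK : K < 0) : MF N K = ⊥ := by
  rw [eq_bot_iff]
  intro f hf
  obtain ⟨F, rfl⟩ := mem_MF.mp hf
  rw [ModularForm.isZero_of_neg_weight hK F]
  simp

theorem Forms_neg_one_mem (N : ℕ) : (-1 : GL (Fin 2) ℝ) ∈ G0 N := by
  refine ⟨-1, ?_, ?_⟩
  · simp [Gamma0_mem]
  · ext i j
    simp [mapGL]

theorem MF_odd {K : ℤ} (hK : Odd K) : MF N K = ⊥ := by
  rw [eq_bot_iff]
  intro f hf
  obtain ⟨F, rfl⟩ := mem_MF.mp hf
  rw [ModularForm.eq_zero_of_neg_one_mem (Forms_neg_one_mem N) hK F]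
  simp

theorem MF_zero {f : ℍ → ℂ} (hf : f ∈ MF N 0) : ∃ c : ℂ, f = fun _ => c := by
  obtain ⟨F, rfl⟩ := mem_MF.mp hf
  obtain ⟨c, hc⟩ := ModularForm.eq_const_of_weight_zero F
  exact ⟨c, hc⟩

theorem SF_nonpos {K : ℤ} (hK : K ≤ 0) : SF N K = ⊥ := by
  rw [eq_bot_iff]
  rcases hK.lt_or_eq with hK | rfl
  · exact (SF_le_MF N K).trans (MF_neg hK).le
  · intro f hf
    obtain ⟨c, hc⟩ := MF_zero (SF_le_MF N 0 hf)
    obtain ⟨F, rfl⟩ := mem_SF.mp hf
    have h0 : IsZeroAtImInfty (F : ℍ → ℂ) := by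
      have := CuspFormClass.zero_at_infty_slash (k := 0) F (1 : SL(2, ℤ))
      simpa using this
    have h1 : Tendsto (F : ℍ → ℂ) atImInfty (𝓝 c) := by
      rw [hc]
      exact tendsto_const_nhds
    have hc0 : c = 0 := tendsto_nhds_unique h1 h0
    rw [Submodule.mem_bot, hc, hc0]
    rfl

/-! ### Finite-dimensionality and the Sturm bound -/

/-- `mfCoe` is injective. -/
theorem Forms_mfCoe_injective (Γ : Subgroup (GL (Fin 2) ℝ)) [Γ.HasDetOne] (k : ℤ) :
    Function.Injective (mfCoe Γ k) := fun _ _ h => DFunLike.coe_injective h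

/-- `cfCoe` is injective. -/
theorem Forms_cfCoe_injective (Γ : Subgroup (GL (Fin 2) ℝ)) [Γ.HasDetOne] (k : ℤ) :
    Function.Injective (cfCoe Γ k) := fun _ _ h => DFunLike.coe_injective h

/-- The first `B + 1` coefficients of the `q`-expansion, as a linear map. -/
noncomputable def Forms_coeffMap (N : ℕ) [NeZero N] (K : ℤ) (B : ℕ) :
    ModularForm (G0 N) K →ₗ[ℂ] (Fin (B + 1) → ℂ) where
  toFun f i := (qExpansion 1 f).coeff i
  map_add' f g := by
    ext i
    have := ModularForm.qExpansion_add one_pos (one_mem_strictPeriods_Gamma0 N) f g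
    simp only [FunLike.coe_add, Pi.add_apply]
    rw [this, map_add]
  map_smul' c f := by
    ext i
    have := ModularForm.qExpansion_smul one_pos (one_mem_strictPeriods_Gamma0 N) c f
    simp only [FunLike.coe_smul, Pi.smul_apply, RingHom.id_apply]
    rw [this]
    simp

theorem Forms_coeffMap_injective (N : ℕ) [NeZero N] (K : ℤ) :
    Function.Injective (Forms_coeffMap N K ((K * (Gamma0 N).index).toNat / 12)) := by
  rw [← LinearMap.ker_eq_bot, LinearMap.ker_eq_bot']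
  intro f hf
  refine ModularForm.sturm_bound_Gamma0 N f (fun n hn => ?_)
  have := congrFun hf ⟨n, Nat.lt_succ_of_le hn⟩
  simpa [Forms_coeffMap] using this

theorem Forms_finiteDimensional (N : ℕ) [NeZero N] (K : ℤ) :
    FiniteDimensional ℂ (ModularForm (G0 N) K) :=
  FiniteDimensional.of_injective _ (Forms_coeffMap_injective N K)

theorem finiteDimensional_MF (N : ℕ) [NeZero N] (K : ℤ) : FiniteDimensional ℂ (MF N K) := by
  have := Forms_finiteDimensional N K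
  exact LinearMap.finiteDimensional_range (mfCoe (G0 N) K)

/-- Sturm bound (Prelude `ModularForm.sturm_bound_Gamma0`). -/
theorem finrank_MF_le (N : ℕ) [NeZero N] (K : ℕ) :
    Module.finrank ℂ (MF N K) ≤ K * Nat.card (X N) / 12 + 1 := by
  have h1 : Module.finrank ℂ (MF N K) = Module.finrank ℂ (ModularForm (G0 N) K) :=
    (LinearEquiv.ofInjective (mfCoe (G0 N) K) (Forms_mfCoe_injective _ _)).finrank_eq.symm
  have h2 := LinearMap.finrank_le_finrank_of_injective (Forms_coeffMap_injective N (K : ℤ))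
  have h3 : (((K : ℤ) * ((Gamma0 N).index : ℤ)).toNat) = K * Nat.card (X N) := by
    rw [← Nat.cast_mul, Int.toNat_natCast]
    rfl
  rw [h1]
  simpa [h3] using h2

theorem finrank_SF_two (N : ℕ) [NeZero N] :
    Module.finrank ℂ (CuspForm (G0 N) 2) = Module.finrank ℂ (SF N 2) :=
  (LinearEquiv.ofInjective (cfCoe (G0 N) 2) (Forms_cfCoe_injective _ _)).finrank_eq

/-! ### `(E₄, E₆)` is a regular sequence -/

theorem E4f_mul_cancel {f : ℍ → ℂ} (hf : Continuous f) (h : E4f * f = 0) : f = 0 := by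
  by_contra hne
  obtain ⟨z₀, hz₀⟩ : ∃ z₀, f z₀ ≠ 0 := by
    by_contra hcon
    push Not at hcon
    exact hne (funext hcon)
  have hopen : IsOpen {w : ℍ | f w ≠ 0} := isOpen_ne_fun hf continuous_const
  have hev : ∀ᶠ w in 𝓝 z₀, E₄ w = 0 := by
    filter_upwards [hopen.mem_nhds hz₀] with w hw
    have := congrFun h w
    simp only [Pi.mul_apply, Pi.zero_apply, mul_eq_zero] at this
    exact this.resolve_right hw
  have hfreq : ∃ᶠ w in 𝓝[≠] z₀, E₄ w = 0 := (hev.filter_mono nhdsWithin_le_nhds).frequently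
  have hE : (E₄ : ℍ → ℂ) = 0 := UpperHalfPlane.eq_zero_of_frequently E₄.holo' hfreq
  have h1 := Forms_tendsto_E₄
  rw [hE] at h1
  have h0 : Tendsto (0 : ℍ → ℂ) atImInfty (𝓝 0) := tendsto_const_nhds
  exact one_ne_zero (tendsto_nhds_unique h1 h0)

/-- The candidate quotient: `f / E₄` away from the zeros of `E₄`, `g / E₆` at them. -/
noncomputable def Forms_quot (f g : ℍ → ℂ) : ℍ → ℂ :=
  open Classical in fun z => if E₄ z = 0 then g z / E₆ z else f z / E₄ z

theorem Forms_E₄_mul_quot {f g : ℍ → ℂ} (hfg : ∀ z, E₆ z * f z = E₄ z * g z) (z : ℍ) :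
    E₄ z * Forms_quot f g z = f z := by
  unfold Forms_quot
  split_ifs with hz
  · have h6 : E₆ z ≠ 0 := (Forms_E₄_E₆_not_both_zero z).resolve_left (not_not.mpr hz)
    have := hfg z
    rw [hz, zero_mul] at this
    rw [hz, zero_mul]
    exact ((mul_eq_zero.mp this).resolve_left h6).symm
  · field_simp

theorem Forms_E₆_mul_quot {f g : ℍ → ℂ} (hfg : ∀ z, E₆ z * f z = E₄ z * g z) (z : ℍ) :
    E₆ z * Forms_quot f g z = g z := by
  unfold Forms_quot
  split_ifs with hz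
  · have h6 : E₆ z ≠ 0 := (Forms_E₄_E₆_not_both_zero z).resolve_left (not_not.mpr hz)
    field_simp
  · have := hfg z
    field_simp
    linear_combination this

theorem Forms_quot_slash {k : ℤ} {f g : ℍ → ℂ} (hfg : ∀ z, E₆ z * f z = E₄ z * g z)
    (γ : SL(2, ℤ)) (hf : f ∣[k] γ = f) (hg : g ∣[k + 2] γ = g) :
    Forms_quot f g ∣[k - 4] γ = Forms_quot f g := by
  have e4 : (E₄ : ℍ → ℂ) ∣[(4 : ℤ)] γ = E₄ := E₄.slash_action_eq' _ ⟨γ, rfl⟩
  have e6 : (E₆ : ℍ → ℂ) ∣[(6 : ℤ)] γ = E₆ := E₆.slash_action_eq' _ ⟨γ, rfl⟩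
  have h4' : (E₄ : ℍ → ℂ) * Forms_quot f g = f := funext (Forms_E₄_mul_quot hfg)
  have h6' : (E₆ : ℍ → ℂ) * Forms_quot f g = g := funext (Forms_E₆_mul_quot hfg)
  have a4 : (E₄ : ℍ → ℂ) * (Forms_quot f g ∣[k - 4] γ) = f := by
    have := ModularForm.mul_slash_SL2 4 (k - 4) γ E₄ (Forms_quot f g)
    rw [h4', e4, show (4 : ℤ) + (k - 4) = k by ring, hf] at this
    exact this.symm
  have a6 : (E₆ : ℍ → ℂ) * (Forms_quot f g ∣[k - 4] γ) = g := by
    have := ModularForm.mul_slash_SL2 6 (k - 4) γ E₆ (Forms_quot f g)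
    rw [h6', e6, show (6 : ℤ) + (k - 4) = k + 2 by ring, hg] at this
    exact this.symm
  ext z
  rcases Forms_E₄_E₆_not_both_zero z with hz | hz
  · apply mul_left_cancel₀ hz
    rw [Forms_E₄_mul_quot hfg z]
    exact congrFun a4 z
  · apply mul_left_cancel₀ hz
    rw [Forms_E₆_mul_quot hfg z]
    exact congrFun a6 z

theorem Forms_quot_mdifferentiable {f g : ℍ → ℂ} (hfg : ∀ z, E₆ z * f z = E₄ z * g z)
    (hf : MDiff f) (hg : MDiff g) : MDiff (Forms_quot f g) := by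
  intro z
  rcases Forms_E₄_E₆_not_both_zero z with hz | hz
  · have hev : Forms_quot f g =ᶠ[𝓝 z] fun w => f w / E₄ w := by
      have hopen : IsOpen {w : ℍ | E₄ w ≠ 0} :=
        isOpen_ne_fun E₄.holo'.continuous continuous_const
      filter_upwards [hopen.mem_nhds hz] with w hw
      simp only [Forms_quot, if_neg hw]
    exact ((hf z).div (E₄.holo' z) hz).congr_of_eventuallyEq hev
  · have hev : Forms_quot f g =ᶠ[𝓝 z] fun w => g w / E₆ w := by
      have hopen : IsOpen {w : ℍ | E₆ w ≠ 0} :=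
        isOpen_ne_fun E₆.holo'.continuous continuous_const
      filter_upwards [hopen.mem_nhds hz] with w hw
      have := Forms_E₆_mul_quot hfg w
      field_simp
      linear_combination this
    exact ((hg z).div (E₆.holo' z) hz).congr_of_eventuallyEq hev

theorem Forms_E₄_mul_quot_slash {k : ℤ} {f g : ℍ → ℂ} (hfg : ∀ z, E₆ z * f z = E₄ z * g z)
    (γ : SL(2, ℤ)) : (E₄ : ℍ → ℂ) * (Forms_quot f g ∣[k - 4] γ) = f ∣[k] γ := by
  have e4 : (E₄ : ℍ → ℂ) ∣[(4 : ℤ)] γ = E₄ := E₄.slash_action_eq' _ ⟨γ, rfl⟩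
  have h4' : (E₄ : ℍ → ℂ) * Forms_quot f g = f := funext (Forms_E₄_mul_quot hfg)
  have := ModularForm.mul_slash_SL2 4 (k - 4) γ E₄ (Forms_quot f g)
  rw [h4', e4, show (4 : ℤ) + (k - 4) = k by ring] at this
  exact this.symm

theorem Forms_eventually_E₄_norm_ge : ∀ᶠ z in atImInfty, (1 / 2 : ℝ) ≤ ‖E₄ z‖ := by
  have h := Forms_tendsto_E₄.norm
  rw [norm_one] at h
  exact h.eventually (eventually_ge_nhds (by norm_num))

theorem Forms_isBigO_of_E₄_mul {F G : ℍ → ℂ} (h : (E₄ : ℍ → ℂ) * F = G) :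
    F =O[atImInfty] G := by
  refine IsBigO.of_bound 2 ?_
  filter_upwards [Forms_eventually_E₄_norm_ge] with z hz
  have : ‖G z‖ = ‖E₄ z‖ * ‖F z‖ := by rw [← h, Pi.mul_apply, norm_mul]
  rw [this]
  nlinarith [norm_nonneg (F z)]

theorem Forms_bdd_of_E₄_mul {F G : ℍ → ℂ} (h : (E₄ : ℍ → ℂ) * F = G)
    (hG : IsBoundedAtImInfty G) : IsBoundedAtImInfty F :=
  (Forms_isBigO_of_E₄_mul h).trans hG

theorem Forms_zero_of_E₄_mul {F G : ℍ → ℂ} (h : (E₄ : ℍ → ℂ) * F = G)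
    (hG : IsZeroAtImInfty G) : IsZeroAtImInfty F :=
  (Forms_isBigO_of_E₄_mul h).trans_tendsto hG

/-- Division lemma for modular forms on a finite-index subgroup of `SL(2,ℤ)`. -/
theorem Forms_div_E₄ (Γ : Subgroup SL(2, ℤ)) {k : ℤ} [Γ.FiniteIndex] (f : ModularForm Γ k)
    (g : ModularForm Γ (k + 2)) (hfg : ∀ z, E₆ z * f z = E₄ z * g z) :
    ∃ h : ModularForm Γ (k - 4), ∀ z, f z = E₄ z * h z := by
  refine ⟨{ toFun := Forms_quot f g
            slash_action_eq' := ?_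
            holo' := Forms_quot_mdifferentiable hfg f.holo' g.holo'
            bdd_at_cusps' := ?_ }, fun z => (Forms_E₄_mul_quot hfg z).symm⟩
  · rintro _ ⟨γ, hγ, rfl⟩
    exact Forms_quot_slash hfg γ (f.slash_action_eq' _ ⟨γ, hγ, rfl⟩)
      (g.slash_action_eq' _ ⟨γ, hγ, rfl⟩)
  · intro c hc
    have hc' := hc
    rw [Subgroup.IsArithmetic.isCusp_iff_isCusp_SL2Z] at hc'
    rw [OnePoint.isBoundedAt_iff_forall_SL2Z hc']
    intro γ hγ
    have hfb := (OnePoint.isBoundedAt_iff_forall_SL2Z hc').mp (f.bdd_at_cusps' hc) γ hγ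
    exact Forms_bdd_of_E₄_mul (Forms_E₄_mul_quot_slash hfg γ) hfb

/-- Division lemma, cuspidal version. -/
theorem Forms_div_E₄_cusp (Γ : Subgroup SL(2, ℤ)) {k : ℤ} [Γ.FiniteIndex] (f : CuspForm Γ k)
    (g : ModularForm Γ (k + 2)) (hfg : ∀ z, E₆ z * f z = E₄ z * g z) :
    ∃ h : CuspForm Γ (k - 4), ∀ z, f z = E₄ z * h z := by
  refine ⟨{ toFun := Forms_quot f g
            slash_action_eq' := ?_
            holo' := Forms_quot_mdifferentiable hfg f.holo' g.holo'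
            zero_at_cusps' := ?_ }, fun z => (Forms_E₄_mul_quot hfg z).symm⟩
  · rintro _ ⟨γ, hγ, rfl⟩
    exact Forms_quot_slash hfg γ (f.slash_action_eq' _ ⟨γ, hγ, rfl⟩)
      (g.slash_action_eq' _ ⟨γ, hγ, rfl⟩)
  · intro c hc
    have hc' := hc
    rw [Subgroup.IsArithmetic.isCusp_iff_isCusp_SL2Z] at hc'
    rw [OnePoint.isZeroAt_iff_forall_SL2Z hc']
    intro γ hγ
    have hfb := (OnePoint.isZeroAt_iff_forall_SL2Z hc').mp (f.zero_at_cusps' hc) γ hγ
    exact Forms_zero_of_E₄_mul (Forms_E₄_mul_quot_slash hfg γ) hfb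

/-- `(E₄, E₆)` is a regular sequence on `MF`: if `E₆ f = E₄ g` then `f = E₄ h`
(`h = f/E₄ = g/E₆` is holomorphic because `E₄, E₆` have no common zero, `Δ ≠ 0`). -/
theorem MF_div {K : ℤ} {f g : ℍ → ℂ} (hf : f ∈ MF N K) (hg : g ∈ MF N (K + 2))
    (h : E6f * f = E4f * g) : ∃ h ∈ MF N (K - 4), f = E4f * h := by
  obtain ⟨F, rfl⟩ := mem_MF.mp hf
  obtain ⟨G, rfl⟩ := mem_MF.mp hg
  obtain ⟨H, hH⟩ := Forms_div_E₄ (Gamma0 N) F G (fun z => congrFun h z)
  exact ⟨H, mem_MF.mpr ⟨H, rfl⟩, funext hH⟩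

theorem SF_div {K : ℤ} {f g : ℍ → ℂ} (hf : f ∈ SF N K) (hg : g ∈ SF N (K + 2))
    (h : E6f * f = E4f * g) : ∃ h ∈ SF N (K - 4), f = E4f * h := by
  obtain ⟨F, rfl⟩ := mem_SF.mp hf
  obtain ⟨G, rfl⟩ := mem_MF.mp (SF_le_MF N (K + 2) hg)
  obtain ⟨H, hH⟩ := Forms_div_E₄_cusp (Gamma0 N) F G (fun z => congrFun h z)
  exact ⟨H, mem_SF.mpr ⟨H, rfl⟩, funext hH⟩

/-! ### Components -/

/-- components are independent of the representative. -/
theorem comp_mk {K : ℤ} {f : ℍ → ℂ} (hf : f ∈ MF N K) (g : SL(2, ℤ)) :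
    comp N K f (g : X N) = f ∣[K] g⁻¹ := by
  obtain ⟨F, rfl⟩ := mem_MF.mp hf
  obtain ⟨h, hh⟩ := QuotientGroup.mk_out_eq_mul (Gamma0 N) g
  unfold comp
  rw [hh, mul_inv_rev, SlashAction.slash_mul]
  congr 1
  exact F.slash_action_eq' _ ⟨((h⁻¹ : Gamma0 N) : SL(2, ℤ)), (h⁻¹).2, rfl⟩

theorem comp_smul {K : ℤ} {f : ℍ → ℂ} (hf : f ∈ MF N K) (g : SL(2, ℤ)) (x : X N) :
    comp N K f (g • x) = comp N K f x ∣[K] g⁻¹ := by
  obtain ⟨a, rfl⟩ := QuotientGroup.mk_surjective x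
  rw [MulAction.Quotient.smul_mk, comp_mk hf, comp_mk hf, smul_eq_mul, mul_inv_rev,
    SlashAction.slash_mul]

theorem comp_add (K : ℤ) (f g : ℍ → ℂ) (x : X N) :
    comp N K (f + g) x = comp N K f x + comp N K g x := by
  unfold comp
  exact SlashAction.add_slash _ _ _ _

theorem comp_const_smul (K : ℤ) (c : ℂ) (f : ℍ → ℂ) (x : X N) :
    comp N K (c • f) x = c • comp N K f x := by
  unfold comp
  exact ModularForm.SL_smul_slash _ _ _ _

theorem comp_mul (K K' : ℤ) (f g : ℍ → ℂ) (x : X N) :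
    comp N (K + K') (f * g) x = comp N K f x * comp N K' g x := by
  unfold comp
  exact ModularForm.mul_slash_SL2 _ _ _ _ _

theorem comp_R1 {m : ℤ} {a : ℍ → ℂ} (ha : a ∈ R1 m) (x : X N) : comp N m a x = a := by
  obtain ⟨A, rfl⟩ := mem_R1.mp ha
  exact A.slash_action_eq' _ ⟨_, rfl⟩

theorem comp_mdiff {K : ℤ} {f : ℍ → ℂ} (hf : f ∈ MF N K) (x : X N) : MDiff (comp N K f x) := by
  unfold comp
  rw [ModularForm.SL_slash]
  exact (MF_mdiff hf).slash K _

theorem comp_isBoundedAtImInfty {K : ℤ} {f : ℍ → ℂ} (hf : f ∈ MF N K) (x : X N) :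
    IsBoundedAtImInfty (comp N K f x) := by
  obtain ⟨F, rfl⟩ := mem_MF.mp hf
  exact ModularFormClass.bdd_at_infty_slash F _

theorem comp_isZeroAtImInfty {K : ℤ} {f : ℍ → ℂ} (hf : f ∈ SF N K) (x : X N) :
    IsZeroAtImInfty (comp N K f x) := by
  obtain ⟨F, rfl⟩ := mem_SF.mp hf
  exact CuspFormClass.zero_at_infty_slash F _

end Fermat.Agent.S20
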