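import Mathlib

namespace Fermat.Agent.S20

open Module

/-- Telescoping count used to bound the number of generators. -/
theorem RegGraded.count_aux (m : ℤ → ℤ) (α β : ℕ) (hm0 : ∀ k, 0 ≤ m k)
    (hneg : ∀ k, k < 0 → m k = 0) (hodd : ∀ k, Odd k → m k = 0)
    (hnn : ∀ k, 0 ≤ m k - m (k - 4) - m (k - 6) + m (k - 10))
    (hgrowth : ∀ k, 0 ≤ k → m k ≤ α * k + β) (L : ℕ) :
    ∑ K ∈ Finset.range L, (m K - m (K - 4) - m (K - 6) + m (K - 10)) ≤ 12 * α := by
  set n : ℤ → ℤ := fun k => m k - m (k - 4) - m (k - 6) + m (k - 10) with hn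
  set U : ℤ → ℤ := fun L => m (L - 1) + m (L - 2) + m (L - 3) + m (L - 4) with hU
  have tel : ∀ L : ℕ, ∑ K ∈ Finset.range L, n K = U L - U (L - 6) := by
    intro L
    induction L with
    | zero =>
      simp only [Finset.range_zero, Finset.sum_empty, hU, Nat.cast_zero]
      rw [hneg, hneg, hneg, hneg, hneg, hneg, hneg, hneg] <;> norm_num
    | succ L ih =>
      rw [Finset.sum_range_succ, ih]
      simp only [hn, hU]
      push_cast
      have e1 : (L : ℤ) + 1 - 1 = L := by ring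
      have e2 : (L : ℤ) + 1 - 2 = L - 1 := by ring
      have e3 : (L : ℤ) + 1 - 3 = L - 2 := by ring
      have e4 : (L : ℤ) + 1 - 4 = L - 3 := by ring
      have e5 : (L : ℤ) + 1 - 6 - 1 = L - 6 := by ring
      have e6 : (L : ℤ) + 1 - 6 - 2 = L - 6 - 1 := by ring
      have e7 : (L : ℤ) + 1 - 6 - 3 = L - 6 - 2 := by ring
      have e8 : (L : ℤ) + 1 - 6 - 4 = L - 6 - 3 := by ring
      have e9 : (L : ℤ) - 6 - 4 = L - 10 := by ring
      rw [e1, e2, e3, e4, e5, e6, e7, e8, e9]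
      ring
  have mono : ∀ L L' : ℕ, L ≤ L' →
      ∑ K ∈ Finset.range L, n K ≤ ∑ K ∈ Finset.range L', n K := by
    intro L L' hLL'
    apply Finset.sum_le_sum_of_subset_of_nonneg
    · exact Finset.range_mono hLL'
    · intro i _ _
      exact hnn i
  by_contra hcon
  replace hcon := not_le.1 hcon
  have hcon' : 12 * (α : ℤ) + 1 ≤ ∑ K ∈ Finset.range L, n K := by
    have := hcon
    simp only [hn]
    omega
  have hUt : ∀ t : ℕ, (t : ℤ) * (12 * α + 1) ≤ U ((L : ℤ) + 6 * t) := by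
    intro t
    induction t with
    | zero =>
      simp only [Nat.cast_zero, zero_mul, mul_zero, add_zero, hU]
      have := hm0 ((L : ℤ) - 1); have := hm0 ((L : ℤ) - 2)
      have := hm0 ((L : ℤ) - 3); have := hm0 ((L : ℤ) - 4)
      linarith
    | succ t ih =>
      have h1 := tel (L + 6 * t + 6)
      have h2 := mono L (L + 6 * t + 6) (by omega)
      have e1 : (((L + 6 * t + 6 : ℕ) : ℤ)) = (L : ℤ) + 6 * ((t + 1 : ℕ) : ℤ) := by push_cast; ring
      have e2 : (((L + 6 * t + 6 : ℕ) : ℤ)) - 6 = (L : ℤ) + 6 * (t : ℤ) := by push_cast; ring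
      rw [e2, e1] at h1
      push_cast at ih ⊢
      push_cast at h1
      nlinarith
  have hkey : ∀ (L k : ℤ), 0 ≤ L → k ≤ L → m k ≤ α * L + β := by
    intro L k hL hk
    rcases lt_or_ge k 0 with hk0 | hk0
    · rw [hneg k hk0]
      positivity
    · have := hgrowth k hk0
      have h3 : (α : ℤ) * k ≤ α * L := by
        apply mul_le_mul_of_nonneg_left hk
        positivity
      linarith
  have hUb : ∀ L : ℤ, 0 ≤ L → U L ≤ 2 * (α * L + β) := by
    intro L hL
    simp only [hU]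
    rcases Int.even_or_odd L with hev | hod
    · have o1 : Odd (L - 1) := by
        obtain ⟨r, hr⟩ := hev; exact ⟨r - 1, by omega⟩
      have o3 : Odd (L - 3) := by
        obtain ⟨r, hr⟩ := hev; exact ⟨r - 2, by omega⟩
      rw [hodd _ o1, hodd _ o3]
      have a := hkey L (L - 2) hL (by omega)
      have b := hkey L (L - 4) hL (by omega)
      linarith
    · have o2 : Odd (L - 2) := by
        obtain ⟨r, hr⟩ := hod; exact ⟨r - 1, by omega⟩
      have o4 : Odd (L - 4) := by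
        obtain ⟨r, hr⟩ := hod; exact ⟨r - 2, by omega⟩
      rw [hodd _ o2, hodd _ o4]
      have a := hkey L (L - 1) hL (by omega)
      have b := hkey L (L - 3) hL (by omega)
      linarith
  have h1 := hUt (2 * α * L + 2 * β + 1)
  have h2 := hUb ((L : ℤ) + 6 * ((2 * α * L + 2 * β + 1 : ℕ) : ℤ)) (by positivity)
  push_cast at h1 h2
  nlinarith

section Graded

variable {𝕜 V : Type*} [Field 𝕜] [CommRing V] [Algebra 𝕜 V]

/-- Hypotheses of the abstract "regular sequence implies free" theorem: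
`A` is the graded coefficient ring (level one forms), generated by `E4`, `E6`;
`M` is a graded module (forms of higher level) on which `(E4, E6)` is a regular sequence. -/
structure RegGraded (A M : ℤ → Submodule 𝕜 V) (E4 E6 : V) : Prop where
  A_neg : ∀ k : ℤ, k < 0 → A k = ⊥
  A_zero : ∀ a ∈ A 0, ∃ c : 𝕜, a = algebraMap 𝕜 V c
  one_mem : (1 : V) ∈ A 0
  E4_mul_A : ∀ (k : ℤ), ∀ a ∈ A k, E4 * a ∈ A (k + 4)
  E6_mul_A : ∀ (k : ℤ), ∀ a ∈ A k, E6 * a ∈ A (k + 6)
  A_dec : ∀ (k : ℤ), 0 < k → ∀ a ∈ A k, ∃ b ∈ A (k - 4), ∃ c ∈ A (k - 6), a = E4 * b + E6 * c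
  M_neg : ∀ k : ℤ, k < 0 → M k = ⊥
  E4_mul_M : ∀ (k : ℤ), ∀ f ∈ M k, E4 * f ∈ M (k + 4)
  E6_mul_M : ∀ (k : ℤ), ∀ f ∈ M k, E6 * f ∈ M (k + 6)
  E4_inj : ∀ (k : ℤ), ∀ f ∈ M k, E4 * f = 0 → f = 0
  div : ∀ (k : ℤ), ∀ f ∈ M k, ∀ g ∈ M (k + 2), E6 * f = E4 * g → ∃ h ∈ M (k - 4), f = E4 * h
  M_fin : ∀ k : ℤ, Module.Finite 𝕜 (M k)

namespace RegGraded

variable {A M : ℤ → Submodule 𝕜 V} {E4 E6 : V}

theorem E4_mul_M' (h : RegGraded A M E4 E6) {k k' : ℤ} {f : V} (hf : f ∈ M k) (e : k + 4 = k') :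
    E4 * f ∈ M k' := e ▸ h.E4_mul_M k f hf

theorem E6_mul_M' (h : RegGraded A M E4 E6) {k k' : ℤ} {f : V} (hf : f ∈ M k) (e : k + 6 = k') :
    E6 * f ∈ M k' := e ▸ h.E6_mul_M k f hf

theorem E4_mul_A' (h : RegGraded A M E4 E6) {k k' : ℤ} {a : V} (ha : a ∈ A k) (e : k + 4 = k') :
    E4 * a ∈ A k' := e ▸ h.E4_mul_A k a ha

theorem E6_mul_A' (h : RegGraded A M E4 E6) {k k' : ℤ} {a : V} (ha : a ∈ A k) (e : k + 6 = k') :
    E6 * a ∈ A k' := e ▸ h.E6_mul_A k a ha

theorem algebraMap_mem (h : RegGraded A M E4 E6) (c : 𝕜) : algebraMap 𝕜 V c ∈ A 0 := by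
  rw [Algebra.algebraMap_eq_smul_one]
  exact (A 0).smul_mem c h.one_mem

/-- `A j * M k ⊆ M (j + k)`. -/
theorem mul_mem (h : RegGraded A M E4 E6) {j k l : ℤ} {a f : V} (ha : a ∈ A j) (hf : f ∈ M k)
    (e : j + k = l) : a * f ∈ M l := by
  subst e
  suffices H : ∀ n : ℕ, ∀ j : ℤ, j < n → ∀ (a : V), a ∈ A j → a * f ∈ M (j + k) from
    H (j.toNat + 1) j (by omega) a ha
  intro n
  induction n with
  | zero =>
    intro j hj a ha
    have h0 : a = 0 := by
      have := h.A_neg j (by simpa using hj)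
      rw [this] at ha
      simpa using ha
    simp [h0]
  | succ n ih =>
    intro j hj a ha
    rcases lt_trichotomy j 0 with hj0 | hj0 | hj0
    · have h0 : a = 0 := by
        have := h.A_neg j hj0
        rw [this] at ha
        simpa using ha
      simp [h0]
    · subst hj0
      obtain ⟨c, rfl⟩ := h.A_zero a ha
      rw [zero_add, ← Algebra.smul_def]
      exact (M k).smul_mem c hf
    · obtain ⟨b, hb, c, hc, rfl⟩ := h.A_dec j hj0 a ha
      have h1 := ih (j - 4) (by push_cast at hj; omega) b hb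
      have h2 := ih (j - 6) (by push_cast at hj; omega) c hc
      have e1 : E4 * (b * f) ∈ M (j + k) := h.E4_mul_M' h1 (by ring)
      have e2 : E6 * (c * f) ∈ M (j + k) := h.E6_mul_M' h2 (by ring)
      have : (E4 * b + E6 * c) * f = E4 * (b * f) + E6 * (c * f) := by ring
      rw [this]
      exact (M _).add_mem e1 e2


/-- The "decomposable part" `E4 * M (K-4) + E6 * M (K-6)` of `M K`. -/
def decomp (M : ℤ → Submodule 𝕜 V) (E4 E6 : V) (K : ℤ) : Submodule 𝕜 V :=
  (M (K - 4)).map (LinearMap.mulLeft 𝕜 E4) ⊔ (M (K - 6)).map (LinearMap.mulLeft 𝕜 E6)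

theorem mem_decomp_iff {E4 E6 : V} {K : ℤ} {x : V} :
    x ∈ decomp M E4 E6 K ↔ ∃ f ∈ M (K - 4), ∃ g ∈ M (K - 6), x = E4 * f + E6 * g := by
  unfold decomp
  rw [Submodule.mem_sup]
  constructor
  · rintro ⟨y, hy, z, hz, rfl⟩
    obtain ⟨f, hf, rfl⟩ := hy
    obtain ⟨g, hg, rfl⟩ := hz
    exact ⟨f, hf, g, hg, by simp⟩
  · rintro ⟨f, hf, g, hg, rfl⟩
    exact ⟨E4 * f, ⟨f, hf, by simp⟩, E6 * g, ⟨g, hg, by simp⟩, rfl⟩

theorem decomp_le (h : RegGraded A M E4 E6) (K : ℤ) : decomp M E4 E6 K ≤ M K := by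
  intro x hx
  obtain ⟨f, hf, g, hg, rfl⟩ := mem_decomp_iff.1 hx
  exact (M K).add_mem (h.E4_mul_M' hf (by ring)) (h.E6_mul_M' hg (by ring))

/-- Koszul exactness: a relation `E4 * f + E6 * g = 0` is the trivial one. -/
theorem koszul (h : RegGraded A M E4 E6) {K : ℤ} {f g : V} (hf : f ∈ M (K - 4))
    (hg : g ∈ M (K - 6)) (e : E4 * f + E6 * g = 0) :
    ∃ x ∈ M (K - 10), g = E4 * x ∧ f = -(E6 * x) := by
  have hf' : -f ∈ M (K - 6 + 2) := by
    have : K - 6 + 2 = K - 4 := by ring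
    rw [this]
    exact (M _).neg_mem hf
  have e' : E6 * g = E4 * (-f) := by linear_combination e
  obtain ⟨x, hx, rfl⟩ := h.div (K - 6) g hg (-f) hf' e'
  have hx' : x ∈ M (K - 10) := by
    have : K - 6 - 4 = K - 10 := by ring
    rwa [this] at hx
  refine ⟨x, hx', rfl, ?_⟩
  have h1 : f + E6 * x ∈ M (K - 4) := (M _).add_mem hf (h.E6_mul_M' hx' (by ring))
  have h2 : E4 * (f + E6 * x) = 0 := by linear_combination e
  have := h.E4_inj _ _ h1 h2
  linear_combination this

/-- Koszul dimension count. -/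
theorem finrank_decomp (h : RegGraded A M E4 E6) (K : ℤ) :
    finrank 𝕜 (decomp M E4 E6 K) + finrank 𝕜 (M (K - 10)) =
      finrank 𝕜 (M (K - 4)) + finrank 𝕜 (M (K - 6)) := by
  have := h.M_fin
  let φ : (M (K - 4)) × (M (K - 6)) →ₗ[𝕜] V :=
    ((LinearMap.mulLeft 𝕜 E4).comp (M (K - 4)).subtype).coprod
      ((LinearMap.mulLeft 𝕜 E6).comp (M (K - 6)).subtype)
  have hrange : LinearMap.range φ = decomp M E4 E6 K := by
    simp only [φ, LinearMap.range_coprod, LinearMap.range_comp, Submodule.range_subtype, decomp]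
  let ψ : (M (K - 10)) →ₗ[𝕜] (M (K - 4)) × (M (K - 6)) :=
    LinearMap.prod
      (LinearMap.codRestrict (M (K - 4)) (-((LinearMap.mulLeft 𝕜 E6).comp (M (K - 10)).subtype))
        (fun x => by
          simp only [LinearMap.neg_apply, LinearMap.coe_comp, Submodule.coe_subtype,
            Function.comp_apply, LinearMap.mulLeft_apply]
          exact (M _).neg_mem (h.E6_mul_M' x.2 (by ring))))
      (LinearMap.codRestrict (M (K - 6)) ((LinearMap.mulLeft 𝕜 E4).comp (M (K - 10)).subtype)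
        (fun x => by
          simp only [LinearMap.coe_comp, Submodule.coe_subtype,
            Function.comp_apply, LinearMap.mulLeft_apply]
          exact h.E4_mul_M' x.2 (by ring)))
  have hψ1 : ∀ x : M (K - 10), (((ψ x).1 : M (K - 4)) : V) = -(E6 * (x : V)) := fun x => rfl
  have hψ2 : ∀ x : M (K - 10), (((ψ x).2 : M (K - 6)) : V) = E4 * (x : V) := fun x => rfl
  have hψinj : Function.Injective ψ := by
    intro x y hxy
    have h2 : (((ψ x).2 : M (K - 6)) : V) = (((ψ y).2 : M (K - 6)) : V) := by rw [hxy]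
    rw [hψ2, hψ2] at h2
    have h3 : E4 * ((x : V) - y) = 0 := by linear_combination h2
    have := h.E4_inj _ _ ((M _).sub_mem x.2 y.2) h3
    exact Subtype.ext (sub_eq_zero.1 this)
  have hker : LinearMap.ker φ = LinearMap.range ψ := by
    ext ⟨f, g⟩
    simp only [LinearMap.mem_ker, LinearMap.mem_range, φ, LinearMap.coprod_apply,
      LinearMap.coe_comp, Submodule.coe_subtype, Function.comp_apply, LinearMap.mulLeft_apply]
    constructor
    · intro e
      obtain ⟨x, hx, hgx, hfx⟩ := h.koszul f.2 g.2 e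
      refine ⟨⟨x, hx⟩, ?_⟩
      apply Prod.ext
      · apply Subtype.ext
        rw [hψ1, hfx]
      · apply Subtype.ext
        rw [hψ2, hgx]
    · rintro ⟨x, hx⟩
      have h1 : (((ψ x).1 : M (K - 4)) : V) = f := by rw [hx]
      have h2 : (((ψ x).2 : M (K - 6)) : V) = g := by rw [hx]
      rw [hψ1] at h1
      rw [hψ2] at h2
      rw [← h1, ← h2]
      ring
  have key := LinearMap.finrank_range_add_finrank_ker φ
  rw [hrange, hker, LinearMap.finrank_range_of_inj hψinj, Module.finrank_prod] at key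
  exact key


theorem exists_compl (h : RegGraded A M E4 E6) (K : ℤ) :
    ∃ W : Submodule 𝕜 V, W ≤ M K ∧ W ⊓ decomp M E4 E6 K = ⊥ ∧ W ⊔ decomp M E4 E6 K = M K := by
  obtain ⟨C, hC⟩ := Submodule.exists_isCompl (decomp M E4 E6 K)
  refine ⟨C ⊓ M K, inf_le_right, ?_, ?_⟩
  · have h1 : C ⊓ M K ⊓ decomp M E4 E6 K ≤ decomp M E4 E6 K ⊓ C := by
      refine le_inf inf_le_right ?_
      exact inf_le_left.trans inf_le_left
    rw [hC.inf_eq_bot] at h1
    exact le_bot_iff.1 h1
  · rw [sup_comm, ← sup_inf_assoc_of_le C (h.decomp_le K), hC.sup_eq_top, top_inf_eq]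

/-- A chosen complement of the decomposable part in `M K`. -/
noncomputable def compl (h : RegGraded A M E4 E6) (K : ℤ) : Submodule 𝕜 V :=
  (h.exists_compl K).choose

theorem compl_le (h : RegGraded A M E4 E6) (K : ℤ) : h.compl K ≤ M K :=
  (h.exists_compl K).choose_spec.1

theorem compl_inf (h : RegGraded A M E4 E6) (K : ℤ) : h.compl K ⊓ decomp M E4 E6 K = ⊥ :=
  (h.exists_compl K).choose_spec.2.1

theorem compl_sup (h : RegGraded A M E4 E6) (K : ℤ) : h.compl K ⊔ decomp M E4 E6 K = M K :=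
  (h.exists_compl K).choose_spec.2.2

theorem finite_compl (h : RegGraded A M E4 E6) (K : ℤ) : Module.Finite 𝕜 (h.compl K) := by
  have := h.M_fin K
  exact Submodule.finiteDimensional_of_le (h.compl_le K)

theorem finite_decomp (h : RegGraded A M E4 E6) (K : ℤ) :
    Module.Finite 𝕜 (decomp M E4 E6 K) := by
  have := h.M_fin K
  exact Submodule.finiteDimensional_of_le (h.decomp_le K)

theorem finrank_compl_add (h : RegGraded A M E4 E6) (K : ℤ) :
    finrank 𝕜 (h.compl K) + finrank 𝕜 (decomp M E4 E6 K) = finrank 𝕜 (M K) := by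
  have := h.finite_compl K
  have := h.finite_decomp K
  have key := Submodule.finrank_sup_add_finrank_inf_eq (h.compl K) (decomp M E4 E6 K)
  rw [h.compl_inf K, finrank_bot, add_zero] at key
  rw [← key, h.compl_sup K]

theorem finrank_M_neg (h : RegGraded A M E4 E6) {K : ℤ} (hK : K < 0) : finrank 𝕜 (M K) = 0 := by
  rw [h.M_neg K hK, finrank_bot]

/-- The number of generators of weight `K` in terms of the Hilbert function. -/
theorem finrank_compl_eq (h : RegGraded A M E4 E6) (K : ℤ) :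
    (finrank 𝕜 (h.compl K) : ℤ) = finrank 𝕜 (M K) - finrank 𝕜 (M (K - 4)) - finrank 𝕜 (M (K - 6))
      + finrank 𝕜 (M (K - 10)) := by
  have h1 := h.finrank_compl_add K
  have h2 := h.finrank_decomp K
  omega

/-- Under a linear growth bound, the total number of generators is bounded. -/
theorem sum_finrank_compl_le (h : RegGraded A M E4 E6) (α β : ℕ)
    (hodd : ∀ k : ℤ, Odd k → M k = ⊥)
    (hgrowth : ∀ k : ℕ, finrank 𝕜 (M (k : ℤ)) ≤ α * k + β) (L : ℕ) :
    ∑ K ∈ Finset.range L, finrank 𝕜 (h.compl (K : ℤ)) ≤ 12 * α := by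
  have key := RegGraded.count_aux (fun k => (finrank 𝕜 (M k) : ℤ)) α β (fun k => by positivity)
    (fun k hk => by simp [h.finrank_M_neg hk])
    (fun k hk => by
      show ((finrank 𝕜 (M k) : ℕ) : ℤ) = 0
      rw [hodd k hk, finrank_bot]; rfl)
    (fun k => by rw [← h.finrank_compl_eq k]; positivity)
    (fun k hk => by
      obtain ⟨k', rfl⟩ : ∃ k' : ℕ, k = k' := ⟨k.toNat, by omega⟩
      exact_mod_cast hgrowth k') L
  have e : ∀ K : ℕ, ((finrank 𝕜 (M (K : ℤ)) : ℤ) - finrank 𝕜 (M ((K : ℤ) - 4))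
      - finrank 𝕜 (M ((K : ℤ) - 6)) + finrank 𝕜 (M ((K : ℤ) - 10))) =
      (finrank 𝕜 (h.compl (K : ℤ)) : ℤ) := fun K => (h.finrank_compl_eq K).symm
  simp only [e] at key
  exact_mod_cast key

theorem compl_neg (h : RegGraded A M E4 E6) {K : ℤ} (hK : K < 0) : h.compl K = ⊥ := by
  have := h.compl_le K
  rw [h.M_neg K hK] at this
  exact le_bot_iff.1 this

/-- Beyond some weight there are no new generators. -/
theorem exists_bound_compl (h : RegGraded A M E4 E6) (α β : ℕ)
    (hodd : ∀ k : ℤ, Odd k → M k = ⊥)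
    (hgrowth : ∀ k : ℕ, finrank 𝕜 (M (k : ℤ)) ≤ α * k + β) :
    ∃ L0 : ℕ, ∀ K : ℤ, (L0 : ℤ) ≤ K → h.compl K = ⊥ := by
  set d : ℕ := 12 * α with hd
  set T : ℕ → ℕ := fun L => ∑ K ∈ Finset.range L, finrank 𝕜 (h.compl (K : ℤ)) with hT
  have hTd : ∀ L, T L ≤ d := fun L => h.sum_finrank_compl_le α β hodd hgrowth L
  have hmono : Monotone T := by
    intro L L' hLL'
    exact Finset.sum_le_sum_of_subset (Finset.range_mono hLL')
  let g : ℕ → ℕ := fun L => d - T L
  let L0 := Function.argmin g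
  have hL0 : ∀ L, T L ≤ T L0 := by
    intro L
    have h1 : g L0 ≤ g L := Function.argmin_le g L
    have h2 := hTd L
    have h3 := hTd L0
    simp only [g] at h1
    omega
  refine ⟨L0, fun K hK => ?_⟩
  obtain ⟨K', rfl⟩ : ∃ K' : ℕ, K = K' := ⟨K.toNat, by omega⟩
  have hK' : L0 ≤ K' := by exact_mod_cast hK
  have h1 : T (K' + 1) = T K' + finrank 𝕜 (h.compl (K' : ℤ)) := by
    simp only [hT, Finset.sum_range_succ]
  have h2 := hL0 (K' + 1)
  have h3 := hmono hK'
  have h4 : finrank 𝕜 (h.compl (K' : ℤ)) = 0 := by omega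
  have := h.finite_compl (K' : ℤ)
  exact Submodule.finrank_eq_zero.1 h4

/-- The chosen generators of weight `K`: a basis of the chosen complement. -/
noncomputable def gen (h : RegGraded A M E4 E6) (K : ℤ) :
    Fin (finrank 𝕜 (h.compl K)) → V :=
  haveI := h.finite_compl K
  fun l => ((Module.finBasis 𝕜 (h.compl K)) l : V)

theorem gen_mem (h : RegGraded A M E4 E6) (K : ℤ) (l : Fin (finrank 𝕜 (h.compl K))) :
    h.gen K l ∈ h.compl K := by
  unfold gen
  exact Subtype.coe_prop _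

theorem gen_span (h : RegGraded A M E4 E6) (K : ℤ) {w : V} (hw : w ∈ h.compl K) :
    ∃ c : Fin (finrank 𝕜 (h.compl K)) → 𝕜, w = ∑ l, c l • h.gen K l := by
  have := h.finite_compl K
  refine ⟨fun l => (Module.finBasis 𝕜 (h.compl K)).repr ⟨w, hw⟩ l, ?_⟩
  have h1 := (Module.finBasis 𝕜 (h.compl K)).sum_repr ⟨w, hw⟩
  have h2 := congrArg (fun x : h.compl K => (x : V)) h1
  simp only [Submodule.coe_sum, Submodule.coe_smul] at h2
  exact h2.symm

theorem gen_indep (h : RegGraded A M E4 E6) (K : ℤ) (c : Fin (finrank 𝕜 (h.compl K)) → 𝕜)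
    (hc : ∑ l, c l • h.gen K l = 0) : ∀ l, c l = 0 := by
  have := h.finite_compl K
  have hli := (Module.finBasis 𝕜 (h.compl K)).linearIndependent
  rw [Fintype.linearIndependent_iff] at hli
  apply hli c
  apply Subtype.ext
  simp only [Submodule.coe_sum, Submodule.coe_smul, Submodule.coe_zero]
  exact hc


/-- Index type of the chosen generators of weight `< L0`. -/
abbrev Idx (h : RegGraded A M E4 E6) (L0 : ℕ) : Type :=
  Σ j : Fin L0, Fin (finrank 𝕜 (h.compl ((j : ℕ) : ℤ)))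

/-- Weight of a generator. -/
def wt (h : RegGraded A M E4 E6) (L0 : ℕ) (i : h.Idx L0) : ℤ := ((i.1 : ℕ) : ℤ)

/-- The generator itself. -/
noncomputable def vec (h : RegGraded A M E4 E6) (L0 : ℕ) (i : h.Idx L0) : V :=
  h.gen ((i.1 : ℕ) : ℤ) i.2

theorem wt_nonneg (h : RegGraded A M E4 E6) (L0 : ℕ) (i : h.Idx L0) : 0 ≤ h.wt L0 i := by
  unfold wt; positivity

theorem vec_mem_compl (h : RegGraded A M E4 E6) (L0 : ℕ) (i : h.Idx L0) :
    h.vec L0 i ∈ h.compl (h.wt L0 i) := h.gen_mem _ _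

theorem vec_mem (h : RegGraded A M E4 E6) (L0 : ℕ) (i : h.Idx L0) :
    h.vec L0 i ∈ M (h.wt L0 i) := h.compl_le _ (h.vec_mem_compl L0 i)

theorem sum_single (h : RegGraded A M E4 E6) (L0 : ℕ) (J : Fin L0)
    (c : Fin (finrank 𝕜 (h.compl ((J : ℕ) : ℤ))) → 𝕜) :
    ∃ a : h.Idx L0 → V, (∀ i, a i = 0 ∨ (i.1 = J ∧ ∃ c' : 𝕜, a i = algebraMap 𝕜 V c')) ∧
      ∑ i, a i * h.vec L0 i = ∑ l, c l • h.gen ((J : ℕ) : ℤ) l := by
  refine ⟨fun i => if hj : i.1 = J then algebraMap 𝕜 V (c (hj ▸ i.2)) else 0, ?_, ?_⟩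
  · intro i
    by_cases hj : i.1 = J
    · right
      exact ⟨hj, _, dif_pos hj⟩
    · left
      exact dif_neg hj
  · rw [Fintype.sum_sigma, Finset.sum_eq_single J]
    · apply Finset.sum_congr rfl
      intro l _
      simp only [dif_pos, vec, Algebra.smul_def]
    · intro j _ hj
      apply Finset.sum_eq_zero
      intro l _
      simp only [dif_neg hj, zero_mul]
    · intro hJ
      exact absurd (Finset.mem_univ J) hJ

/-- Every element of `M K` is an `A`-combination of the generators. -/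
theorem generation (h : RegGraded A M E4 E6) (L0 : ℕ)
    (hL0 : ∀ K : ℤ, (L0 : ℤ) ≤ K → h.compl K = ⊥) (K : ℤ) (f : V) (hf : f ∈ M K) :
    ∃ a : h.Idx L0 → V, (∀ i, a i ∈ A (K - h.wt L0 i)) ∧ f = ∑ i, a i * h.vec L0 i := by
  suffices H : ∀ N : ℕ, ∀ K : ℤ, K < N → ∀ f ∈ M K,
      ∃ a : h.Idx L0 → V, (∀ i, a i ∈ A (K - h.wt L0 i)) ∧ f = ∑ i, a i * h.vec L0 i from
    H (K.toNat + 1) K (by omega) f hf
  intro N
  induction N with
  | zero =>
    intro K hK f hf
    have hK' : K < 0 := by simpa using hK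
    rw [h.M_neg K hK'] at hf
    have hf0 : f = 0 := by simpa using hf
    exact ⟨fun _ => 0, fun i => zero_mem _, by simp [hf0]⟩
  | succ N ih =>
    intro K hK f hf
    rcases lt_or_ge K 0 with hK' | hK'
    · rw [h.M_neg K hK'] at hf
      have hf0 : f = 0 := by simpa using hf
      exact ⟨fun _ => 0, fun i => zero_mem _, by simp [hf0]⟩
    · rw [← h.compl_sup K] at hf
      obtain ⟨w, hw, x, hx, rfl⟩ := Submodule.mem_sup.1 hf
      obtain ⟨f1, hf1, f2, hf2, rfl⟩ := mem_decomp_iff.1 hx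
      obtain ⟨a1, ha1, rfl⟩ := ih (K - 4) (by push_cast at hK; omega) f1 hf1
      obtain ⟨a2, ha2, rfl⟩ := ih (K - 6) (by push_cast at hK; omega) f2 hf2
      have hw' : ∃ a0 : h.Idx L0 → V, (∀ i, a0 i ∈ A (K - h.wt L0 i)) ∧
          w = ∑ i, a0 i * h.vec L0 i := by
        rcases le_or_gt (L0 : ℤ) K with hKL | hKL
        · rw [hL0 K hKL] at hw
          have hw0 : w = 0 := by simpa using hw
          exact ⟨fun _ => 0, fun i => zero_mem _, by simp [hw0]⟩
        · obtain ⟨K', rfl⟩ : ∃ K' : ℕ, K = K' := ⟨K.toNat, by omega⟩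
          have hK'L : K' < L0 := by exact_mod_cast hKL
          obtain ⟨c, hc⟩ := h.gen_span (K' : ℤ) hw
          obtain ⟨a0, ha0, hsum⟩ := h.sum_single L0 ⟨K', hK'L⟩ c
          refine ⟨a0, fun i => ?_, ?_⟩
          · rcases ha0 i with h0 | ⟨hi, c', hc'⟩
            · rw [h0]; exact zero_mem _
            · have : (K' : ℤ) - h.wt L0 i = 0 := by
                unfold wt; rw [hi]; simp
              rw [this, hc']
              exact h.algebraMap_mem c'
          · rw [hsum, hc]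
      obtain ⟨a0, ha0, rfl⟩ := hw'
      refine ⟨fun i => a0 i + E4 * a1 i + E6 * a2 i, fun i => ?_, ?_⟩
      · refine (A _).add_mem ((A _).add_mem (ha0 i) ?_) ?_
        · exact h.E4_mul_A' (ha1 i) (by ring)
        · exact h.E6_mul_A' (ha2 i) (by ring)
      · simp only [add_mul, Finset.sum_add_distrib, mul_assoc, ← Finset.mul_sum]
        ring


/-- The representation of `0` as an `A`-combination of the generators is trivial. -/
theorem uniqueness (h : RegGraded A M E4 E6) (L0 : ℕ)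
    (hL0 : ∀ K : ℤ, (L0 : ℤ) ≤ K → h.compl K = ⊥) (K : ℤ) (a : h.Idx L0 → V)
    (ha : ∀ i, a i ∈ A (K - h.wt L0 i)) (hsum : ∑ i, a i * h.vec L0 i = 0) : ∀ i, a i = 0 := by
  suffices H : ∀ N : ℕ, ∀ K : ℤ, K < N → ∀ a : h.Idx L0 → V,
      (∀ i, a i ∈ A (K - h.wt L0 i)) → ∑ i, a i * h.vec L0 i = 0 → ∀ i, a i = 0 from
    H (K.toNat + 1) K (by omega) a ha hsum
  intro N
  induction N with
  | zero =>
    intro K hK a ha _ i
    have hK' : K < 0 := by simpa using hK
    have := ha i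
    rw [h.A_neg _ (by have := h.wt_nonneg L0 i; omega)] at this
    simpa using this
  | succ N ih =>
    intro K hK a ha hsum
    have hdec : ∀ i, ∃ (c : 𝕜) (b c' : V), b ∈ A (K - 4 - h.wt L0 i) ∧
        c' ∈ A (K - 6 - h.wt L0 i) ∧
        a i = (if h.wt L0 i = K then algebraMap 𝕜 V c else 0) + E4 * b + E6 * c' := by
      intro i
      rcases lt_trichotomy (h.wt L0 i) K with hlt | heq | hgt
      · obtain ⟨b, hb, c', hc', e⟩ := h.A_dec (K - h.wt L0 i) (by omega) (a i) (ha i)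
        refine ⟨0, b, c', ?_, ?_, ?_⟩
        · have : K - 4 - h.wt L0 i = K - h.wt L0 i - 4 := by ring
          rw [this]; exact hb
        · have : K - 6 - h.wt L0 i = K - h.wt L0 i - 6 := by ring
          rw [this]; exact hc'
        · rw [if_neg hlt.ne, zero_add]; exact e
      · have hai := ha i
        rw [heq, sub_self] at hai
        obtain ⟨c, hc⟩ := h.A_zero (a i) hai
        exact ⟨c, 0, 0, zero_mem _, zero_mem _, by rw [if_pos heq, hc]; ring⟩
      · have hai := ha i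
        rw [h.A_neg _ (by omega)] at hai
        have hai0 : a i = 0 := by simpa using hai
        exact ⟨0, 0, 0, zero_mem _, zero_mem _, by rw [if_neg hgt.ne', hai0]; ring⟩
    choose c b c' hb hc' ha_eq using hdec
    have hF1 : ∑ i, b i * h.vec L0 i ∈ M (K - 4) :=
      Submodule.sum_mem _ fun i _ => h.mul_mem (hb i) (h.vec_mem L0 i) (by ring)
    have hF2 : ∑ i, c' i * h.vec L0 i ∈ M (K - 6) :=
      Submodule.sum_mem _ fun i _ => h.mul_mem (hc' i) (h.vec_mem L0 i) (by ring)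
    have hw : ∑ i, (if h.wt L0 i = K then algebraMap 𝕜 V (c i) else 0) * h.vec L0 i
        ∈ h.compl K := by
      refine Submodule.sum_mem _ fun i _ => ?_
      by_cases hi : h.wt L0 i = K
      · rw [if_pos hi, ← Algebra.smul_def]
        have := h.vec_mem_compl L0 i
        rw [hi] at this
        exact (h.compl K).smul_mem _ this
      · rw [if_neg hi, zero_mul]; exact zero_mem _
    have hsplit : ∑ i, (if h.wt L0 i = K then algebraMap 𝕜 V (c i) else 0) * h.vec L0 i
        + E4 * ∑ i, b i * h.vec L0 i + E6 * ∑ i, c' i * h.vec L0 i = 0 := by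
      refine Eq.trans ?_ hsum
      simp only [Finset.mul_sum, ← Finset.sum_add_distrib]
      refine Finset.sum_congr rfl fun i _ => ?_
      rw [ha_eq i]; ring
    have hw0 : ∑ i, (if h.wt L0 i = K then algebraMap 𝕜 V (c i) else 0) * h.vec L0 i = 0 := by
      have hmem : ∑ i, (if h.wt L0 i = K then algebraMap 𝕜 V (c i) else 0) * h.vec L0 i
          ∈ decomp M E4 E6 K := by
        refine mem_decomp_iff.2 ⟨-∑ i, b i * h.vec L0 i, (M _).neg_mem hF1,
          -∑ i, c' i * h.vec L0 i, (M _).neg_mem hF2, ?_⟩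
        linear_combination hsplit
      have : ∑ i, (if h.wt L0 i = K then algebraMap 𝕜 V (c i) else 0) * h.vec L0 i
          ∈ h.compl K ⊓ decomp M E4 E6 K := ⟨hw, hmem⟩
      rw [h.compl_inf K] at this
      simpa using this
    have hc0 : ∀ i, h.wt L0 i = K → c i = 0 := by
      rintro ⟨J, l⟩ hi
      have hJ : ((J : ℕ) : ℤ) = K := hi
      have key : ∑ l' : Fin (finrank 𝕜 (h.compl ((J : ℕ) : ℤ))),
          c ⟨J, l'⟩ • h.gen ((J : ℕ) : ℤ) l' = 0 := by
        have hw0' := hw0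
        rw [Fintype.sum_sigma, Finset.sum_eq_single J] at hw0'
        · rw [← hw0']
          refine Finset.sum_congr rfl fun l' _ => ?_
          have : h.wt L0 ⟨J, l'⟩ = K := hJ
          rw [if_pos this, Algebra.smul_def]
          rfl
        · intro j _ hj
          refine Finset.sum_eq_zero fun l' _ => ?_
          have : h.wt L0 ⟨j, l'⟩ ≠ K := by
            intro hjK
            apply hj
            have h1 : ((j : ℕ) : ℤ) = ((J : ℕ) : ℤ) := hjK.trans hJ.symm
            exact Fin.ext (by exact_mod_cast h1)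
          rw [if_neg this, zero_mul]
        · intro hJ'
          exact absurd (Finset.mem_univ J) hJ'
      exact h.gen_indep _ (fun l' => c ⟨J, l'⟩) key l
    have e0 : E4 * ∑ i, b i * h.vec L0 i + E6 * ∑ i, c' i * h.vec L0 i = 0 := by
      rw [hw0, zero_add] at hsplit
      exact hsplit
    obtain ⟨x, hx, hxF2, hxF1⟩ := h.koszul hF1 hF2 e0
    obtain ⟨dd, hdd, hxd⟩ := h.generation L0 hL0 (K - 10) x hx
    have I6 := ih (K - 6) (by push_cast at hK; omega) (fun i => c' i - E4 * dd i)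
      (fun i => (A _).sub_mem (hc' i) (h.E4_mul_A' (hdd i) (by ring)))
      (by
        simp only [sub_mul, Finset.sum_sub_distrib, mul_assoc, ← Finset.mul_sum]
        rw [hxF2, hxd]; ring)
    have I4 := ih (K - 4) (by push_cast at hK; omega) (fun i => b i + E6 * dd i)
      (fun i => (A _).add_mem (hb i) (h.E6_mul_A' (hdd i) (by ring)))
      (by
        simp only [add_mul, Finset.sum_add_distrib, mul_assoc, ← Finset.mul_sum]
        rw [hxF1, hxd]; ring)
    intro i
    rw [ha_eq i]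
    have h6 : c' i - E4 * dd i = 0 := I6 i
    have h4 : b i + E6 * dd i = 0 := I4 i
    by_cases hi : h.wt L0 i = K
    · rw [if_pos hi, hc0 i hi, map_zero]
      linear_combination E4 * h4 + E6 * h6
    · rw [if_neg hi]
      linear_combination E4 * h4 + E6 * h6


/-- Existence and uniqueness of the representation in terms of the generators. -/
theorem exists_unique_repr (h : RegGraded A M E4 E6) (L0 : ℕ)
    (hL0 : ∀ K : ℤ, (L0 : ℤ) ≤ K → h.compl K = ⊥) (K : ℤ) (f : V) (hf : f ∈ M K) :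
    ∃! a : h.Idx L0 → V, (∀ i, a i ∈ A (K - h.wt L0 i)) ∧ f = ∑ i, a i * h.vec L0 i := by
  obtain ⟨a, ha, hfa⟩ := h.generation L0 hL0 K f hf
  refine ⟨a, ⟨ha, hfa⟩, ?_⟩
  rintro a' ⟨ha', hfa'⟩
  funext i
  have key := h.uniqueness L0 hL0 K (fun i => a' i - a i)
    (fun i => (A _).sub_mem (ha' i) (ha i))
    (by
      simp only [sub_mul, Finset.sum_sub_distrib]
      rw [← hfa, ← hfa', sub_self])
  exact sub_eq_zero.1 (key i)

end RegGraded

end Graded

end Fermat.Agent.S20
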