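import Fermat.Agent.S20.Defs

/-!
# S20, module A : level-one toolkit on plain functions `ℍ → ℂ`

Everything here comes from Mathlib (`LevelOne/DimensionFormula`, `LevelOne/GradedRing`,
`Discriminant`, `EisensteinSeries`), restated for `R1 k` (functions underlying level-one modular
forms of weight `k`) and the plain functions `E4f`, `E6f`, `Df`.
-/

set_option autoImplicit false

namespace Fermat.Agent.S20

open UpperHalfPlane ModularForm ModularFormClass MatrixGroups CongruenceSubgroup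
  Matrix.SpecialLinearGroup EisensteinSeries Filter
open scoped Topology Manifold

/-! ## Basic closure properties -/

/-- Transport of weights. -/
theorem R1_of_eq {k l : ℤ} (h : k = l) {a : ℍ → ℂ} (ha : a ∈ R1 k) : a ∈ R1 l :=
  h ▸ ha

theorem R1_mul {m n : ℤ} {a b : ℍ → ℂ} (ha : a ∈ R1 m) (hb : b ∈ R1 n) : a * b ∈ R1 (m + n) := by
  obtain ⟨f, rfl⟩ := ha
  obtain ⟨g, rfl⟩ := hb
  exact ⟨f.mul g, rfl⟩

/-- Constants are level-one forms of weight `0`. -/
theorem R1_const (c : ℂ) : (fun _ : ℍ => c) ∈ R1 0 :=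
  ⟨ModularForm.const c, rfl⟩

theorem one_mem_R1 : (1 : ℍ → ℂ) ∈ R1 0 :=
  R1_const 1

theorem E4f_mem : E4f ∈ R1 4 := ⟨E₄, rfl⟩

theorem E6f_mem : E6f ∈ R1 6 := ⟨E₆, rfl⟩

theorem Df_mem : Df ∈ R1 12 :=
  ⟨CuspForm.toModularFormₗ CuspForm.discriminant, rfl⟩

theorem Df_ne_zero (z : ℍ) : Df z ≠ 0 :=
  ModularForm.discriminant_ne_zero z

theorem Df_eq (z : ℍ) : 1728 * Df z = E4f z ^ 3 - E6f z ^ 2 := by
  have h : Df z = (E4f z ^ 3 - E6f z ^ 2) / 1728 :=
    ModularForm.discriminant_eq_E₄_cube_sub_E₆_sq z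
  rw [h]
  ring

theorem R1_neg {k : ℤ} (hk : k < 0) : R1 k = ⊥ := by
  rw [eq_bot_iff]
  rintro _ ⟨f, rfl⟩
  rw [Submodule.mem_bot]
  exact levelOne_neg_weight_eq_zero hk f

theorem R1_odd {k : ℤ} (hk : Odd k) : R1 k = ⊥ := by
  rw [eq_bot_iff]
  rintro _ ⟨f, rfl⟩
  rw [Submodule.mem_bot]
  change (f : ℍ → ℂ) = 0
  rw [ModularForm.levelOne_odd_weight_eq_zero hk f]
  rfl

theorem R1_two : R1 2 = ⊥ := by
  rw [eq_bot_iff]
  rintro _ ⟨f, rfl⟩
  rw [Submodule.mem_bot]
  change (f : ℍ → ℂ) = 0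
  rw [rank_zero_iff_forall_zero.mp ModularForm.levelOne_weight_two_rank_zero f]
  rfl

theorem R1_zero {a : ℍ → ℂ} (ha : a ∈ R1 0) : ∃ c : ℂ, a = fun _ => c := by
  obtain ⟨f, rfl⟩ := ha
  obtain ⟨c, hc⟩ := levelOne_weight_zero_const f
  exact ⟨c, hc⟩

/-! ## Dimension formula -/

theorem mfCoe_injective (Γ : Subgroup (GL (Fin 2) ℝ)) [Γ.HasDetOne] (k : ℤ) :
    Function.Injective (mfCoe Γ k) :=
  fun _ _ h ↦ DFunLike.coe_injective h

instance R1_finite (k : ℤ) : Module.Finite ℂ (R1 k) :=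
  Module.Finite.range _

/-- The linear equivalence between level one modular forms and `R1 k`. -/
noncomputable def R1Equiv (k : ℤ) : ModularForm 𝒮ℒ k ≃ₗ[ℂ] R1 k :=
  LinearEquiv.ofInjective (mfCoe 𝒮ℒ k) (mfCoe_injective 𝒮ℒ k)

/-- dimension formula (Mathlib `ModularForm.dimension_level_one`). -/
theorem finrank_R1 (k : ℕ) (hk : Even k) :
    Module.finrank ℂ (R1 k) = if k % 12 = 2 then k / 12 else k / 12 + 1 := by
  rw [← (R1Equiv (k : ℤ)).finrank_eq]
  have h := ModularForm.dimension_level_one k hk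
  have h2 : Module.rank ℂ (ModularForm 𝒮ℒ (k : ℤ))
      = ((if k % 12 = 2 then k / 12 else k / 12 + 1 : ℕ) : Cardinal) := by
    rw [h]
    congr 1
  exact Module.finrank_eq_of_rank_eq h2

/-! ## Holomorphy and the value at `i∞` -/

theorem R1_mdiff {k : ℤ} {a : ℍ → ℂ} (ha : a ∈ R1 k) : MDiff a := by
  obtain ⟨f, rfl⟩ := ha
  exact f.holo'

/-- The value at `i∞` of a level-one form equals the `0`-th `q`-coefficient. -/
theorem R1_valueAtInfty_eq_coeff {k : ℤ} (f : ModularForm 𝒮ℒ k) :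
    valueAtInfty (f : ℍ → ℂ) = (qExpansion 1 f).coeff 0 :=
  (qExpansion_coeff_zero one_pos
    (ModularFormClass.analyticAt_cuspFunction_zero f one_pos one_mem_strictPeriods_SL)
    (SlashInvariantFormClass.periodic_comp_ofComplex f one_mem_strictPeriods_SL)).symm

/-- A level-one form tends to its value at `i∞`. -/
theorem R1_tendsto_valueAtInfty {k : ℤ} {a : ℍ → ℂ} (ha : a ∈ R1 k) :
    Tendsto a atImInfty (𝓝 (valueAtInfty a)) := by
  obtain ⟨f, rfl⟩ := ha
  have hanal := ModularFormClass.analyticAt_cuspFunction_zero f one_pos one_mem_strictPeriods_SL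
  have hper := SlashInvariantFormClass.periodic_comp_ofComplex f one_mem_strictPeriods_SL
  change Tendsto (f : ℍ → ℂ) atImInfty (𝓝 (valueAtInfty (f : ℍ → ℂ)))
  rw [← cuspFunction_apply_zero one_pos hanal hper]
  exact (hanal.continuousAt.tendsto.comp (qParam_tendsto_atImInfty one_pos)).congr
    (fun τ ↦ SlashInvariantFormClass.eq_cuspFunction f τ one_mem_strictPeriods_SL one_ne_zero)

theorem R1_tendsto {k : ℤ} {a : ℍ → ℂ} (ha : a ∈ R1 k) : ∃ c : ℂ, Tendsto a atImInfty (𝓝 c) :=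
  ⟨_, R1_tendsto_valueAtInfty ha⟩

theorem E4f_tendsto : Tendsto E4f atImInfty (𝓝 1) := by
  have h := R1_tendsto_valueAtInfty E4f_mem
  have h1 : valueAtInfty E4f = 1 := by
    change valueAtInfty (E₄ : ℍ → ℂ) = 1
    rw [R1_valueAtInfty_eq_coeff]
    exact E_qExpansion_coeff_zero _ ⟨2, rfl⟩
  rwa [h1] at h

theorem E6f_tendsto : Tendsto E6f atImInfty (𝓝 1) := by
  have h := R1_tendsto_valueAtInfty E6f_mem
  have h1 : valueAtInfty E6f = 1 := by
    change valueAtInfty (E₆ : ℍ → ℂ) = 1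
    rw [R1_valueAtInfty_eq_coeff]
    exact E_qExpansion_coeff_zero _ ⟨3, rfl⟩
  rwa [h1] at h

theorem Df_tendsto : Tendsto Df atImInfty (𝓝 0) := by
  have h := R1_tendsto_valueAtInfty Df_mem
  have h1 : valueAtInfty Df = 0 := by
    have h2 := R1_valueAtInfty_eq_coeff (CuspForm.toModularFormₗ CuspForm.discriminant)
    rw [show ((CuspForm.toModularFormₗ CuspForm.discriminant : ModularForm 𝒮ℒ 12) : ℍ → ℂ)
      = Df from rfl] at h2
    rw [h2]
    exact CuspFormClass.qExpansion_coeff_zero CuspForm.discriminant one_pos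
      one_mem_strictPeriods_SL
  rwa [h1] at h

/-- a level-one form vanishing at `∞` is divisible by `Δ` (Mathlib `CuspForm.discriminantEquiv`). -/
theorem R1_div_Df {k : ℤ} {a : ℍ → ℂ} (ha : a ∈ R1 k) (h0 : Tendsto a atImInfty (𝓝 0)) :
    ∃ b ∈ R1 (k - 12), a = Df * b := by
  have hv : valueAtInfty a = 0 := h0.limUnder_eq
  obtain ⟨f, rfl⟩ := ha
  have hc : (qExpansion 1 f).coeff 0 = 0 := by
    rw [← R1_valueAtInfty_eq_coeff]
    exact hv
  refine ⟨CuspForm.discriminantEquiv (toCuspForm f hc),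
    ⟨CuspForm.discriminantEquiv (toCuspForm f hc), rfl⟩, ?_⟩
  have := ModularForm.discriminant_mul_discriminantEquiv (toCuspForm f hc)
  change (f : ℍ → ℂ) = ModularForm.discriminant * _
  rw [this]
  rfl

/-- monomials `E₄^a E₆^b` : in every even weight `≥ 4` there is a level-one form with value 1 at ∞. -/
theorem exists_R1_tendsto_one {k : ℤ} (hk : Even k) (hk4 : 4 ≤ k) :
    ∃ a ∈ R1 k, Tendsto a atImInfty (𝓝 1) := by
  lift k to ℕ using (by omega)
  have hk3 : 3 ≤ k := by omega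
  have hmem : (E hk3 : ℍ → ℂ) ∈ R1 (k : ℤ) := ⟨E hk3, rfl⟩
  refine ⟨E hk3, hmem, ?_⟩
  have h := R1_tendsto_valueAtInfty hmem
  have h1 : valueAtInfty (E hk3 : ℍ → ℂ) = 1 := by
    rw [R1_valueAtInfty_eq_coeff]
    exact E_qExpansion_coeff_zero hk3 (by exact_mod_cast hk)
  rwa [h1] at h

/-! ## Generation by `E₄`, `E₆` -/

/-- For even `k ≥ 4` there are `b ∈ R1 (k-4)`, `c ∈ R1 (k-6)` with `E₄ b + E₆ c → 1` at `i∞`. -/
private theorem exists_unit_combination {k : ℤ} (hk : Even k) (hk4 : 4 ≤ k) :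
    ∃ b ∈ R1 (k - 4), ∃ c ∈ R1 (k - 6), Tendsto (E4f * b + E6f * c) atImInfty (𝓝 1) := by
  rcases eq_or_lt_of_le hk4 with rfl | hk4'
  · -- `k = 4`
    refine ⟨1, one_mem_R1, 0, Submodule.zero_mem _, ?_⟩
    simpa using E4f_tendsto
  · have hk6 : 6 ≤ k := by
      obtain ⟨m, rfl⟩ := hk
      omega
    rcases eq_or_lt_of_le hk6 with rfl | hk6'
    · -- `k = 6`
      refine ⟨0, Submodule.zero_mem _, 1, one_mem_R1, ?_⟩
      simpa using E6f_tendsto
    · -- `k ≥ 8`
      have hk8 : 4 ≤ k - 4 := by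
        obtain ⟨m, rfl⟩ := hk
        omega
      have hev : Even (k - 4) := by
        obtain ⟨m, rfl⟩ := hk
        exact ⟨m - 2, by ring⟩
      obtain ⟨H, hH, hH1⟩ := exists_R1_tendsto_one hev hk8
      refine ⟨H, hH, 0, Submodule.zero_mem _, ?_⟩
      have := E4f_tendsto.mul hH1
      rw [mul_one] at this
      rw [mul_zero, add_zero]
      exact this

/-- Every level-one form of positive weight lies in `E₄ · R1 (k-4) + E₆ · R1 (k-6)`. -/
theorem R1_exists_E4_E6_decomp {k : ℤ} (hk : 0 < k) {a : ℍ → ℂ} (ha : a ∈ R1 k) :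
    ∃ b ∈ R1 (k - 4), ∃ c ∈ R1 (k - 6), a = E4f * b + E6f * c := by
  rcases Int.even_or_odd k with hev | hodd
  swap
  · rw [R1_odd hodd, Submodule.mem_bot] at ha
    exact ⟨0, Submodule.zero_mem _, 0, Submodule.zero_mem _, by simp [ha]⟩
  have hk2 : 2 ≤ k := by
    obtain ⟨m, rfl⟩ := hev
    omega
  rcases eq_or_lt_of_le hk2 with rfl | hk2'
  · rw [R1_two, Submodule.mem_bot] at ha
    exact ⟨0, Submodule.zero_mem _, 0, Submodule.zero_mem _, by simp [ha]⟩
  have hk4 : 4 ≤ k := by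
    obtain ⟨m, rfl⟩ := hev
    omega
  obtain ⟨b₀, hb₀, c₀, hc₀, h1⟩ := exists_unit_combination hev hk4
  have hE4 := E4f_mem
  have hE6 := E6f_mem
  -- the combination `m := E₄ b₀ + E₆ c₀` has weight `k` and value `1`
  have hm : E4f * b₀ + E6f * c₀ ∈ R1 k := by
    refine Submodule.add_mem _ (R1_of_eq (by ring) (R1_mul hE4 hb₀))
      (R1_of_eq (by ring) (R1_mul hE6 hc₀))
  set m : ℍ → ℂ := E4f * b₀ + E6f * c₀ with hmdef
  -- `a - a(∞) m` vanishes at `i∞`
  have hsub : a - valueAtInfty a • m ∈ R1 k :=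
    Submodule.sub_mem _ ha (Submodule.smul_mem _ _ hm)
  have hval : Tendsto (a - valueAtInfty a • m) atImInfty (𝓝 0) := by
    have h2 : Tendsto (a - valueAtInfty a • m) atImInfty
        (𝓝 (valueAtInfty a - valueAtInfty a • (1 : ℂ))) :=
      (R1_tendsto_valueAtInfty ha).sub (h1.const_smul (valueAtInfty a))
    simpa using h2
  obtain ⟨G, hG, hGeq⟩ := R1_div_Df hsub hval
  -- `Δ = (E₄³ - E₆²)/1728`
  refine ⟨valueAtInfty a • b₀ + ((1 / 1728 : ℂ) • (E4f * E4f)) * G, ?_,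
    valueAtInfty a • c₀ - ((1 / 1728 : ℂ) • E6f) * G, ?_, ?_⟩
  · refine Submodule.add_mem _ (Submodule.smul_mem _ _ hb₀) ?_
    have : ((1 / 1728 : ℂ) • (E4f * E4f)) * G ∈ R1 ((4 + 4) + (k - 12)) :=
      R1_mul (Submodule.smul_mem _ _ (R1_mul hE4 hE4)) hG
    exact R1_of_eq (by ring) this
  · refine Submodule.sub_mem _ (Submodule.smul_mem _ _ hc₀) ?_
    have : ((1 / 1728 : ℂ) • E6f) * G ∈ R1 (6 + (k - 12)) :=
      R1_mul (Submodule.smul_mem _ _ hE6) hG
    exact R1_of_eq (by ring) this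
  · funext z
    have hz := congrFun hGeq z
    have hD := Df_eq z
    simp only [Pi.sub_apply, Pi.smul_apply, Pi.mul_apply, Pi.add_apply, smul_eq_mul, hmdef] at hz ⊢
    linear_combination hz + (1 / 1728 : ℂ) * G z * hD

/-- Powers of `E₆`. -/
theorem E6f_pow_mem (n : ℕ) : E6f ^ n ∈ R1 (6 * (n : ℤ)) := by
  induction n with
  | zero => simpa using one_mem_R1
  | succ n ih =>
    rw [pow_succ]
    exact R1_of_eq (by push_cast; ring) (R1_mul ih E6f_mem)

/-- Powers of `E₄`. -/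
theorem E4f_pow_mem (n : ℕ) : E4f ^ n ∈ R1 (4 * (n : ℤ)) := by
  induction n with
  | zero => simpa using one_mem_R1
  | succ n ih =>
    rw [pow_succ]
    exact R1_of_eq (by push_cast; ring) (R1_mul ih E4f_mem)

/-- every level-one form is `c • E₆ ^ (k/6) + E₄ * b` (i.e. `R/E₄R` is spanned by powers of `E₆`).
Induction on `k` via `R1_div_Df` and `Df_eq`. -/
theorem R1_decomp {k : ℤ} {a : ℍ → ℂ} (ha : a ∈ R1 k) :
    ∃ (c : ℂ) (b : ℍ → ℂ), b ∈ R1 (k - 4) ∧ a = c • E6f ^ (k / 6).toNat + E4f * b ∧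
      (c ≠ 0 → 0 ≤ k ∧ 6 ∣ k) := by
  induction' hn : k.toNat using Nat.strong_induction_on with n ih generalizing k a
  rcases lt_trichotomy k 0 with hneg | rfl | hpos
  · -- negative weight: `a = 0`
    rw [R1_neg hneg, Submodule.mem_bot] at ha
    exact ⟨0, 0, Submodule.zero_mem _, by simp [ha], fun h => absurd rfl h⟩
  · -- weight zero: constants
    obtain ⟨c, rfl⟩ := R1_zero ha
    refine ⟨c, 0, Submodule.zero_mem _, ?_, fun _ => ⟨le_refl _, dvd_zero _⟩⟩
    funext z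
    simp
  · -- positive weight
    obtain ⟨b, hb, c₁, hc₁, rfl⟩ := R1_exists_E4_E6_decomp hpos ha
    obtain ⟨c, b', hb', hc₁eq, hcond⟩ := ih (k - 6).toNat (by omega) hc₁ rfl
    have hmem : b + E6f * b' ∈ R1 (k - 4) :=
      Submodule.add_mem _ hb (R1_of_eq (by ring) (R1_mul E6f_mem hb'))
    by_cases hc : c = 0
    · subst hc
      refine ⟨0, b + E6f * b', hmem, ?_, fun h => absurd rfl h⟩
      rw [hc₁eq]
      funext z
      simp only [zero_smul, zero_add, Pi.add_apply, Pi.mul_apply, Pi.zero_apply]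
      ring
    · obtain ⟨h0, h6⟩ := hcond hc
      refine ⟨c, b + E6f * b', hmem, ?_, fun _ => ⟨by omega, by omega⟩⟩
      have hexp : (k / 6).toNat = ((k - 6) / 6).toNat + 1 := by omega
      rw [hc₁eq, hexp]
      funext z
      simp only [Pi.add_apply, Pi.mul_apply, Pi.smul_apply, Pi.pow_apply, smul_eq_mul]
      ring

/-! ## Nowhere vanishing forms have weight `0`; a recognition criterion -/

/-- a function which is holomorphic, `SL(2,ℤ)`-invariant of weight `k` and bounded at `∞` is a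
level-one modular form. -/
theorem mem_R1_of {k : ℤ} {a : ℍ → ℂ} (hol : MDiff a)
    (hinv : ∀ γ : SL(2, ℤ), a ∣[k] γ = a) (hbdd : IsBoundedAtImInfty a) : a ∈ R1 k := by
  refine ⟨{ toFun := a
            slash_action_eq' := fun _ ⟨γ, hγ⟩ ↦ hγ ▸ hinv γ
            holo' := hol
            bdd_at_cusps' := ?_ }, rfl⟩
  intro c hc
  rw [Subgroup.IsArithmetic.isCusp_iff_isCusp_SL2Z] at hc
  rw [OnePoint.isBoundedAt_iff_forall_SL2Z hc]
  intro γ _
  rw [hinv γ]
  exact hbdd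

/-- a level-one form with no zero on `ℍ` and nonzero value at `∞` has weight 0
(its inverse is a modular form of weight `-k`). -/
theorem R1_weight_eq_zero {k : ℤ} {a : ℍ → ℂ} (ha : a ∈ R1 k) (hne : ∀ z, a z ≠ 0) {c : ℂ}
    (hc : c ≠ 0) (hlim : Tendsto a atImInfty (𝓝 c)) : k = 0 := by
  by_contra hk
  rcases lt_or_gt_of_ne hk with hneg | hpos
  · rw [R1_neg hneg, Submodule.mem_bot] at ha
    exact hne I (congrFun ha I)
  · -- the inverse is a modular form of weight `0 - k < 0`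
    have hmd := R1_mdiff ha
    obtain ⟨f, rfl⟩ := ha
    have hslash : ∀ γ : SL(2, ℤ), ((1 : ℍ → ℂ) / (f : ℍ → ℂ)) ∣[(0 : ℤ) - k] γ
        = (1 : ℍ → ℂ) / (f : ℍ → ℂ) := by
      intro γ
      have hγ : (γ : GL (Fin 2) ℝ) ∈ 𝒮ℒ := ⟨γ, rfl⟩
      rw [div_slash_SL2, is_invariant_one, SL_slash,
        SlashInvariantFormClass.slash_action_eq f _ hγ]
    have hg : (1 : ℍ → ℂ) / (f : ℍ → ℂ) ∈ R1 ((0 : ℤ) - k) := by
      refine mem_R1_of ((mdifferentiable_const (c := (1 : ℂ))).div hmd hne) hslash ?_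
      have : Tendsto ((1 : ℍ → ℂ) / (f : ℍ → ℂ)) atImInfty (𝓝 (1 / c)) :=
        Tendsto.div tendsto_const_nhds hlim hc
      exact this.isBigO_one ℝ
    rw [R1_neg (by omega), Submodule.mem_bot] at hg
    have := congrFun hg I
    change (1 : ℂ) / f I = 0 at this
    exact one_div_ne_zero (hne I) this

end Fermat.Agent.S20
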