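import Fermat.Agent.S20.Defs
import Fermat.Agent.S20.Level1
import Fermat.Agent.S20.GradedBasisCore

/-!
# S20, module C: graded Nakayama + regular sequence `(E₄, E₆)` ⟹ finite homogeneous basis

The abstract algebra lives in `GradedBasisCore.lean` (`RegGraded`); here it is instantiated with
the ring of level-one forms `R1`.
-/

set_option autoImplicit false

namespace Fermat.Agent.S20

open UpperHalfPlane ModularForm MatrixGroups CongruenceSubgroup Matrix.SpecialLinearGroup Filter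
open scoped Topology Manifold

variable {N : ℕ} [NeZero N]

theorem gradedBasis_E6f_pow_mem (j : ℕ) : E6f ^ j ∈ R1 (6 * (j : ℤ)) := by
  induction j with
  | zero =>
    simpa using one_mem_R1
  | succ j ih =>
    have := R1_mul ih E6f_mem
    rw [pow_succ]
    have e : 6 * (j : ℤ) + 6 = 6 * ((j + 1 : ℕ) : ℤ) := by push_cast; ring
    rw [← e]
    exact this

/-- positive weight level-one forms lie in `E₄ R + E₆ R`. -/
theorem gradedBasis_R1_dec (k : ℤ) (hk : 0 < k) (a : ℍ → ℂ) (ha : a ∈ R1 k) :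
    ∃ b ∈ R1 (k - 4), ∃ c ∈ R1 (k - 6), a = E4f * b + E6f * c := by
  obtain ⟨c, b, hb, hab, hc⟩ := R1_decomp ha
  by_cases hc0 : c = 0
  · refine ⟨b, hb, 0, zero_mem _, ?_⟩
    rw [hab, hc0, zero_smul, zero_add, mul_zero, add_zero]
  · obtain ⟨_, q, rfl⟩ := hc hc0
    have hq : 0 < q := by omega
    have e1 : (6 * q / 6).toNat = (q.toNat - 1) + 1 := by
      rw [Int.mul_ediv_cancel_left q (by norm_num : (6 : ℤ) ≠ 0)]
      omega
    have e2 : 6 * ((q.toNat - 1 : ℕ) : ℤ) = 6 * q - 6 := by omega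
    refine ⟨b, hb, c • E6f ^ (q.toNat - 1), ?_, ?_⟩
    · rw [← e2]
      exact (R1 _).smul_mem c (gradedBasis_E6f_pow_mem _)
    · rw [hab, e1, pow_succ]
      rw [mul_smul_comm, mul_comm E6f, add_comm]

/-- The level-one ring and a family `M` as in `exists_homBasis` form a `RegGraded` datum. -/
theorem gradedBasis_regGraded (M : ℤ → Submodule ℂ (ℍ → ℂ))
    (hfin : ∀ K, FiniteDimensional ℂ (M K))
    (hneg : ∀ K, K < 0 → M K = ⊥)
    (hmul : ∀ (m K : ℤ) (a f : ℍ → ℂ), a ∈ R1 m → f ∈ M K → a * f ∈ M (m + K))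
    (hcancel : ∀ (K : ℤ) (f : ℍ → ℂ), f ∈ M K → E4f * f = 0 → f = 0)
    (hdiv : ∀ (K : ℤ) (f g : ℍ → ℂ), f ∈ M K → g ∈ M (K + 2) → E6f * f = E4f * g →
      ∃ h ∈ M (K - 4), f = E4f * h) :
    RegGraded R1 M E4f E6f where
  A_neg := fun k hk => R1_neg hk
  A_zero := fun a ha => by
    obtain ⟨c, rfl⟩ := R1_zero ha
    exact ⟨c, rfl⟩
  one_mem := one_mem_R1
  E4_mul_A := fun k a ha => by
    have := R1_mul E4f_mem ha
    rwa [add_comm] at this
  E6_mul_A := fun k a ha => by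
    have := R1_mul E6f_mem ha
    rwa [add_comm] at this
  A_dec := gradedBasis_R1_dec
  M_neg := hneg
  E4_mul_M := fun k f hf => by
    have := hmul 4 k E4f f E4f_mem hf
    rwa [add_comm] at this
  E6_mul_M := fun k f hf => by
    have := hmul 6 k E6f f E6f_mem hf
    rwa [add_comm] at this
  E4_inj := hcancel
  div := fun k f hf g hg e => hdiv k f g hf hg e
  M_fin := hfin

theorem exists_homBasis (M : ℤ → Submodule ℂ (ℍ → ℂ))
    (hfin : ∀ K, FiniteDimensional ℂ (M K))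
    (hneg : ∀ K, K < 0 → M K = ⊥)
    (hodd : ∀ K, Odd K → M K = ⊥)
    (hmul : ∀ (m K : ℤ) (a f : ℍ → ℂ), a ∈ R1 m → f ∈ M K → a * f ∈ M (m + K))
    (hcancel : ∀ (K : ℤ) (f : ℍ → ℂ), f ∈ M K → E4f * f = 0 → f = 0)
    (hdiv : ∀ (K : ℤ) (f g : ℍ → ℂ), f ∈ M K → g ∈ M (K + 2) → E6f * f = E4f * g →
      ∃ h ∈ M (K - 4), f = E4f * h)
    (hbound : ∃ α β : ℕ, ∀ K : ℕ, Module.finrank ℂ (M K) ≤ α * K + β) :
    Nonempty (HomBasis M) := by
  obtain ⟨α, β, hαβ⟩ := hbound
  have hR : RegGraded R1 M E4f E6f := gradedBasis_regGraded M hfin hneg hmul hcancel hdiv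
  obtain ⟨L0, hL0⟩ := hR.exists_bound_compl α β hodd hαβ
  exact ⟨{ ι := hR.Idx L0
           fin := inferInstance
           k := hR.wt L0
           v := hR.vec L0
           mem := hR.vec_mem L0
           exists_unique := fun K f hf => hR.exists_unique_repr L0 hL0 K f hf }⟩

/-- Hilbert function of a family with a homogeneous basis. -/
theorem HomBasis.finrank_eq {M : ℤ → Submodule ℂ (ℍ → ℂ)} (b : HomBasis M)
    (hmul : ∀ (m K : ℤ) (a f : ℍ → ℂ), a ∈ R1 m → f ∈ M K → a * f ∈ M (m + K)) (K : ℤ) :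
    Module.finrank ℂ (M K) = ∑ i, Module.finrank ℂ (R1 (K - b.k i)) := by
  classical
  haveI : ∀ k : ℤ, Module.Finite ℂ (R1 k) := fun k => by unfold R1; infer_instance
  have hmem : ∀ a : (∀ i : b.ι, R1 (K - b.k i)), ∑ i, (a i : ℍ → ℂ) * b.v i ∈ M K := by
    intro a
    refine Submodule.sum_mem _ (fun i _ => ?_)
    have := hmul (K - b.k i) (b.k i) (a i) (b.v i) (a i).2 (b.mem i)
    rwa [sub_add_cancel] at this
  let Φ : (∀ i : b.ι, R1 (K - b.k i)) →ₗ[ℂ] M K :=
    { toFun := fun a => ⟨∑ i, (a i : ℍ → ℂ) * b.v i, hmem a⟩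
      map_add' := fun a a' => by
        apply Subtype.ext
        simp only [Pi.add_apply, Submodule.coe_add, add_mul, Finset.sum_add_distrib]
      map_smul' := fun c a => by
        apply Subtype.ext
        simp only [Pi.smul_apply, Submodule.coe_smul, smul_mul_assoc, Finset.smul_sum,
          RingHom.id_apply] }
  have hΦ : ∀ a, ((Φ a : M K) : ℍ → ℂ) = ∑ i, (a i : ℍ → ℂ) * b.v i := fun a => rfl
  have hbij : Function.Bijective Φ := by
    constructor
    · intro a a' haa'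
      obtain ⟨a0, _, huniq⟩ := b.exists_unique K (Φ a : ℍ → ℂ) (Φ a).2
      have h1 := huniq (fun i => (a i : ℍ → ℂ)) ⟨fun i => (a i).2, hΦ a⟩
      have h2 := huniq (fun i => (a' i : ℍ → ℂ)) ⟨fun i => (a' i).2, by rw [haa', hΦ a']⟩
      funext i
      exact Subtype.ext (congrFun (h1.trans h2.symm) i)
    · intro f
      obtain ⟨a, ⟨ha, hfa⟩, _⟩ := b.exists_unique K (f : ℍ → ℂ) f.2
      refine ⟨fun i => ⟨a i, ha i⟩, Subtype.ext ?_⟩
      rw [hΦ]
      exact hfa.symm
  rw [← LinearEquiv.finrank_eq (LinearEquiv.ofBijective Φ hbij), Module.finrank_pi_fintype]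

/-- basis elements are nonzero. -/
theorem HomBasis.v_ne_zero {M : ℤ → Submodule ℂ (ℍ → ℂ)} (b : HomBasis M) (i : b.ι) :
    b.v i ≠ 0 := by
  classical
  intro hv
  obtain ⟨a0, _, huniq⟩ := b.exists_unique (b.k i) 0 (zero_mem _)
  have h1 := huniq (fun _ => 0) ⟨fun j => zero_mem _, by simp⟩
  have h2 := huniq (fun j => if j = i then 1 else 0) ⟨fun j => ?_, ?_⟩
  · have h3 := congrFun (congrFun (h1.trans h2.symm) i) UpperHalfPlane.I
    simp at h3
  · show (if j = i then (1 : ℍ → ℂ) else 0) ∈ R1 (b.k i - b.k j)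
    by_cases hj : j = i
    · subst hj
      rw [if_pos rfl, sub_self]
      exact one_mem_R1
    · rw [if_neg hj]
      exact zero_mem _
  · rw [Finset.sum_eq_single i]
    · show (0 : ℍ → ℂ) = (if i = i then (1 : ℍ → ℂ) else 0) * b.v i
      rw [if_pos rfl, one_mul, hv]
    · intro j _ hj
      show (if j = i then (1 : ℍ → ℂ) else 0) * b.v j = 0
      rw [if_neg hj, zero_mul]
    · intro hi
      exact absurd (Finset.mem_univ i) hi

end Fermat.Agent.S20
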