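import Mathlib

set_option autoImplicit false

/-!
# A period lattice is determined by `G₄` and `G₆`

Only analytic input: Mathlib's Weierstrass ODE `PeriodPair.derivWeierstrassP_sq`.
-/

namespace Fermat.Agent.S20

open PeriodPair Filter Topology

/-- The key algebraic identity obtained by subtracting the two Weierstrass ODEs. -/
theorem weierstrass_ode_sub (L₁ L₂ : PeriodPair) (h2 : L₁.g₂ = L₂.g₂) (h3 : L₁.g₃ = L₂.g₃)
    (z : ℂ) (hz0 : z ≠ 0) (hz1 : z ∉ L₁.lattice) (hz2 : z ∉ L₂.lattice) :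
    z * (z ^ 3 * (℘'[L₁ - (0 : ℂ)] z + ℘'[L₂ - (0 : ℂ)] z) - 4) *
        (℘'[L₁ - (0 : ℂ)] z - ℘'[L₂ - (0 : ℂ)] z) =
      (4 * ((z ^ 2 * ℘[L₁ - (0 : ℂ)] z + 1) ^ 2 +
          (z ^ 2 * ℘[L₁ - (0 : ℂ)] z + 1) * (z ^ 2 * ℘[L₂ - (0 : ℂ)] z + 1) +
          (z ^ 2 * ℘[L₂ - (0 : ℂ)] z + 1) ^ 2) - L₁.g₂ * z ^ 4) *
        (℘[L₁ - (0 : ℂ)] z - ℘[L₂ - (0 : ℂ)] z) := by
  have e1 := L₁.derivWeierstrassP_sq z hz1
  have e2 := L₂.derivWeierstrassP_sq z hz2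
  have p1 : ℘[L₁] z = ℘[L₁ - (0 : ℂ)] z + 1 / z ^ 2 := by
    have := L₁.weierstrassPExcept_def (0 : L₁.lattice) z
    simp only [ZeroMemClass.coe_zero, sub_zero] at this
    rw [this]; simp
  have p2 : ℘[L₂] z = ℘[L₂ - (0 : ℂ)] z + 1 / z ^ 2 := by
    have := L₂.weierstrassPExcept_def (0 : L₂.lattice) z
    simp only [ZeroMemClass.coe_zero, sub_zero] at this
    rw [this]; simp
  have d1 : ℘'[L₁] z = ℘'[L₁ - (0 : ℂ)] z - 2 / z ^ 3 := by
    have := L₁.derivWeierstrassPExcept_def (0 : L₁.lattice) z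
    simp only [ZeroMemClass.coe_zero, sub_zero] at this
    rw [this]; ring
  have d2 : ℘'[L₂] z = ℘'[L₂ - (0 : ℂ)] z - 2 / z ^ 3 := by
    have := L₂.derivWeierstrassPExcept_def (0 : L₂.lattice) z
    simp only [ZeroMemClass.coe_zero, sub_zero] at this
    rw [this]; ring
  rw [p1, d1] at e1
  rw [p2, d2, ← h2, ← h3] at e2
  set a₁ := ℘[L₁ - (0 : ℂ)] z
  set a₂ := ℘[L₂ - (0 : ℂ)] z
  set b₁ := ℘'[L₁ - (0 : ℂ)] z
  set b₂ := ℘'[L₂ - (0 : ℂ)] z
  have E1 : (z ^ 3 * b₁ - 2) ^ 2 =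
      4 * (z ^ 2 * a₁ + 1) ^ 3 - L₁.g₂ * (z ^ 6 * a₁ + z ^ 4) - L₁.g₃ * z ^ 6 := by
    field_simp at e1
    linear_combination e1
  have E2 : (z ^ 3 * b₂ - 2) ^ 2 =
      4 * (z ^ 2 * a₂ + 1) ^ 3 - L₁.g₂ * (z ^ 6 * a₂ + z ^ 4) - L₁.g₃ * z ^ 6 := by
    field_simp at e2
    linear_combination e2
  have hz2' : z ^ 2 ≠ 0 := pow_ne_zero _ hz0
  apply mul_left_cancel₀ hz2'
  linear_combination E1 - E2


/-- Local uniqueness at `0`: the regular parts of two `℘`-functions with the same `g₂, g₃`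
agree near `0`. -/
theorem weierstrassPExcept_eventuallyEq (L₁ L₂ : PeriodPair)
    (h2 : L₁.g₂ = L₂.g₂) (h3 : L₁.g₃ = L₂.g₃) :
    ℘[L₁ - (0 : ℂ)] =ᶠ[𝓝 0] ℘[L₂ - (0 : ℂ)] := by
  set h₁ := ℘[L₁ - (0 : ℂ)] with hh₁
  set h₂ := ℘[L₂ - (0 : ℂ)] with hh₂
  set d₁ := ℘'[L₁ - (0 : ℂ)] with hd₁
  set d₂ := ℘'[L₂ - (0 : ℂ)] with hd₂
  have ah₁ : AnalyticAt ℂ h₁ 0 := L₁.analyticAt_weierstrassPExcept 0
  have ah₂ : AnalyticAt ℂ h₂ 0 := L₂.analyticAt_weierstrassPExcept 0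
  have ad₁ : AnalyticAt ℂ d₁ 0 := L₁.analyticAt_derivWeierstrassPExcept 0
  have ad₂ : AnalyticAt ℂ d₂ 0 := L₂.analyticAt_derivWeierstrassPExcept 0
  have n1 := L₁.compl_lattice_sdiff_singleton_mem_nhds 0
  have n2 := L₂.compl_lattice_sdiff_singleton_mem_nhds 0
  -- the function `f = h₁ - h₂`
  have af : AnalyticAt ℂ (fun z => h₁ z - h₂ z) 0 := ah₁.sub ah₂
  by_contra hne
  have hne' : ¬ ∀ᶠ z in 𝓝 (0 : ℂ), (fun z => h₁ z - h₂ z) z = 0 := by
    intro h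
    apply hne
    filter_upwards [h] with z hz
    exact sub_eq_zero.mp hz
  obtain ⟨n, g, ag, g0, hfg⟩ := (af.exists_eventuallyEq_pow_smul_nonzero_iff).mpr hne'
  -- derivative of `f` near 0
  have hderiv : ∀ᶠ z in 𝓝 (0 : ℂ), deriv (fun z => h₁ z - h₂ z) z = d₁ z - d₂ z := by
    filter_upwards [n1, n2, ah₁.eventually_analyticAt, ah₂.eventually_analyticAt]
      with z hz1 hz2 a1 a2
    have e1 : deriv h₁ z = d₁ z := L₁.eqOn_deriv_weierstrassPExcept_derivWeierstrassPExcept 0 hz1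
    have e2 : deriv h₂ z = d₂ z := L₂.eqOn_deriv_weierstrassPExcept_derivWeierstrassPExcept 0 hz2
    rw [deriv_fun_sub a1.differentiableAt a2.differentiableAt, e1, e2]
  have hderiv' : ∀ᶠ z in 𝓝 (0 : ℂ), deriv (fun z => h₁ z - h₂ z) z =
      deriv (fun z => (z - 0) ^ n • g z) z := by
    have hfg' : (fun z => h₁ z - h₂ z) =ᶠ[𝓝 0] fun z => (z - 0) ^ n • g z := hfg
    filter_upwards [hfg'.eventually_nhds] with z hz
    exact Filter.EventuallyEq.deriv_eq hz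
  have hderiv'' : ∀ᶠ z in 𝓝 (0 : ℂ), z * deriv (fun z => (z - 0) ^ n • g z) z =
      z ^ n * (n * g z + z * deriv g z) := by
    filter_upwards [ag.eventually_analyticAt] with z az
    have hg : HasDerivAt g (deriv g z) z := az.differentiableAt.hasDerivAt
    have hp : HasDerivAt (fun z : ℂ => (z - 0) ^ n) (n * z ^ (n - 1)) z := by
      simpa using hasDerivAt_pow n z
    have hsm : HasDerivAt (fun z : ℂ => (z - 0) ^ n • g z)
        ((z - 0) ^ n • deriv g z + (n * z ^ (n - 1)) • g z) z := hp.smul hg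
    rw [hsm.deriv]
    simp only [sub_zero, smul_eq_mul]
    rcases Nat.eq_zero_or_pos n with rfl | hn
    · simp
    · have : z ^ n = z * z ^ (n - 1) := by
        rw [← pow_succ']; congr 1; omega
      rw [this]; ring
  -- the identity near 0
  have key : ∀ᶠ z in 𝓝[≠] (0 : ℂ),
      (z ^ 3 * (d₁ z + d₂ z) - 4) * (n * g z + z * deriv g z) -
        (4 * ((z ^ 2 * h₁ z + 1) ^ 2 + (z ^ 2 * h₁ z + 1) * (z ^ 2 * h₂ z + 1) +
          (z ^ 2 * h₂ z + 1) ^ 2) - L₁.g₂ * z ^ 4) * g z = 0 := by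
    have hall : ∀ᶠ z in 𝓝 (0 : ℂ), z ≠ 0 →
      (z ^ 3 * (d₁ z + d₂ z) - 4) * (n * g z + z * deriv g z) -
        (4 * ((z ^ 2 * h₁ z + 1) ^ 2 + (z ^ 2 * h₁ z + 1) * (z ^ 2 * h₂ z + 1) +
          (z ^ 2 * h₂ z + 1) ^ 2) - L₁.g₂ * z ^ 4) * g z = 0 := by
      filter_upwards [n1, n2, hfg, hderiv, hderiv', hderiv''] with z hz1 hz2 hf hd hd' hd'' hz0
      have m1 : z ∉ L₁.lattice := fun hm => hz1 ⟨hm, by simpa using hz0⟩
      have m2 : z ∉ L₂.lattice := fun hm => hz2 ⟨hm, by simpa using hz0⟩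
      have ode := weierstrass_ode_sub L₁ L₂ h2 h3 z hz0 m1 m2
      simp only [← hh₁, ← hh₂, ← hd₁, ← hd₂] at ode
      have hf' : h₁ z - h₂ z = z ^ n * g z := by simpa using hf
      rw [← hd, hd', hf'] at ode
      have hzn : z ^ n ≠ 0 := pow_ne_zero _ hz0
      apply mul_left_cancel₀ hzn
      rw [mul_zero]
      linear_combination (-(z ^ 3 * (d₁ z + d₂ z) - 4)) * hd'' + ode
    rw [eventually_nhdsWithin_iff]
    filter_upwards [hall] with z hz hz0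
    exact hz hz0
  -- continuity at 0 gives a contradiction
  have cont : ContinuousAt (fun z : ℂ =>
      (z ^ 3 * (d₁ z + d₂ z) - 4) * (n * g z + z * deriv g z) -
        (4 * ((z ^ 2 * h₁ z + 1) ^ 2 + (z ^ 2 * h₁ z + 1) * (z ^ 2 * h₂ z + 1) +
          (z ^ 2 * h₂ z + 1) ^ 2) - L₁.g₂ * z ^ 4) * g z) 0 := by
    have c1 := ah₁.continuousAt
    have c2 := ah₂.continuousAt
    have c3 := ad₁.continuousAt
    have c4 := ad₂.continuousAt
    have c5 := ag.continuousAt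
    have c6 := ag.deriv.continuousAt
    fun_prop
  have lim := cont.tendsto.mono_left (nhdsWithin_le_nhds (s := {0}ᶜ))
  have lim0 : Tendsto (fun z : ℂ =>
      (z ^ 3 * (d₁ z + d₂ z) - 4) * (n * g z + z * deriv g z) -
        (4 * ((z ^ 2 * h₁ z + 1) ^ 2 + (z ^ 2 * h₁ z + 1) * (z ^ 2 * h₂ z + 1) +
          (z ^ 2 * h₂ z + 1) ^ 2) - L₁.g₂ * z ^ 4) * g z) (𝓝[≠] (0 : ℂ)) (𝓝 0) :=
    (tendsto_const_nhds).congr' (key.mono fun z hz => hz.symm)
  have := tendsto_nhds_unique lim lim0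
  simp only [ne_eq, OfNat.ofNat_ne_zero, not_false_eq_true, zero_pow, zero_mul, zero_sub,
    add_zero, mul_zero, sub_zero] at this
  have : (-(4 * (n : ℂ)) - 12) * g 0 = 0 := by linear_combination this
  rcases mul_eq_zero.mp this with h | h
  · have h' : ((4 * n + 12 : ℕ) : ℂ) = 0 := by push_cast; linear_combination -h
    exact absurd (Nat.cast_eq_zero.mp h') (by omega)
  · exact g0 h


theorem weierstrassP_eq_except_add (L : PeriodPair) (z : ℂ) :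
    ℘[L] z = ℘[L - (0 : ℂ)] z + 1 / z ^ 2 := by
  have := L.weierstrassPExcept_def (0 : L.lattice) z
  simp only [ZeroMemClass.coe_zero, sub_zero] at this
  rw [this]; simp

theorem countable_lattice (L : PeriodPair) : (L.lattice : Set ℂ).Countable := by
  have : Countable L.lattice := Countable.of_equiv _ L.latticeEquivProd.toEquiv.symm
  exact Set.countable_coe_iff.mp this

/-- One inclusion of the lattices, given that the two `℘`-functions agree off the lattices. -/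
theorem lattice_le_of_eqOn (L₁ L₂ : PeriodPair)
    (h : Set.EqOn ℘[L₁] ℘[L₂] ((L₁.lattice : Set ℂ) ∪ L₂.lattice)ᶜ) :
    L₁.lattice ≤ L₂.lattice := by
  intro l hl
  by_contra hl2
  have o1 := L₁.order_weierstrassP l hl
  have a2 : AnalyticAt ℂ ℘[L₂] l := L₂.analyticOnNhd_weierstrassP l hl2
  have o2 := a2.meromorphicOrderAt_nonneg
  have hcongr : ℘[L₁] =ᶠ[𝓝[≠] l] ℘[L₂] := by
    rw [Filter.EventuallyEq, eventually_nhdsWithin_iff]
    filter_upwards [L₁.compl_lattice_sdiff_singleton_mem_nhds l,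
      L₂.isClosed_lattice.isOpen_compl.mem_nhds hl2] with z hz1 hz2 hzl
    apply h
    rintro (hm | hm)
    · exact hz1 ⟨hm, hzl⟩
    · exact hz2 hm
  rw [meromorphicOrderAt_congr hcongr] at o1
  rw [o1] at o2
  exact absurd o2 (by decide)

/-- **A period lattice is determined by `g₂` and `g₃`.** -/
theorem lattice_eq_of_g_eq (L₁ L₂ : PeriodPair) (h2 : L₁.g₂ = L₂.g₂) (h3 : L₁.g₃ = L₂.g₃) :
    L₁.lattice = L₂.lattice := by
  set U : Set ℂ := ((L₁.lattice : Set ℂ) ∪ L₂.lattice)ᶜ with hU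
  have hUc : ((L₁.lattice : Set ℂ) ∪ L₂.lattice).Countable :=
    (countable_lattice L₁).union (countable_lattice L₂)
  have hUconn : IsPreconnected U := by
    have : IsPathConnected U :=
      Set.Countable.isPathConnected_compl_of_one_lt_rank (by simp) hUc
    exact this.isConnected.isPreconnected
  have an1 : AnalyticOnNhd ℂ ℘[L₁] U := fun z hz =>
    L₁.analyticOnNhd_weierstrassP z (fun hm => hz (Or.inl hm))
  have an2 : AnalyticOnNhd ℂ ℘[L₂] U := fun z hz =>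
    L₂.analyticOnNhd_weierstrassP z (fun hm => hz (Or.inr hm))
  have hloc : ℘[L₁] =ᶠ[𝓝 0] ℘[L₂] := by
    filter_upwards [weierstrassPExcept_eventuallyEq L₁ L₂ h2 h3] with z hz
    rw [weierstrassP_eq_except_add, weierstrassP_eq_except_add, hz]
  have hex : ∃ z₀, z₀ ∈ U ∧ ℘[L₁] =ᶠ[𝓝 z₀] ℘[L₂] := by
    have h1 : ∀ᶠ z in 𝓝[≠] (0 : ℂ), ℘[L₁] =ᶠ[𝓝 z] ℘[L₂] :=
      hloc.eventually_nhds.filter_mono nhdsWithin_le_nhds
    have h2 : ∀ᶠ z in 𝓝[≠] (0 : ℂ), z ∈ U := by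
      rw [eventually_nhdsWithin_iff]
      filter_upwards [L₁.compl_lattice_sdiff_singleton_mem_nhds 0,
        L₂.compl_lattice_sdiff_singleton_mem_nhds 0] with z hz1 hz2 hz0
      rintro (hm | hm)
      · exact hz1 ⟨hm, hz0⟩
      · exact hz2 ⟨hm, hz0⟩
    obtain ⟨z₀, hz₀⟩ := (h2.and h1).exists
    exact ⟨z₀, hz₀⟩
  obtain ⟨z₀, hz₀U, hz₀⟩ := hex
  have heq : Set.EqOn ℘[L₁] ℘[L₂] U :=
    an1.eqOn_of_preconnected_of_eventuallyEq an2 hUconn hz₀U hz₀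
  apply le_antisymm
  · exact lattice_le_of_eqOn L₁ L₂ heq
  · apply lattice_le_of_eqOn L₂ L₁
    rw [Set.union_comm]
    exact heq.symm

/-- **A period lattice is determined by `G₄` and `G₆`.** -/
theorem lattice_eq_of_G_eq (L₁ L₂ : PeriodPair) (h4 : L₁.G 4 = L₂.G 4) (h6 : L₁.G 6 = L₂.G 6) :
    L₁.lattice = L₂.lattice :=
  lattice_eq_of_g_eq L₁ L₂ (by simp [PeriodPair.g₂, h4]) (by simp [PeriodPair.g₃, h6])

end Fermat.Agent.S20
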