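import Mathlib
import Fermat.Agent.S20.Helper98Weierstrass

set_option autoImplicit false

/-!
# Translates of level-one Eisenstein series as lattice sums

For `g ∈ GL(2,ℝ)` of positive determinant with rows `(a b)`, `(c d)`, the value of `E_k ∣[k] g` at
`z` is a constant multiple of the lattice sum `G_k` of the period pair `(a z + b, c z + d)`.
-/

namespace Fermat.Agent.S20

open UpperHalfPlane ModularForm EisensteinSeries Complex
open scoped MatrixGroups

/-- The period pair `(a z + b, c z + d)` for `z ∈ ℍ` and a real matrix of nonzero determinant. -/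
noncomputable def ppOf (z : ℍ) (a b c d : ℝ) (h : a * d - b * c ≠ 0) : PeriodPair where
  ω₁ := a * z + b
  ω₂ := c * z + d
  indep := by
    rw [LinearIndependent.pair_iff]
    intro s t hst
    have him := congrArg Complex.im hst
    have hre := congrArg Complex.re hst
    simp only [real_smul, add_im, mul_im, ofReal_re, ofReal_im, coe_im, coe_re, zero_mul,
      add_zero, mul_re, sub_zero, add_re, zero_im, zero_re] at him hre
    have hz : (z : ℂ).im ≠ 0 := z.im_pos.ne'
    have h1 : s * a + t * c = 0 := by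
      have : (s * a + t * c) * z.im = 0 := by
        simp only [coe_im] at *
        linear_combination him
      rcases mul_eq_zero.mp this with h | h
      · exact h
      · exact absurd h z.im_pos.ne'
    have h2 : s * b + t * d = 0 := by
      simp only [coe_re, coe_im] at *
      linear_combination hre - z.re * h1
    constructor
    · have : s * (a * d - b * c) = 0 := by linear_combination d * h1 - c * h2
      exact (mul_eq_zero.mp this).resolve_right h
    · have : t * (a * d - b * c) = 0 := by linear_combination a * h2 - b * h1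
      exact (mul_eq_zero.mp this).resolve_right h

@[simp] theorem ppOf_ω₁ (z : ℍ) (a b c d : ℝ) (h : a * d - b * c ≠ 0) :
    (ppOf z a b c d h).ω₁ = a * z + b := rfl

@[simp] theorem ppOf_ω₂ (z : ℍ) (a b c d : ℝ) (h : a * d - b * c ≠ 0) :
    (ppOf z a b c d h).ω₂ = c * z + d := rfl

/-- The lattice sum `G n` as a sum over `Fin 2 → ℤ`. -/
theorem G_eq_tsum (L : PeriodPair) (n : ℕ) :
    L.G n = ∑' v : Fin 2 → ℤ, ((v 0 * L.ω₁ + v 1 * L.ω₂) ^ n)⁻¹ := by
  rw [PeriodPair.G]
  rw [← (L.latticeEquivProd.symm.toEquiv.trans (Equiv.refl _)).tsum_eq]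
  rw [← (finTwoArrowEquiv ℤ).tsum_eq]
  refine tsum_congr fun v => ?_
  simp [PeriodPair.latticeEquiv_symm_apply]


/-- `2 ζ(k) E_k(w)` is the full lattice sum. -/
theorem two_zeta_mul_E (k : ℕ) (hk : 3 ≤ k) (w : ℍ) :
    2 * riemannZeta k * E hk w = ∑' v : Fin 2 → ℤ, ((v 0 * (w : ℂ) + v 1) ^ k)⁻¹ := by
  have h1 := tsum_eisSummand_eq_riemannZeta_mul_eisensteinSeries hk w
  have h2 : E hk w = (1 / 2 : ℂ) • eisensteinSeriesSIF (N := 1) 0 k w := rfl
  rw [h2, eisensteinSeriesSIF_apply, smul_eq_mul]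
  have h3 : ∑' v : Fin 2 → ℤ, ((v 0 * (w : ℂ) + v 1) ^ k)⁻¹ = ∑' v : Fin 2 → ℤ, eisSummand k v w := by
    refine tsum_congr fun v => ?_
    simp [eisSummand, zpow_neg]
  rw [h3, h1]
  ring

/-- The value of a translate of `E_k` as a lattice sum. -/
theorem E_slash_apply (k : ℕ) (hk : 3 ≤ k) (g : GL (Fin 2) ℝ) (hg : 0 < g.det.val) (z : ℍ)
    (h : g 0 0 * g 1 1 - g 0 1 * g 1 0 ≠ 0) :
    2 * riemannZeta k * ((E hk : ℍ → ℂ) ∣[(k : ℤ)] g) z =
      (g.det.val : ℂ) ^ ((k : ℤ) - 1) * (ppOf z (g 0 0) (g 0 1) (g 1 0) (g 1 1) h).G k := by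
  rw [ModularForm.slash_def]
  have hσ : σ g = ContinuousAlgEquiv.refl ℝ ℂ := by
    unfold σ
    rw [if_pos hg]
  have hden : denom g z ≠ 0 := denom_ne_zero g z
  have hsmul : ((g • z : ℍ) : ℂ) = num g z / denom g z := coe_smul_of_det_pos hg z
  have habs : |g.det.val| = g.det.val := abs_of_pos hg
  simp only [hσ, ContinuousAlgEquiv.refl_apply, habs]
  rw [G_eq_tsum]
  have key : 2 * riemannZeta k * E hk (g • z) =
      denom g z ^ k * ∑' v : Fin 2 → ℤ,
        ((v 0 * (g 0 0 * (z : ℂ) + g 0 1) + v 1 * (g 1 0 * (z : ℂ) + g 1 1)) ^ k)⁻¹ := by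
    rw [two_zeta_mul_E, ← tsum_mul_left]
    refine tsum_congr fun v => ?_
    rw [hsmul]
    have : (v 0 : ℂ) * (num g z / denom g z) + v 1 =
        (v 0 * (g 0 0 * (z : ℂ) + g 0 1) + v 1 * (g 1 0 * (z : ℂ) + g 1 1)) / denom g z := by
      have e1 : (v 0 : ℂ) * (num g z / denom g z) + v 1 =
          (v 0 * num g z + v 1 * denom g z) / denom g z := by
        rw [add_div, mul_div_assoc, mul_div_cancel_right₀ _ hden]
      exact e1
    rw [this, div_pow, inv_div, div_eq_mul_inv, mul_comm]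
  simp only [ppOf_ω₁, ppOf_ω₂]
  have hz : denom g z ^ (-(k : ℤ)) * denom g z ^ k = 1 := by
    rw [zpow_neg, zpow_natCast, inv_mul_cancel₀ (pow_ne_zero _ hden)]
  calc 2 * riemannZeta k * (E hk (g • z) * (g.det.val : ℂ) ^ ((k : ℤ) - 1) * denom g z ^ (-(k : ℤ)))
      = (2 * riemannZeta k * E hk (g • z)) * (g.det.val : ℂ) ^ ((k : ℤ) - 1)
          * denom g z ^ (-(k : ℤ)) := by ring
    _ = _ := by
      rw [key]
      linear_combination ((g.det.val : ℂ) ^ ((k : ℤ) - 1) * ∑' v : Fin 2 → ℤ,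
        ((v 0 * (g 0 0 * (z : ℂ) + g 0 1) + v 1 * (g 1 0 * (z : ℂ) + g 1 1)) ^ k)⁻¹) * hz

end Fermat.Agent.S20
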