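import Fermat.Agent.S20.Defs
import Fermat.Agent.S20.Helper98Lattice

/-!
# Module F : separation of cosets by modular forms

`E₄(N z)`, `E₆(N z)` are modular forms on `Γ₀(N)`; their components at the coset `x` are
(constants times) `G₄, G₆` of an index-`N` sublattice `Λ_x ⊂ ℤ z + ℤ` attached to `x`; distinct
cosets give distinct sublattices, and a lattice is determined by `(G₄, G₆)`.
-/

set_option autoImplicit false

namespace Fermat.Agent.S20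

open UpperHalfPlane ModularForm MatrixGroups CongruenceSubgroup Matrix.SpecialLinearGroup Filter
open scoped Topology Manifold Pointwise

/-- The matrix `diag(N, 1)` in `GL(2, ℝ)`. -/
noncomputable def dN (N : ℕ) [NeZero N] : GL (Fin 2) ℝ :=
  Matrix.GeneralLinearGroup.mkOfDetNeZero !![(N : ℝ), 0; 0, 1]
    (by simp [Matrix.det_fin_two, NeZero.ne N])

theorem dN_coe (N : ℕ) [NeZero N] :
    ((dN N : GL (Fin 2) ℝ) : Matrix (Fin 2) (Fin 2) ℝ) = !![(N : ℝ), 0; 0, 1] := rfl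

theorem dN_det (N : ℕ) [NeZero N] : (dN N).det.val = N := by
  simp [dN, Matrix.GeneralLinearGroup.mkOfDetNeZero, Matrix.det_fin_two]

/-- `diag(N,1) * γ` for `γ ∈ SL(2, ℤ)`. -/
noncomputable def gOf (N : ℕ) [NeZero N] (γ : SL(2, ℤ)) : GL (Fin 2) ℝ := dN N * mapGL ℝ γ

theorem dN_det' (N : ℕ) [NeZero N] :
    ((dN N : GL (Fin 2) ℝ) : Matrix (Fin 2) (Fin 2) ℝ).det = N := by
  rw [dN_coe]; simp [Matrix.det_fin_two]

theorem gOf_det (N : ℕ) [NeZero N] (γ : SL(2, ℤ)) : (gOf N γ).det.val = N := by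
  simp [gOf, dN_det']

theorem gOf_00 (N : ℕ) [NeZero N] (γ : SL(2, ℤ)) : (gOf N γ) 0 0 = N * (γ 0 0 : ℤ) := by
  simp [gOf, dN_coe, Matrix.mul_apply, Fin.sum_univ_two]

theorem gOf_01 (N : ℕ) [NeZero N] (γ : SL(2, ℤ)) : (gOf N γ) 0 1 = N * (γ 0 1 : ℤ) := by
  simp [gOf, dN_coe, Matrix.mul_apply, Fin.sum_univ_two]

theorem gOf_10 (N : ℕ) [NeZero N] (γ : SL(2, ℤ)) : (gOf N γ) 1 0 = (γ 1 0 : ℤ) := by
  simp [gOf, dN_coe, Matrix.mul_apply, Fin.sum_univ_two]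

theorem gOf_11 (N : ℕ) [NeZero N] (γ : SL(2, ℤ)) : (gOf N γ) 1 1 = (γ 1 1 : ℤ) := by
  simp [gOf, dN_coe, Matrix.mul_apply, Fin.sum_univ_two]


theorem gOf_det_pos (N : ℕ) [NeZero N] (γ : SL(2, ℤ)) : 0 < (gOf N γ).det.val := by
  rw [gOf_det]; exact_mod_cast Nat.pos_of_ne_zero (NeZero.ne N)

theorem gOf_ne (N : ℕ) [NeZero N] (γ : SL(2, ℤ)) :
    (gOf N γ) 0 0 * (gOf N γ) 1 1 - (gOf N γ) 0 1 * (gOf N γ) 1 0 ≠ 0 := by
  have h := gOf_det_pos N γ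
  have h2 : (gOf N γ).det.val = (gOf N γ) 0 0 * (gOf N γ) 1 1 - (gOf N γ) 0 1 * (gOf N γ) 1 0 := by
    rw [Matrix.GeneralLinearGroup.val_det_apply, Matrix.det_fin_two]
  rw [← h2]; exact h.ne'

/-- The period pair `(N (a z + b), c z + d)` attached to `γ = (a b; c d)` and `z`. -/
noncomputable def LOf (N : ℕ) [NeZero N] (γ : SL(2, ℤ)) (z : ℍ) : PeriodPair :=
  ppOf z ((gOf N γ) 0 0) ((gOf N γ) 0 1) ((gOf N γ) 1 0) ((gOf N γ) 1 1) (gOf_ne N γ)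

theorem LOf_ω₁ (N : ℕ) [NeZero N] (γ : SL(2, ℤ)) (z : ℍ) :
    (LOf N γ z).ω₁ = (N : ℂ) * (γ 0 0 : ℤ) * z + (N : ℂ) * (γ 0 1 : ℤ) := by
  simp [LOf, gOf_00, gOf_01]

theorem LOf_ω₂ (N : ℕ) [NeZero N] (γ : SL(2, ℤ)) (z : ℍ) :
    (LOf N γ z).ω₂ = ((γ 1 0 : ℤ) : ℂ) * z + ((γ 1 1 : ℤ) : ℂ) := by
  simp [LOf, gOf_10, gOf_11]

/-- If the lattices attached to `γ` and `γ'` at `z` coincide, then `γ' γ⁻¹ ∈ Γ₀(N)`. -/
theorem mem_Gamma0_of_lattice_eq (N : ℕ) [NeZero N] (γ γ' : SL(2, ℤ)) (z : ℍ)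
    (h : (LOf N γ z).lattice = (LOf N γ' z).lattice) : γ' * γ⁻¹ ∈ Gamma0 N := by
  have hmem : (LOf N γ' z).ω₂ ∈ (LOf N γ z).lattice := by
    rw [h]; exact (LOf N γ' z).ω₂_mem_lattice
  obtain ⟨m, n, hmn⟩ := PeriodPair.mem_lattice.mp hmem
  rw [LOf_ω₁, LOf_ω₂, LOf_ω₂] at hmn
  have him := congrArg Complex.im hmn
  have hre := congrArg Complex.re hmn
  simp only [Complex.add_im, Complex.mul_im, Complex.intCast_re, Complex.intCast_im,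
    Complex.natCast_re, Complex.natCast_im, coe_im, coe_re, zero_mul, add_zero, mul_zero,
    Complex.add_re, Complex.mul_re, sub_zero] at him hre
  have hz : z.im ≠ 0 := z.im_pos.ne'
  -- coefficient of `z`
  have h1 : (m : ℝ) * (N * (γ 0 0 : ℤ)) + n * (γ 1 0 : ℤ) = (γ' 1 0 : ℤ) := by
    have : ((m : ℝ) * (N * (γ 0 0 : ℤ)) + n * (γ 1 0 : ℤ) - (γ' 1 0 : ℤ)) * z.im = 0 := by
      linear_combination him
    have := (mul_eq_zero.mp this).resolve_right hz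
    linarith
  have h2 : (m : ℝ) * (N * (γ 0 1 : ℤ)) + n * (γ 1 1 : ℤ) = (γ' 1 1 : ℤ) := by
    linear_combination hre - z.re * h1
  have h1' : m * (N * γ 0 0) + n * γ 1 0 = γ' 1 0 := by exact_mod_cast h1
  have h2' : m * (N * γ 0 1) + n * γ 1 1 = γ' 1 1 := by exact_mod_cast h2
  have hdet : γ 0 0 * γ 1 1 - γ 0 1 * γ 1 0 = 1 := by
    have := γ.det_coe
    rw [Matrix.det_fin_two] at this
    exact this
  rw [Gamma0_mem]
  have hentry : (γ' * γ⁻¹) 1 0 = γ' 1 0 * γ 1 1 - γ' 1 1 * γ 1 0 := by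
    rw [Matrix.SpecialLinearGroup.coe_mul, Matrix.SpecialLinearGroup.coe_inv,
      Matrix.adjugate_fin_two, Matrix.mul_apply, Fin.sum_univ_two]
    simp
    ring
  have hval : (γ' * γ⁻¹) 1 0 = m * N := by
    rw [hentry, ← h1', ← h2']
    linear_combination (m * N : ℤ) * hdet
  rw [hval]
  simp


/-- `Γ₀(N)` is contained in the conjugate `diag(N,1)⁻¹ SL(2,ℤ) diag(N,1)`. -/
theorem G0_le_conj (N : ℕ) [NeZero N] : G0 N ≤ ConjAct.toConjAct (dN N)⁻¹ • 𝒮ℒ := by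
  rintro _ ⟨γ, hγ, rfl⟩
  rw [Subgroup.mem_pointwise_smul_iff_inv_smul_mem, ← ConjAct.toConjAct_inv, inv_inv,
    ConjAct.smul_def, ConjAct.ofConjAct_toConjAct]
  have hγ' : γ ∈ Gamma0 N := hγ
  have hdvd : (N : ℤ) ∣ γ 1 0 := by
    rw [Gamma0_mem] at hγ'
    exact (ZMod.intCast_zmod_eq_zero_iff_dvd _ _).mp hγ'
  obtain ⟨c', hc'⟩ := hdvd
  have hdet : γ 0 0 * γ 1 1 - γ 0 1 * γ 1 0 = 1 := by
    have := γ.det_coe
    rw [Matrix.det_fin_two] at this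
    exact this
  obtain ⟨γ', e00, e01, e10, e11⟩ : ∃ γ' : SL(2, ℤ), γ' 0 0 = γ 0 0 ∧ γ' 0 1 = N * γ 0 1 ∧
      γ' 1 0 = c' ∧ γ' 1 1 = γ 1 1 := by
    refine ⟨⟨!![γ 0 0, N * γ 0 1; c', γ 1 1], ?_⟩, rfl, rfl, rfl, rfl⟩
    rw [Matrix.det_fin_two]
    simp only [Matrix.of_apply, Matrix.cons_val', Matrix.cons_val_zero, Matrix.cons_val_fin_one,
      Matrix.cons_val_one]
    rw [hc'] at hdet
    linear_combination hdet
  refine ⟨γ', ?_⟩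
  rw [eq_mul_inv_iff_mul_eq]
  apply Matrix.GeneralLinearGroup.ext
  intro i j
  have hc'' : ((γ 1 0 : ℤ) : ℝ) = N * c' := by rw [hc']; push_cast; ring
  fin_cases i <;> fin_cases j <;>
    simp [dN_coe, Matrix.mul_apply, Fin.sum_univ_two, hc'', e00, e01, e10, e11] <;> ring

/-- `E_k ∣[k] diag(N,1)` (a constant multiple of `z ↦ E_k(N z)`) as a modular form on `Γ₀(N)`. -/
noncomputable def EN (N : ℕ) [NeZero N] (k : ℕ) (hk : 3 ≤ k) : ModularForm (G0 N) k where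
  toFun := (E hk : ℍ → ℂ) ∣[(k : ℤ)] dN N
  slash_action_eq' A hA :=
    (ModularForm.translate (E hk) (dN N)).slash_action_eq' A (G0_le_conj N hA)
  holo' := (ModularForm.translate (E hk) (dN N)).holo'
  bdd_at_cusps' hc := (ModularForm.translate (E hk) (dN N)).bdd_at_cusps' (hc.mono (G0_le_conj N))

theorem EN_coe (N : ℕ) [NeZero N] (k : ℕ) (hk : 3 ≤ k) :
    (EN N k hk : ℍ → ℂ) = (E hk : ℍ → ℂ) ∣[(k : ℤ)] dN N := rfl

theorem EN_mem (N : ℕ) [NeZero N] (k : ℕ) (hk : 3 ≤ k) : (EN N k hk : ℍ → ℂ) ∈ MF N k :=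
  ⟨EN N k hk, rfl⟩

/-- The components of `EN` are lattice sums. -/
theorem two_zeta_mul_slash_EN (N : ℕ) [NeZero N] (k : ℕ) (hk : 3 ≤ k) (γ : SL(2, ℤ)) (z : ℍ) :
    2 * riemannZeta k * (((EN N k hk : ℍ → ℂ) ∣[(k : ℤ)] γ) z) =
      (N : ℂ) ^ ((k : ℤ) - 1) * (LOf N γ z).G k := by
  have h1 : ((EN N k hk : ℍ → ℂ) ∣[(k : ℤ)] γ) = (E hk : ℍ → ℂ) ∣[(k : ℤ)] (gOf N γ) := by
    rw [EN_coe, gOf, SlashAction.slash_mul]
    rfl
  rw [h1, E_slash_apply k hk (gOf N γ) (gOf_det_pos N γ) z (gOf_ne N γ), gOf_det]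
  rfl

theorem exists_separating (N : ℕ) [NeZero N] (z : ℍ) (x y : X N) (hxy : x ≠ y) :
    ∃ (K : ℤ) (f : ℍ → ℂ), f ∈ MF N K ∧ comp N K f x z ≠ comp N K f y z := by
  by_contra hcon
  push Not at hcon
  have h4 := hcon 4 (EN N 4 (by norm_num)) (EN_mem N 4 (by norm_num))
  have h6 := hcon 6 (EN N 6 (by norm_num)) (EN_mem N 6 (by norm_num))
  set γx : SL(2, ℤ) := (Quotient.out x : SL(2, ℤ))⁻¹ with hγx
  set γy : SL(2, ℤ) := (Quotient.out y : SL(2, ℤ))⁻¹ with hγy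
  have hN : (N : ℂ) ≠ 0 := by exact_mod_cast NeZero.ne N
  have e4 : (LOf N γx z).G 4 = (LOf N γy z).G 4 := by
    have a := two_zeta_mul_slash_EN N 4 (by norm_num) γx z
    have b := two_zeta_mul_slash_EN N 4 (by norm_num) γy z
    have hc : ((EN N 4 (by norm_num) : ℍ → ℂ) ∣[((4 : ℕ) : ℤ)] γx) z =
        ((EN N 4 (by norm_num) : ℍ → ℂ) ∣[((4 : ℕ) : ℤ)] γy) z := h4
    rw [hc, b] at a
    exact (mul_left_cancel₀ (zpow_ne_zero _ hN) a).symm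
  have e6 : (LOf N γx z).G 6 = (LOf N γy z).G 6 := by
    have a := two_zeta_mul_slash_EN N 6 (by norm_num) γx z
    have b := two_zeta_mul_slash_EN N 6 (by norm_num) γy z
    have hc : ((EN N 6 (by norm_num) : ℍ → ℂ) ∣[((6 : ℕ) : ℤ)] γx) z =
        ((EN N 6 (by norm_num) : ℍ → ℂ) ∣[((6 : ℕ) : ℤ)] γy) z := h6
    rw [hc, b] at a
    exact (mul_left_cancel₀ (zpow_ne_zero _ hN) a).symm
  have hlat := lattice_eq_of_G_eq _ _ e4 e6
  have hmem := mem_Gamma0_of_lattice_eq N γx γy z hlat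
  apply hxy
  rw [← QuotientGroup.out_eq' x, ← QuotientGroup.out_eq' y, eq_comm, QuotientGroup.eq]
  simpa [hγx, hγy] using hmem

end Fermat.Agent.S20
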