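import Fermat.Agent.S20.Defs
import Fermat.Agent.S20.Level1
import Fermat.Agent.S20.Forms
import Fermat.Agent.S20.GradedBasis
import Fermat.Agent.S20.Separation

/-!
# S20 — module D (`Eval`, owner: helper72)

The evaluation matrix of a homogeneous basis (of `MF N` or `SF N` over level-one forms) at any
point `z` is invertible; in particular the basis has exactly `|X N|` elements.
-/

set_option autoImplicit false

namespace Fermat.Agent.S20

open UpperHalfPlane ModularForm MatrixGroups CongruenceSubgroup Matrix.SpecialLinearGroup Filter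
open scoped Topology Manifold

variable {N : ℕ} [NeZero N]

/-! ### A finite Stone–Weierstrass lemma -/

/-- A submodule of `Y → ℂ` (`Y` finite) containing `1`, closed under products and separating
points is everything. -/
lemma h72_sw {Y : Type*} [Fintype Y] [DecidableEq Y] (S : Submodule ℂ (Y → ℂ))
    (h1 : (1 : Y → ℂ) ∈ S) (hmul : ∀ u ∈ S, ∀ w ∈ S, u * w ∈ S)
    (hsep : ∀ x y : Y, x ≠ y → ∃ u ∈ S, u x ≠ u y) : S = ⊤ := by
  have hind : ∀ x : Y, Pi.single x (1 : ℂ) ∈ S := by
    intro x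
    have hy : ∀ y : Y, ∃ h ∈ S, h x = 1 ∧ (y ≠ x → h y = 0) := by
      intro y
      by_cases hyx : y = x
      · exact ⟨1, h1, rfl, fun h => absurd hyx h⟩
      · obtain ⟨u, hu, hne⟩ := hsep x y (Ne.symm hyx)
        have hne' : u x - u y ≠ 0 := sub_ne_zero.mpr hne
        refine ⟨(u x - u y)⁻¹ • (u - u y • (1 : Y → ℂ)),
          S.smul_mem _ (S.sub_mem hu (S.smul_mem _ h1)), ?_, ?_⟩
        · simp only [Pi.smul_apply, Pi.sub_apply, Pi.one_apply, smul_eq_mul, mul_one]
          exact inv_mul_cancel₀ hne'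
        · intro _
          simp
    choose h hS hx hy' using hy
    have hprod : (∏ y, h y) ∈ S :=
      Finset.prod_induction _ (· ∈ S) (fun a b ha hb => hmul a ha b hb) h1 (fun y _ => hS y)
    have hEq : (∏ y, h y) = Pi.single x (1 : ℂ) := by
      funext w
      rw [Finset.prod_apply]
      by_cases hw : w = x
      · subst hw
        simp [hx]
      · rw [Pi.single_eq_of_ne hw]
        exact Finset.prod_eq_zero (Finset.mem_univ w) (hy' w hw)
    rwa [hEq] at hprod
  rw [eq_top_iff]
  intro u _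
  have hu : u = ∑ x, u x • Pi.single x (1 : ℂ) := by
    funext w
    simp [Finset.sum_apply, Pi.single_apply]
  rw [hu]
  exact S.sum_mem fun x _ => S.smul_mem _ (hind x)

/-! ### Evaluation vectors -/

/-- the vector of values at `z` of the components of `f`. -/
noncomputable def h72_ev (N : ℕ) (K : ℤ) (f : ℍ → ℂ) (z : ℍ) : X N → ℂ :=
  fun x => comp N K f x z

/-- the evaluation map of a homogeneous basis at `z`, as a linear map. -/
noncomputable def h72_L {M : ℤ → Submodule ℂ (ℍ → ℂ)} (b : HomBasis M) (N : ℕ) (z : ℍ) :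
    (b.ι → ℂ) →ₗ[ℂ] (X N → ℂ) where
  toFun c := fun x => ∑ i, c i * comp N (b.k i) (b.v i) x z
  map_add' c d := by
    funext x
    simp only [Pi.add_apply, add_mul, Finset.sum_add_distrib]
  map_smul' a c := by
    funext x
    simp only [Pi.smul_apply, smul_eq_mul, RingHom.id_apply, Finset.mul_sum, mul_assoc]

lemma h72_comp_zero (K : ℤ) (x : X N) : comp N K (0 : ℍ → ℂ) x = 0 := by
  have h := comp_const_smul (N := N) K (0 : ℂ) (0 : ℍ → ℂ) x
  simpa using h

lemma h72_comp_sum {ι : Type*} (s : Finset ι) (K : ℤ) (g : ι → ℍ → ℂ) (x : X N) :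
    comp N K (∑ i ∈ s, g i) x = ∑ i ∈ s, comp N K (g i) x := by
  classical
  induction s using Finset.induction_on with
  | empty => simp [h72_comp_zero]
  | insert a s ha ih => rw [Finset.sum_insert ha, Finset.sum_insert ha, comp_add, ih]

/-- evaluation vectors of elements of `M` are combinations of the columns. -/
lemma h72_ev_mem_range {M : ℤ → Submodule ℂ (ℍ → ℂ)} (b : HomBasis M) (z : ℍ) {K : ℤ}
    {f : ℍ → ℂ} (hf : f ∈ M K) : h72_ev N K f z ∈ LinearMap.range (h72_L b N z) := by
  obtain ⟨a, ⟨ha, hfa⟩, -⟩ := b.exists_unique K f hf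
  refine ⟨fun i => a i z, ?_⟩
  funext x
  show ∑ i, a i z * comp N (b.k i) (b.v i) x z = comp N K f x z
  rw [hfa, h72_comp_sum, Finset.sum_apply]
  refine Finset.sum_congr rfl fun i _ => ?_
  have h1 := comp_mul (N := N) (K - b.k i) (b.k i) (a i) (b.v i) x
  rw [sub_add_cancel] at h1
  rw [h1, comp_R1 (ha i) x]
  rfl

/-- the evaluation vectors of all modular forms span everything. -/
lemma h72_span_ev_eq_top (N : ℕ) [NeZero N] (z : ℍ) :
    Submodule.span ℂ {u : X N → ℂ | ∃ (K : ℤ) (f : ℍ → ℂ), f ∈ MF N K ∧ u = h72_ev N K f z} =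
      ⊤ := by
  classical
  apply h72_sw
  · apply Submodule.subset_span
    refine ⟨0, 1, R1_le_MF N 0 one_mem_R1, ?_⟩
    funext x
    show (1 : X N → ℂ) x = comp N 0 1 x z
    rw [comp_R1 one_mem_R1 x]
    rfl
  · intro u hu w hw
    induction hu using Submodule.span_induction with
    | mem u hu =>
      induction hw using Submodule.span_induction with
      | mem w hw =>
        obtain ⟨K, f, hf, rfl⟩ := hu
        obtain ⟨K', g, hg, rfl⟩ := hw
        apply Submodule.subset_span
        refine ⟨K + K', f * g, MF_mul hf hg, ?_⟩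
        funext x
        show comp N K f x z * comp N K' g x z = comp N (K + K') (f * g) x z
        rw [comp_mul]
        rfl
      | zero => simp
      | add w1 w2 _ _ h1 h2 => rw [mul_add]; exact Submodule.add_mem _ h1 h2
      | smul c w _ h => rw [mul_smul_comm]; exact Submodule.smul_mem _ c h
    | zero => simp
    | add u1 u2 _ _ h1 h2 => rw [add_mul]; exact Submodule.add_mem _ h1 h2
    | smul c u _ h => rw [smul_mul_assoc]; exact Submodule.smul_mem _ c h
  · intro x y hxy
    obtain ⟨K, f, hf, hne⟩ := exists_separating N z x y hxy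
    exact ⟨h72_ev N K f z, Submodule.subset_span ⟨K, f, hf, rfl⟩, hne⟩

/-! ### The counting argument -/

lemma h72_card_le {ι : Type} [Fintype ι] (k : ι → ℤ) (hk0 : ∀ i, 0 ≤ k i)
    (hkev : ∀ i, Even (k i)) (F : ℤ → ℕ) (μ : ℕ)
    (hF : ∀ K : ℤ, F K = ∑ i, Module.finrank ℂ (R1 (K - k i)))
    (hle : ∀ K : ℕ, F K ≤ K * μ / 12 + 1) : Fintype.card ι ≤ μ := by
  by_contra hlt
  push Not at hlt
  obtain ⟨B, hB⟩ : ∃ B : ℕ, ∀ i, k i ≤ 12 * (B : ℤ) := by
    refine ⟨∑ i, (k i).toNat, fun i => ?_⟩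
    have h1 : (k i).toNat ≤ ∑ j, (k j).toNat :=
      Finset.single_le_sum (f := fun j => (k j).toNat) (fun j _ => Nat.zero_le _)
        (Finset.mem_univ i)
    have h2 : ((k i).toNat : ℤ) = k i := Int.toNat_of_nonneg (hk0 i)
    have h3 : ((k i).toNat : ℤ) ≤ ((∑ j, (k j).toNat : ℕ) : ℤ) := by exact_mod_cast h1
    have h4 : (0 : ℤ) ≤ ((∑ j, (k j).toNat : ℕ) : ℤ) := Int.natCast_nonneg _
    linarith
  obtain ⟨m, hm⟩ : ∃ m : ℕ, m = 2 + B + μ * B := ⟨_, rfl⟩
  have hterm : ∀ i, m - B ≤ Module.finrank ℂ (R1 (((12 * m : ℕ) : ℤ) - k i)) := by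
    intro i
    have hBi := hB i
    have hki := hk0 i
    obtain ⟨n, hn⟩ : ∃ n : ℕ, (n : ℤ) = ((12 * m : ℕ) : ℤ) - k i :=
      ⟨(((12 * m : ℕ) : ℤ) - k i).toNat, Int.toNat_of_nonneg (by push_cast; omega)⟩
    have hnev : Even n := by
      have h5 : Even (((12 * m : ℕ) : ℤ)) := (Int.even_coe_nat _).mpr ⟨6 * m, by ring⟩
      rw [← Int.even_coe_nat, hn, Int.even_sub]
      exact iff_of_true h5 (hkev i)
    rw [← hn, finrank_R1 n hnev]
    have hn12 : 12 * (m - B) ≤ n := by
      have h6 : ((12 * (m - B) : ℕ) : ℤ) ≤ (n : ℤ) := by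
        rw [hn]; push_cast; omega
      exact_mod_cast h6
    split_ifs <;> omega
  have h1 : Fintype.card ι * (m - B) ≤ F ((12 * m : ℕ) : ℤ) := by
    rw [hF]
    calc Fintype.card ι * (m - B) = ∑ _i : ι, (m - B) := by simp
      _ ≤ _ := Finset.sum_le_sum fun i _ => hterm i
  have h2 := hle (12 * m)
  have h3 : 12 * m * μ / 12 = m * μ := by
    rw [mul_assoc, Nat.mul_div_cancel_left _ (by norm_num)]
  rw [h3] at h2
  have h4 : (μ + 1) * (m - B) ≤ m * μ + 1 :=
    le_trans (Nat.mul_le_mul_right _ hlt) (le_trans h1 h2)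
  have h5 : m - B = 2 + μ * B := by omega
  rw [h5, hm] at h4
  nlinarith

/-! ### Main statement, uniformly for `MF` and `SF` -/

lemma h72_main {M : ℤ → Submodule ℂ (ℍ → ℂ)} (b : HomBasis M)
    (hM_le : ∀ K, M K ≤ MF N K)
    (hmul : ∀ (m K : ℤ) (a f : ℍ → ℂ), a ∈ R1 m → f ∈ M K → a * f ∈ M (m + K))
    (hgen : ∀ (z : ℍ) (K : ℤ) (f : ℍ → ℂ), f ∈ MF N K →
      h72_ev N K f z ∈ LinearMap.range (h72_L b N z)) :
    Fintype.card b.ι = Nat.card (X N) ∧ ∀ z, Function.Bijective (h72_L b N z) := by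
  have hsurj : ∀ z, Function.Surjective (h72_L b N z) := by
    intro z
    rw [← LinearMap.range_eq_top, eq_top_iff, ← h72_span_ev_eq_top N z, Submodule.span_le]
    rintro u ⟨K, f, hf, rfl⟩
    exact hgen z K f hf
  have hcardX : Nat.card (X N) = Fintype.card (X N) := Nat.card_eq_fintype_card
  have hge : Nat.card (X N) ≤ Fintype.card b.ι := by
    have h1 := LinearMap.finrank_le_finrank_of_surjective (hsurj UpperHalfPlane.I)
    rw [Module.finrank_fintype_fun_eq_card, Module.finrank_fintype_fun_eq_card] at h1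
    rw [hcardX]
    exact h1
  have hk : ∀ i, 0 ≤ b.k i ∧ Even (b.k i) := by
    intro i
    have hv : b.v i ∈ MF N (b.k i) := hM_le _ (b.mem i)
    have hne : b.v i ≠ 0 := b.v_ne_zero i
    refine ⟨?_, ?_⟩
    · by_contra hneg
      push Not at hneg
      rw [MF_neg hneg, Submodule.mem_bot] at hv
      exact hne hv
    · by_contra hodd
      rw [Int.not_even_iff_odd] at hodd
      rw [MF_odd hodd, Submodule.mem_bot] at hv
      exact hne hv
  have hle : Fintype.card b.ι ≤ Nat.card (X N) := by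
    refine h72_card_le b.k (fun i => (hk i).1) (fun i => (hk i).2)
      (fun K => Module.finrank ℂ (M K)) (Nat.card (X N)) (fun K => b.finrank_eq hmul K) ?_
    intro K
    have := finiteDimensional_MF N (K : ℤ)
    exact le_trans
      (LinearMap.finrank_le_finrank_of_injective (Submodule.inclusion_injective (hM_le K)))
      (finrank_MF_le N K)
  have hcard : Fintype.card b.ι = Nat.card (X N) := le_antisymm hle hge
  refine ⟨hcard, fun z => ⟨?_, hsurj z⟩⟩
  refine (LinearMap.injective_iff_surjective_of_finrank_eq_finrank ?_).mpr (hsurj z)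
  rw [Module.finrank_fintype_fun_eq_card, Module.finrank_fintype_fun_eq_card, hcard, hcardX]

lemma h72_main_MF (b : HomBasis (MF N)) :
    Fintype.card b.ι = Nat.card (X N) ∧ ∀ z, Function.Bijective (h72_L b N z) :=
  h72_main b (fun _ => le_rfl) (fun m _ _ _ ha hf => MF_mul (R1_le_MF N m ha) hf)
    (fun z _ _ hf => h72_ev_mem_range b z hf)

lemma h72_main_SF (b : HomBasis (SF N)) :
    Fintype.card b.ι = Nat.card (X N) ∧ ∀ z, Function.Bijective (h72_L b N z) := by
  refine h72_main b (fun K => SF_le_MF N K) ?_ ?_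
  · intro m K a f ha hf
    have h1 := SF_mul_MF hf (R1_le_MF N m ha)
    rwa [mul_comm, add_comm] at h1
  · intro z K f hf
    have h1 : Df * f ∈ SF N (12 + K) := SF_mul_MF (N := N) (Df_mem_SF (N := N)) hf
    have h2 := h72_ev_mem_range (N := N) b z h1
    have h3 : h72_ev N (12 + K) (Df * f) z = Df z • h72_ev N K f z := by
      funext x
      show comp N (12 + K) (Df * f) x z = Df z • comp N K f x z
      rw [comp_mul, comp_R1 Df_mem x]
      rfl
    have h4 : h72_ev N K f z = (Df z)⁻¹ • h72_ev N (12 + K) (Df * f) z := by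
      rw [h3, smul_smul, inv_mul_cancel₀ (Df_ne_zero z), one_smul]
    rw [h4]
    exact Submodule.smul_mem _ _ h2

theorem card_homBasis_MF (b : HomBasis (MF N)) : Fintype.card b.ι = Nat.card (X N) :=
  (h72_main_MF b).1

theorem card_homBasis_SF (b : HomBasis (SF N)) : Fintype.card b.ι = Nat.card (X N) :=
  (h72_main_SF b).1

theorem eval_bijective_MF (b : HomBasis (MF N)) (z : ℍ) :
    Function.Bijective (fun (c : b.ι → ℂ) (x : X N) => ∑ i, c i * comp N (b.k i) (b.v i) x z) :=
  (h72_main_MF b).2 z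

theorem eval_bijective_SF (b : HomBasis (SF N)) (z : ℍ) :
    Function.Bijective (fun (c : b.ι → ℂ) (x : X N) => ∑ i, c i * comp N (b.k i) (b.v i) x z) :=
  (h72_main_SF b).2 z

end Fermat.Agent.S20
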