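import Fermat.Agent.S20.Defs
import Fermat.Agent.S20.Level1
import Fermat.Agent.S20.Forms
import Fermat.Agent.S20.GradedBasis
import Fermat.Agent.S20.Separation
import Fermat.Agent.S20.Eval
import Fermat.Agent.S20.CuspData
import Fermat.Agent.S20.Cusps

/-!
# S20, module G (duality): weights of homogeneous bases of `MF` and `SF` pair up to `12`

(helper87.)  Three parts:

* (G3) `weight_matching_of_gram`: a square matrix `G i j ∈ R1 (k i + k' j - 12)` of level-one
  forms, invertible at every point of `ℍ` and with invertible matrix of values at `∞`, forces a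
  bijection `e` with `k' (e i) = 12 - k i` (`det G` is a level-one form without zeros and with
  nonzero value at `∞`, hence of weight `0`; then use a nonzero Leibniz term).
* (G1) `cusp_indep_MF`, `cusp_indep_SF`: the cusp matrices of homogeneous bases have trivial kernel
  (homogenise, divide by `Δ`, uniqueness of coordinates, limit at `∞`).
* (G2) `exists_weight_matching`: the Gram matrix `G i j = Tr(v i * w j) / Δ`.

Integration: replace the `Skel.*` imports by the real modules (only the stub statements are used).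
-/

set_option autoImplicit false

namespace Fermat.Agent.S20

open UpperHalfPlane ModularForm MatrixGroups CongruenceSubgroup Matrix.SpecialLinearGroup Filter
open scoped Topology Manifold

variable {N : ℕ} [NeZero N]

/-! ### (G3) abstract weight matching -/

/-- products of level-one forms -/
theorem h87_prod_mem_R1 {ι : Type} (s : Finset ι) (f : ι → ℍ → ℂ) (m : ι → ℤ)
    (h : ∀ i ∈ s, f i ∈ R1 (m i)) : (∏ i ∈ s, f i) ∈ R1 (∑ i ∈ s, m i) := by
  classical
  induction s using Finset.induction_on with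
  | empty => simpa using one_mem_R1
  | insert a s ha ih =>
    rw [Finset.prod_insert ha, Finset.sum_insert ha]
    exact R1_mul (h a (Finset.mem_insert_self a s))
      (ih fun i hi => h i (Finset.mem_insert_of_mem hi))

/-- a square complex matrix with trivial kernel has nonzero determinant -/
theorem h87_det_ne_zero_of_inj {ι : Type} [Fintype ι] [DecidableEq ι] (M : Matrix ι ι ℂ)
    (h : ∀ v : ι → ℂ, (∀ i, ∑ j, M i j * v j = 0) → v = 0) : M.det ≠ 0 := by
  intro hdet
  obtain ⟨v, hv, hMv⟩ := Matrix.exists_mulVec_eq_zero_iff.mpr hdet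
  apply hv
  apply h
  intro i
  have := congrFun hMv i
  simpa [Matrix.mulVec, dotProduct] using this

theorem weight_matching_of_gram {ι ι' : Type} [Fintype ι] [Fintype ι'] (k : ι → ℤ) (k' : ι' → ℤ)
    (hcard : Fintype.card ι = Fintype.card ι')
    (G : ι → ι' → ℍ → ℂ) (hG : ∀ i j, G i j ∈ R1 (k i + k' j - 12))
    (hinj : ∀ z (c : ι' → ℂ), (∀ i, ∑ j, G i j z * c j = 0) → c = 0)
    (L : ι → ι' → ℂ) (hL : ∀ i j, Tendsto (G i j) atImInfty (𝓝 (L i j)))
    (hLinj : ∀ c : ι' → ℂ, (∀ i, ∑ j, L i j * c j = 0) → c = 0) :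
    ∃ e : ι ≃ ι', ∀ i, k' (e i) = 12 - k i := by
  classical
  obtain e₀ : ι ≃ ι' := Fintype.equivOfCardEq hcard
  -- the total weight
  set w : ℤ := ∑ i, (k i + k' (e₀ i) - 12) with hw
  -- Leibniz terms
  have hterm : ∀ σ : Equiv.Perm ι, (∏ i, G (σ i) (e₀ i)) ∈ R1 w := by
    intro σ
    have h1 := h87_prod_mem_R1 Finset.univ (fun i => G (σ i) (e₀ i))
      (fun i => k (σ i) + k' (e₀ i) - 12) (fun i _ => hG _ _)
    have h2 : ∑ i, (k (σ i) + k' (e₀ i) - 12) = w := by
      rw [hw]
      simp only [Finset.sum_sub_distrib, Finset.sum_add_distrib]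
      rw [Equiv.sum_comp σ k]
    rwa [h2] at h1
  -- the determinant as a function
  set d : ℍ → ℂ := fun z => (Matrix.of fun i j => G i (e₀ j) z : Matrix ι ι ℂ).det with hd
  have hd_eq : d = ∑ σ : Equiv.Perm ι, ((Equiv.Perm.sign σ : ℤ) : ℂ) • ∏ i, G (σ i) (e₀ i) := by
    funext z
    simp only [hd, Matrix.det_apply, Matrix.of_apply, Finset.sum_apply, Pi.smul_apply,
      Finset.prod_apply, smul_eq_mul]
    refine Finset.sum_congr rfl fun σ _ => ?_
    rw [Units.smul_def, zsmul_eq_mul]
  have hd_mem : d ∈ R1 w := by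
    rw [hd_eq]
    exact Submodule.sum_mem _ fun σ _ => Submodule.smul_mem _ _ (hterm σ)
  -- pointwise nonvanishing
  have hd_ne : ∀ z, d z ≠ 0 := by
    intro z
    apply h87_det_ne_zero_of_inj
    intro v hv
    have hc := hinj z (fun j => v (e₀.symm j)) (fun i => by
      rw [← hv i, ← Equiv.sum_comp e₀]
      simp [Matrix.of_apply])
    funext j
    simpa using congrFun hc (e₀ j)
  -- the limit
  have hd_lim : Tendsto d atImInfty
      (𝓝 (Matrix.of fun i j => L i (e₀ j) : Matrix ι ι ℂ).det) := by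
    simp only [hd, Matrix.det_apply]
    refine tendsto_finsetSum _ fun σ _ => ?_
    refine Tendsto.const_smul ?_ _
    refine tendsto_finsetProd _ fun i _ => ?_
    simpa [Matrix.of_apply] using hL (σ i) (e₀ i)
  have hL_ne : (Matrix.of fun i j => L i (e₀ j) : Matrix ι ι ℂ).det ≠ 0 := by
    apply h87_det_ne_zero_of_inj
    intro v hv
    have hc := hLinj (fun j => v (e₀.symm j)) (fun i => by
      rw [← hv i, ← Equiv.sum_comp e₀]
      simp [Matrix.of_apply])
    funext j
    simpa using congrFun hc (e₀ j)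
  have hw0 : w = 0 := R1_weight_eq_zero hd_mem hd_ne hL_ne hd_lim
  -- a nonzero Leibniz term
  have hI := hd_ne UpperHalfPlane.I
  obtain ⟨σ, hσ⟩ : ∃ σ : Equiv.Perm ι, ∏ i, G (σ i) (e₀ i) UpperHalfPlane.I ≠ 0 := by
    by_contra hcon
    push Not at hcon
    apply hI
    simp only [hd, Matrix.det_apply, Matrix.of_apply]
    exact Finset.sum_eq_zero fun σ _ => by rw [hcon σ, smul_zero]
  have hnn : ∀ i, 0 ≤ k (σ i) + k' (e₀ i) - 12 := by
    intro i
    by_contra hneg
    push Not at hneg
    have hbot := R1_neg hneg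
    have hGi := hG (σ i) (e₀ i)
    rw [hbot, Submodule.mem_bot] at hGi
    apply hσ
    apply Finset.prod_eq_zero (Finset.mem_univ i)
    rw [hGi]
    rfl
  have hsum : ∑ i, (k (σ i) + k' (e₀ i) - 12) = 0 := by
    have h2 : ∑ i, (k (σ i) + k' (e₀ i) - 12) = w := by
      rw [hw]
      simp only [Finset.sum_sub_distrib, Finset.sum_add_distrib]
      rw [Equiv.sum_comp σ k]
    rw [h2, hw0]
  have hzero : ∀ i, k (σ i) + k' (e₀ i) - 12 = 0 := by
    intro i
    exact (Finset.sum_eq_zero_iff_of_nonneg (fun i _ => hnn i)).mp hsum i (Finset.mem_univ i)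
  refine ⟨σ.symm.trans e₀, fun i => ?_⟩
  have := hzero (σ.symm i)
  simp only [Equiv.apply_symm_apply] at this
  simp only [Equiv.trans_apply]
  linarith

/-! ### (G1) cusp matrices -/

theorem h87_cc_zero (D : CuspData N) (K : ℤ) (c : D.C) (n : ℕ) : cc D K (0 : ℍ → ℂ) c n = 0 := by
  have h := cc_smul D (Submodule.zero_mem (MF N K)) (0 : ℂ) c n
  simpa using h

theorem h87_cc_sum (D : CuspData N) {K : ℤ} {ι : Type} (s : Finset ι) (g : ι → ℍ → ℂ)
    (hg : ∀ i ∈ s, g i ∈ MF N K) (c : D.C) (n : ℕ) :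
    cc D K (∑ i ∈ s, g i) c n = ∑ i ∈ s, cc D K (g i) c n := by
  classical
  induction s using Finset.induction_on with
  | empty => simpa using h87_cc_zero D K c n
  | insert a s ha ih =>
    rw [Finset.sum_insert ha, Finset.sum_insert ha,
      cc_add D (hg a (Finset.mem_insert_self a s))
        (Submodule.sum_mem _ fun i hi => hg i (Finset.mem_insert_of_mem hi)),
      ih fun i hi => hg i (Finset.mem_insert_of_mem hi)]

/-- weights of a homogeneous basis of `MF` are even and nonnegative -/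
theorem h87_weight_MF (b : HomBasis (MF N)) (i : b.ι) : Even (b.k i) ∧ 0 ≤ b.k i := by
  constructor
  · by_contra hne
    have hodd : Odd (b.k i) := Int.not_even_iff_odd.mp hne
    have hmem := b.mem i
    rw [MF_odd hodd, Submodule.mem_bot] at hmem
    exact b.v_ne_zero i hmem
  · by_contra hneg
    push Not at hneg
    have hmem := b.mem i
    rw [MF_neg hneg, Submodule.mem_bot] at hmem
    exact b.v_ne_zero i hmem

/-- weights of a homogeneous basis of `SF` are even and positive -/
theorem h87_weight_SF (b : HomBasis (SF N)) (i : b.ι) : Even (b.k i) ∧ 0 < b.k i := by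
  constructor
  · by_contra hne
    have hodd : Odd (b.k i) := Int.not_even_iff_odd.mp hne
    have hmem := SF_le_MF N _ (b.mem i)
    rw [MF_odd hodd, Submodule.mem_bot] at hmem
    exact b.v_ne_zero i hmem
  · by_contra hneg
    push Not at hneg
    have hmem := b.mem i
    rw [SF_nonpos hneg, Submodule.mem_bot] at hmem
    exact b.v_ne_zero i hmem

/-- a common even weight dominating all the weights (by at least 4) -/
theorem h87_exists_weight {ι : Type} [Fintype ι] (k : ι → ℤ) (hk : ∀ i, Even (k i) ∧ 0 ≤ k i) :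
    ∃ K : ℤ, ∀ i, Even (K - k i) ∧ 4 ≤ K - k i := by
  classical
  refine ⟨∑ i, k i + 4, fun i => ⟨?_, ?_⟩⟩
  · have h1 : Even (∑ i, k i) := Finset.even_sum _ fun i _ => (hk i).1
    exact ((h1.add (by decide : Even (4 : ℤ))).sub (hk i).1)
  · have h2 : k i ≤ ∑ j, k j :=
      Finset.single_le_sum (f := k) (fun j _ => (hk j).2) (Finset.mem_univ i)
    linarith

/-- key uniqueness step: if `∑ l i • (a i * v i) = Δ * g` with `a i → 1` at `∞` then `l = 0`. -/
theorem h87_coeff_zero {M : ℤ → Submodule ℂ (ℍ → ℂ)} (b : HomBasis M) (K : ℤ) (l : b.ι → ℂ)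
    (a : b.ι → ℍ → ℂ) (ha : ∀ i, a i ∈ R1 (K - b.k i))
    (ha1 : ∀ i, Tendsto (a i) atImInfty (𝓝 1))
    (hfM : (∑ i, l i • (a i * b.v i)) ∈ M K)
    (g : ℍ → ℂ) (hg : g ∈ M (K - 12)) (hfg : (∑ i, l i • (a i * b.v i)) = Df * g) : l = 0 := by
  classical
  obtain ⟨a', ⟨ha', hga'⟩, -⟩ := b.exists_unique (K - 12) g hg
  obtain ⟨u, -, huniq⟩ := b.exists_unique K _ hfM
  have h1 := huniq (fun i => l i • a i) ⟨fun i => Submodule.smul_mem _ _ (ha i), by
    refine Finset.sum_congr rfl fun i _ => ?_
    rw [smul_mul_assoc]⟩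
  have h2 := huniq (fun i => Df * a' i) ⟨fun i => by
    have := R1_mul Df_mem (ha' i)
    have he : (12 : ℤ) + (K - 12 - b.k i) = K - b.k i := by ring
    rwa [he] at this, by
    rw [hfg, hga', Finset.mul_sum]
    refine Finset.sum_congr rfl fun i _ => ?_
    rw [mul_assoc]⟩
  funext i
  have h3 : l i • a i = Df * a' i := by
    have := congrFun (h1.trans h2.symm) i
    exact this
  obtain ⟨c', hc'⟩ := R1_tendsto (ha' i)
  have hlim1 : Tendsto (l i • a i) atImInfty (𝓝 (l i • 1)) := (ha1 i).const_smul (l i)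
  have hlim2 : Tendsto (Df * a' i) atImInfty (𝓝 (0 * c')) := Df_tendsto.mul hc'
  rw [h3] at hlim1
  have := tendsto_nhds_unique hlim1 hlim2
  simpa using this

theorem cusp_indep_MF (D : CuspData N) (b : HomBasis (MF N)) (l : b.ι → ℂ)
    (h : ∀ c, ∀ n < D.h c, ∑ i, l i * cc D (b.k i) (b.v i) c n = 0) : l = 0 := by
  classical
  obtain ⟨K, hK⟩ := h87_exists_weight b.k (h87_weight_MF b)
  choose a ha ha1 using fun i => exists_R1_tendsto_one (hK i).1 (hK i).2
  have hmem : ∀ i, a i * b.v i ∈ MF N K := by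
    intro i
    have := MF_mul (R1_le_MF N _ (ha i)) (b.mem i)
    rwa [sub_add_cancel] at this
  have hfM : (∑ i, l i • (a i * b.v i)) ∈ MF N K :=
    Submodule.sum_mem _ fun i _ => Submodule.smul_mem _ _ (hmem i)
  have hcc : ∀ c, ∀ n < D.h c, cc D K (∑ i, l i • (a i * b.v i)) c n = 0 := by
    intro c n hn
    rw [h87_cc_sum D _ _ (fun i _ => Submodule.smul_mem _ _ (hmem i)), ← h c n hn]
    refine Finset.sum_congr rfl fun i _ => ?_
    rw [cc_smul D (hmem i)]
    have := cc_R1_mul D (ha i) (b.mem i) (ha1 i) c hn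
    rw [sub_add_cancel] at this
    rw [this, one_mul]
  obtain ⟨g, hg, hfg⟩ := MF_div_Df D hfM hcc
  exact h87_coeff_zero b K l a ha ha1 hfM g hg hfg

theorem cusp_indep_SF (D : CuspData N) (b : HomBasis (SF N)) (l : b.ι → ℂ)
    (h : ∀ c, ∀ n < D.h c, ∑ j, l j * cc D (b.k j) (b.v j) c (D.h c - n) = 0) : l = 0 := by
  classical
  obtain ⟨K, hK⟩ := h87_exists_weight b.k
    (fun i => ⟨(h87_weight_SF b i).1, (h87_weight_SF b i).2.le⟩)
  choose a ha ha1 using fun i => exists_R1_tendsto_one (hK i).1 (hK i).2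
  have hmem : ∀ i, a i * b.v i ∈ SF N K := by
    intro i
    have := SF_mul_MF (b.mem i) (R1_le_MF N _ (ha i))
    rw [add_sub_cancel, mul_comm] at this
    exact this
  have hfM : (∑ i, l i • (a i * b.v i)) ∈ SF N K :=
    Submodule.sum_mem _ fun i _ => Submodule.smul_mem _ _ (hmem i)
  have hcc : ∀ c, ∀ n ≤ D.h c, cc D K (∑ i, l i • (a i * b.v i)) c n = 0 := by
    intro c n hn
    have hsum : cc D K (∑ i, l i • (a i * b.v i)) c n
        = ∑ i, l i * cc D (b.k i) (b.v i) c n := by
      rw [h87_cc_sum D _ _ (fun i _ => Submodule.smul_mem _ _ (SF_le_MF N _ (hmem i)))]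
      refine Finset.sum_congr rfl fun i _ => ?_
      rw [cc_smul D (SF_le_MF N _ (hmem i))]
      have := cc_R1_mul_SF D (ha i) (b.mem i) (ha1 i) c hn
      rw [sub_add_cancel] at this
      rw [this, one_mul]
    rw [hsum]
    rcases Nat.eq_zero_or_pos n with h0 | hpos
    · subst h0
      refine Finset.sum_eq_zero fun i _ => ?_
      rw [(mem_SF_iff D (SF_le_MF N _ (b.mem i))).mp (b.mem i) c, mul_zero]
    · have := h c (D.h c - n) (by have := D.h_pos c; omega)
      rwa [Nat.sub_sub_self hn] at this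
  obtain ⟨g, hg, hfg⟩ := SF_div_Df D hfM hcc
  exact h87_coeff_zero b K l a ha ha1 hfM g hg hfg

/-! ### (G2) assembly -/

/-- a square matrix with independent columns has independent rows -/
theorem h87_dual_inj {P ι : Type} [Fintype P] [Fintype ι] (hcard : Fintype.card ι = Fintype.card P)
    (A : P → ι → ℂ) (hA : ∀ l : ι → ℂ, (∀ p, ∑ i, l i * A p i = 0) → l = 0) (u : P → ℂ)
    (hu : ∀ i, ∑ p, A p i * u p = 0) : u = 0 := by
  classical
  let T : (ι → ℂ) →ₗ[ℂ] (P → ℂ) :=
    { toFun := fun l p => ∑ i, l i * A p i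
      map_add' := fun l l' => by
        funext p
        simp [add_mul, Finset.sum_add_distrib]
      map_smul' := fun a l => by
        funext p
        simp [Finset.mul_sum, mul_assoc] }
  have hTinj : Function.Injective T := by
    rw [← LinearMap.ker_eq_bot, LinearMap.ker_eq_bot']
    intro l hl
    exact hA l fun p => congrFun hl p
  have hTsurj : Function.Surjective T :=
    (LinearMap.injective_iff_surjective_of_finrank_eq_finrank (by simp [hcard])).mp hTinj
  funext p
  obtain ⟨l, hl⟩ := hTsurj (Pi.single p 1)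
  have h0 : ∑ q, (Pi.single p 1 : P → ℂ) q * u q = 0 := by
    rw [← hl]
    show ∑ q, (∑ i, l i * A q i) * u q = 0
    simp_rw [Finset.sum_mul]
    rw [Finset.sum_comm]
    refine Finset.sum_eq_zero fun i _ => ?_
    have := hu i
    simp_rw [mul_assoc]
    rw [← Finset.mul_sum, this, mul_zero]
  simpa [Pi.single_apply] using h0

theorem exists_weight_matching (bM : HomBasis (MF N)) (bS : HomBasis (SF N)) :
    ∃ e : bM.ι ≃ bS.ι, ∀ i, bS.k (e i) = 12 - bM.k i := by
  classical
  obtain ⟨D, -⟩ := exists_cuspData N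
  have hcardM : Fintype.card bM.ι = Fintype.card (X N) := by
    rw [card_homBasis_MF bM, Nat.card_eq_fintype_card]
  have hcardS : Fintype.card bS.ι = Fintype.card (X N) := by
    rw [card_homBasis_SF bS, Nat.card_eq_fintype_card]
  have hcardP : Fintype.card (Σ c, Fin (D.h c)) = Fintype.card (X N) :=
    Fintype.card_of_bijective D.bij
  choose G hG hGeq using fun (i : bM.ι) (j : bS.ι) => trace_mem (bM.mem i) (bS.mem j)
  -- pointwise invertibility
  have hinj : ∀ z (c : bS.ι → ℂ), (∀ i, ∑ j, G i j z * c j = 0) → c = 0 := by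
    intro z c hc
    set u : X N → ℂ := fun x => ∑ j, c j * comp N (bS.k j) (bS.v j) x z with hu_def
    have hu : ∀ i, ∑ x, comp N (bM.k i) (bM.v i) x z * u x = 0 := by
      intro i
      have h1 : ∑ x, comp N (bM.k i) (bM.v i) x z * u x
          = ∑ j, c j * (Df z * G i j z) := by
        simp only [hu_def, Finset.mul_sum]
        rw [Finset.sum_comm]
        refine Finset.sum_congr rfl fun j _ => ?_
        rw [← hGeq i j z, Finset.mul_sum]
        refine Finset.sum_congr rfl fun x _ => by ring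
      rw [h1]
      have h2 : ∑ j, c j * (Df z * G i j z) = Df z * ∑ j, G i j z * c j := by
        rw [Finset.mul_sum]
        refine Finset.sum_congr rfl fun j _ => by ring
      rw [h2, hc i, mul_zero]
    have hu0 : u = 0 := h87_dual_inj hcardM (fun x i => comp N (bM.k i) (bM.v i) x z)
      (fun l hl => (eval_bijective_MF bM z).1 (by
        funext x
        simpa using hl x)) u hu
    exact (eval_bijective_SF bS z).1 (by
      funext x
      simpa [hu_def] using congrFun hu0 x)
  -- the matrix of values at infinity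
  set L : bM.ι → bS.ι → ℂ := fun i j => ∑ c, (D.h c : ℂ) * ∑ n ∈ Finset.range (D.h c),
    cc D (bM.k i) (bM.v i) c n * cc D (bS.k j) (bS.v j) c (D.h c - n) with hL_def
  have hL : ∀ i j, Tendsto (G i j) atImInfty (𝓝 (L i j)) := by
    intro i j
    refine (trace_tendsto D (bM.mem i) (bS.mem j)).congr fun z => ?_
    rw [hGeq i j z, mul_div_cancel_left₀ _ (Df_ne_zero z)]
  have hLinj : ∀ c : bS.ι → ℂ, (∀ i, ∑ j, L i j * c j = 0) → c = 0 := by
    intro c hc
    set u : (Σ cu, Fin (D.h cu)) → ℂ := fun p =>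
      (D.h p.1 : ℂ) * ∑ j, c j * cc D (bS.k j) (bS.v j) p.1 (D.h p.1 - (p.2 : ℕ)) with hu_def
    have hu : ∀ i, ∑ p : (Σ cu, Fin (D.h cu)), cc D (bM.k i) (bM.v i) p.1 (p.2 : ℕ) * u p = 0 := by
      intro i
      rw [← hc i, Fintype.sum_sigma]
      simp only [hu_def, hL_def]
      have hfin : ∀ cu : D.C, ∑ n : Fin (D.h cu), cc D (bM.k i) (bM.v i) cu (n : ℕ) *
          ((D.h cu : ℂ) * ∑ j, c j * cc D (bS.k j) (bS.v j) cu (D.h cu - (n : ℕ)))
          = ∑ n ∈ Finset.range (D.h cu), cc D (bM.k i) (bM.v i) cu n *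
          ((D.h cu : ℂ) * ∑ j, c j * cc D (bS.k j) (bS.v j) cu (D.h cu - n)) := fun cu =>
        Fin.sum_univ_eq_sum_range (fun n => cc D (bM.k i) (bM.v i) cu n *
          ((D.h cu : ℂ) * ∑ j, c j * cc D (bS.k j) (bS.v j) cu (D.h cu - n))) (D.h cu)
      simp only [hfin]
      simp only [Finset.mul_sum, Finset.sum_mul]
      rw [Finset.sum_comm (s := (Finset.univ : Finset bS.ι))]
      refine Finset.sum_congr rfl fun cu _ => ?_
      rw [Finset.sum_comm]
      refine Finset.sum_congr rfl fun j _ => Finset.sum_congr rfl fun n _ => by ring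
    have hu0 : u = 0 := h87_dual_inj (hcardM.trans hcardP.symm)
      (fun p i => cc D (bM.k i) (bM.v i) p.1 (p.2 : ℕ))
      (fun l hl => cusp_indep_MF D bM l fun cu n hn => hl ⟨cu, ⟨n, hn⟩⟩) u hu
    refine cusp_indep_SF D bS c fun cu n hn => ?_
    have h1 := congrFun hu0 ⟨cu, ⟨n, hn⟩⟩
    simp only [hu_def, Pi.zero_apply] at h1
    have hne : (D.h cu : ℂ) ≠ 0 := Nat.cast_ne_zero.mpr (D.h_pos cu).ne'
    exact (mul_eq_zero.mp h1).resolve_left hne
  exact weight_matching_of_gram bM.k bS.k (hcardM.trans hcardS.symm) G hG hinj L hL hLinj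

end Fermat.Agent.S20
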