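import Fermat.Agent.S20.Defs
import Fermat.Agent.S20.Level1
import Fermat.Agent.S20.Forms
import Fermat.Agent.S20.GradedBasis
import Fermat.Agent.S20.Separation
import Fermat.Agent.S20.Eval
import Fermat.Agent.S20.CuspData
import Fermat.Agent.S20.Cusps
import Fermat.Agent.S20.Duality

/-!
# S20, module H3 (constant terms): `dim M_K(Γ₀(N)) = dim S_K(Γ₀(N)) + #cusps` for even `K ≥ 14`

(helper87, backup seat.)  The constant-term map `MF N K → (D.C → ℂ)` has kernel `SF N K`
(`mem_SF_iff`) and is onto for even `K ≥ 14`: the cusp matrix of a homogeneous basis of `MF N` is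
square with trivial kernel, hence onto; the weights of the basis are `≤ 10` by
`exists_weight_matching`, so the basis can be homogenised to weight `K`.

Self-contained: uses only the stub statements (all auxiliary names are prefixed `h87c_`).
Integration: replace the `Skel.*` imports by the real modules.
-/

set_option autoImplicit false

namespace Fermat.Agent.S20

open UpperHalfPlane ModularForm MatrixGroups CongruenceSubgroup Matrix.SpecialLinearGroup Filter
open scoped Topology Manifold

variable {N : ℕ} [NeZero N]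

theorem h87c_cc_zero (D : CuspData N) (K : ℤ) (c : D.C) (n : ℕ) :
    cc D K (0 : ℍ → ℂ) c n = 0 := by
  have h := cc_smul D (Submodule.zero_mem (MF N K)) (0 : ℂ) c n
  simpa using h

theorem h87c_cc_sum (D : CuspData N) {K : ℤ} {ι : Type} (s : Finset ι) (g : ι → ℍ → ℂ)
    (hg : ∀ i ∈ s, g i ∈ MF N K) (c : D.C) (n : ℕ) :
    cc D K (∑ i ∈ s, g i) c n = ∑ i ∈ s, cc D K (g i) c n := by
  classical
  induction s using Finset.induction_on with
  | empty => simpa using h87c_cc_zero D K c n
  | insert a s ha ih =>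
    rw [Finset.sum_insert ha, Finset.sum_insert ha,
      cc_add D (hg a (Finset.mem_insert_self a s))
        (Submodule.sum_mem _ fun i hi => hg i (Finset.mem_insert_of_mem hi)),
      ih fun i hi => hg i (Finset.mem_insert_of_mem hi)]

/-- weights of a homogeneous basis of `MF` are even and nonnegative -/
theorem h87c_weight_MF (b : HomBasis (MF N)) (i : b.ι) : Even (b.k i) ∧ 0 ≤ b.k i := by
  constructor
  · by_contra hne
    have hodd : Odd (b.k i) := Int.not_even_iff_odd.mp hne
    have hmem := b.mem i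
    rw [MF_odd hodd, Submodule.mem_bot] at hmem
    exact b.v_ne_zero i hmem
  · by_contra hneg
    push Not at hneg
    have hmem := b.mem i
    rw [MF_neg hneg, Submodule.mem_bot] at hmem
    exact b.v_ne_zero i hmem

/-- weights of a homogeneous basis of `SF` are positive -/
theorem h87c_weight_SF_pos (b : HomBasis (SF N)) (i : b.ι) : 0 < b.k i := by
  by_contra hneg
  push Not at hneg
  have hmem := b.mem i
  rw [SF_nonpos hneg, Submodule.mem_bot] at hmem
  exact b.v_ne_zero i hmem

/-- key uniqueness step: if `∑ l i • (a i * v i) = Δ * g` with `a i → 1` at `∞` then `l = 0`. -/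
theorem h87c_coeff_zero {M : ℤ → Submodule ℂ (ℍ → ℂ)} (b : HomBasis M) (K : ℤ) (l : b.ι → ℂ)
    (a : b.ι → ℍ → ℂ) (ha : ∀ i, a i ∈ R1 (K - b.k i))
    (ha1 : ∀ i, Tendsto (a i) atImInfty (𝓝 1))
    (hfM : (∑ i, l i • (a i * b.v i)) ∈ M K)
    (g : ℍ → ℂ) (hg : g ∈ M (K - 12)) (hfg : (∑ i, l i • (a i * b.v i)) = Df * g) : l = 0 := by
  classical
  obtain ⟨a', ⟨ha', hga'⟩, -⟩ := b.exists_unique (K - 12) g hg
  obtain ⟨u, -, huniq⟩ := b.exists_unique K _ hfM
  have h1 := huniq (fun i => l i • a i) ⟨fun i => Submodule.smul_mem _ _ (ha i), by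
    refine Finset.sum_congr rfl fun i _ => ?_
    rw [smul_mul_assoc]⟩
  have h2 := huniq (fun i => Df * a' i) ⟨fun i => by
    have := R1_mul Df_mem (ha' i)
    have he : (12 : ℤ) + (K - 12 - b.k i) = K - b.k i := by ring
    rwa [he] at this, by
    rw [hfg, hga', Finset.mul_sum]
    refine Finset.sum_congr rfl fun i _ => ?_
    rw [mul_assoc]⟩
  funext i
  have h3 : l i • a i = Df * a' i := by
    have := congrFun (h1.trans h2.symm) i
    exact this
  obtain ⟨c', hc'⟩ := R1_tendsto (ha' i)
  have hlim1 : Tendsto (l i • a i) atImInfty (𝓝 (l i • 1)) := (ha1 i).const_smul (l i)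
  have hlim2 : Tendsto (Df * a' i) atImInfty (𝓝 (0 * c')) := Df_tendsto.mul hc'
  rw [h3] at hlim1
  have := tendsto_nhds_unique hlim1 hlim2
  simpa using this

/-- the cusp matrix of a homogeneous basis of `MF` has trivial kernel -/
theorem h87c_cusp_indep (D : CuspData N) (b : HomBasis (MF N)) (l : b.ι → ℂ)
    (h : ∀ c, ∀ n < D.h c, ∑ i, l i * cc D (b.k i) (b.v i) c n = 0) : l = 0 := by
  classical
  have hK : ∀ i, Even ((∑ j, b.k j + 4) - b.k i) ∧ 4 ≤ (∑ j, b.k j + 4) - b.k i := by
    intro i
    constructor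
    · have h1 : Even (∑ j, b.k j) := Finset.even_sum _ fun j _ => (h87c_weight_MF b j).1
      exact ((h1.add (by decide : Even (4 : ℤ))).sub (h87c_weight_MF b i).1)
    · have h2 : b.k i ≤ ∑ j, b.k j :=
        Finset.single_le_sum (f := b.k) (fun j _ => (h87c_weight_MF b j).2) (Finset.mem_univ i)
      linarith
  set K : ℤ := ∑ j, b.k j + 4 with hK_def
  choose a ha ha1 using fun i => exists_R1_tendsto_one (hK i).1 (hK i).2
  have hmem : ∀ i, a i * b.v i ∈ MF N K := by
    intro i
    have := MF_mul (R1_le_MF N _ (ha i)) (b.mem i)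
    rwa [sub_add_cancel] at this
  have hfM : (∑ i, l i • (a i * b.v i)) ∈ MF N K :=
    Submodule.sum_mem _ fun i _ => Submodule.smul_mem _ _ (hmem i)
  have hcc : ∀ c, ∀ n < D.h c, cc D K (∑ i, l i • (a i * b.v i)) c n = 0 := by
    intro c n hn
    rw [h87c_cc_sum D _ _ (fun i _ => Submodule.smul_mem _ _ (hmem i)), ← h c n hn]
    refine Finset.sum_congr rfl fun i _ => ?_
    rw [cc_smul D (hmem i)]
    have := cc_R1_mul D (ha i) (b.mem i) (ha1 i) c hn
    rw [sub_add_cancel] at this
    rw [this, one_mul]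
  obtain ⟨g, hg, hfg⟩ := MF_div_Df D hfM hcc
  exact h87c_coeff_zero b K l a ha ha1 hfM g hg hfg

/-- a square system with trivial kernel is solvable for every right-hand side -/
theorem h87c_surj {P ι : Type} [Fintype P] [Fintype ι] (hcard : Fintype.card ι = Fintype.card P)
    (A : P → ι → ℂ) (hA : ∀ l : ι → ℂ, (∀ p, ∑ i, l i * A p i = 0) → l = 0) (t : P → ℂ) :
    ∃ l : ι → ℂ, ∀ p, ∑ i, l i * A p i = t p := by
  classical
  let T : (ι → ℂ) →ₗ[ℂ] (P → ℂ) :=
    { toFun := fun l p => ∑ i, l i * A p i
      map_add' := fun l l' => by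
        funext p
        simp [add_mul, Finset.sum_add_distrib]
      map_smul' := fun a l => by
        funext p
        simp [Finset.mul_sum, mul_assoc] }
  have hTinj : Function.Injective T := by
    rw [← LinearMap.ker_eq_bot, LinearMap.ker_eq_bot']
    intro l hl
    exact hA l fun p => congrFun hl p
  have hTsurj : Function.Surjective T :=
    (LinearMap.injective_iff_surjective_of_finrank_eq_finrank (by simp [hcard])).mp hTinj
  obtain ⟨l, hl⟩ := hTsurj t
  exact ⟨l, fun p => congrFun hl p⟩

/-- the graded family `MF N` has a finite homogeneous basis. -/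
theorem h87c_exists_homBasis_MF (N : ℕ) [NeZero N] : Nonempty (HomBasis (MF N)) := by
  refine exists_homBasis (MF N) (finiteDimensional_MF N) (fun K hK => MF_neg hK)
    (fun K hK => MF_odd hK) ?_ ?_ ?_ ?_
  · intro m K a f ha hf
    exact MF_mul (R1_le_MF N m ha) hf
  · intro K f hf h
    exact E4f_mul_cancel (MF_mdiff hf).continuous h
  · intro K f g hf hg h
    exact MF_div hf hg h
  · refine ⟨Nat.card (X N), 1, fun K => ?_⟩
    refine (finrank_MF_le N K).trans ?_
    have : K * Nat.card (X N) / 12 ≤ K * Nat.card (X N) := Nat.div_le_self _ _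
    nlinarith [this]

/-- the graded family `SF N` has a finite homogeneous basis. -/
theorem h87c_exists_homBasis_SF (N : ℕ) [NeZero N] : Nonempty (HomBasis (SF N)) := by
  have hfinM := finiteDimensional_MF N
  refine exists_homBasis (SF N) (fun K => ?_) (fun K hK => SF_nonpos hK.le)
    (fun K hK => ?_) ?_ ?_ ?_ ?_
  · have := hfinM K
    exact Submodule.finiteDimensional_of_le (SF_le_MF N K)
  · exact le_bot_iff.mp ((SF_le_MF N K).trans (MF_odd hK).le)
  · intro m K a f ha hf
    have := SF_mul_MF hf (R1_le_MF N m ha)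
    rwa [mul_comm, add_comm] at this
  · intro K f hf h
    exact E4f_mul_cancel (MF_mdiff (SF_le_MF N K hf)).continuous h
  · intro K f g hf hg h
    exact SF_div hf hg h
  · refine ⟨Nat.card (X N), 1, fun K => ?_⟩
    have := hfinM K
    refine (Submodule.finrank_mono (SF_le_MF N K)).trans ((finrank_MF_le N K).trans ?_)
    have : K * Nat.card (X N) / 12 ≤ K * Nat.card (X N) := Nat.div_le_self _ _
    nlinarith [this]

/-- (H3) constant terms: for even `K ≥ 14` the constant-term map `MF N K → (D.C → ℂ)` is onto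
and its kernel is `SF N K`. -/
theorem finrank_MF_eq_finrank_SF_add (D : CuspData N) {K : ℤ} (hK : Even K) (hK14 : 14 ≤ K) :
    Module.finrank ℂ (MF N K) = Module.finrank ℂ (SF N K) + Fintype.card D.C := by
  classical
  obtain ⟨bM⟩ := h87c_exists_homBasis_MF N
  obtain ⟨bS⟩ := h87c_exists_homBasis_SF N
  obtain ⟨e, he⟩ := exists_weight_matching bM bS
  have := finiteDimensional_MF N K
  -- the weights are at most 10
  have hle : ∀ i, Even (K - bM.k i) ∧ 4 ≤ K - bM.k i := by
    intro i
    obtain ⟨hev, h0⟩ := h87c_weight_MF bM i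
    have hpos := h87c_weight_SF_pos bS (e i)
    rw [he i] at hpos
    refine ⟨hK.sub hev, ?_⟩
    obtain ⟨r, hr⟩ := hev
    omega
  choose a ha ha1 using fun i => exists_R1_tendsto_one (hle i).1 (hle i).2
  have hmem : ∀ i, a i * bM.v i ∈ MF N K := by
    intro i
    have := MF_mul (R1_le_MF N _ (ha i)) (bM.mem i)
    rwa [sub_add_cancel] at this
  -- the constant-term map
  let CT : MF N K →ₗ[ℂ] (D.C → ℂ) :=
    { toFun := fun f c => cc D K (f : ℍ → ℂ) c 0
      map_add' := fun f g => by
        funext c
        exact cc_add D f.2 g.2 c 0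
      map_smul' := fun r f => by
        funext c
        simpa using cc_smul D f.2 r c 0 }
  have hker : LinearMap.ker CT = Submodule.comap (MF N K).subtype (SF N K) := by
    ext f
    rw [LinearMap.mem_ker, Submodule.mem_comap, Submodule.subtype_apply, mem_SF_iff D f.2]
    constructor
    · intro h c
      exact congrFun h c
    · intro h
      funext c
      exact h c
  have hcardP : Fintype.card bM.ι = Fintype.card (Σ c, Fin (D.h c)) := by
    rw [card_homBasis_MF bM, Nat.card_eq_fintype_card]
    exact (Fintype.card_of_bijective D.bij).symm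
  have hsurj : Function.Surjective CT := by
    intro t
    obtain ⟨l, hl⟩ := h87c_surj hcardP
      (fun (p : Σ c, Fin (D.h c)) i => cc D (bM.k i) (bM.v i) p.1 (p.2 : ℕ))
      (fun l hl => h87c_cusp_indep D bM l fun c n hn => hl ⟨c, ⟨n, hn⟩⟩)
      (fun p => if (p.2 : ℕ) = 0 then t p.1 else 0)
    have hfM : (∑ i, l i • (a i * bM.v i)) ∈ MF N K :=
      Submodule.sum_mem _ fun i _ => Submodule.smul_mem _ _ (hmem i)
    refine ⟨⟨_, hfM⟩, ?_⟩
    funext c
    show cc D K (∑ i, l i • (a i * bM.v i)) c 0 = t c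
    rw [h87c_cc_sum D _ _ (fun i _ => Submodule.smul_mem _ _ (hmem i))]
    have h1 := hl ⟨c, ⟨0, D.h_pos c⟩⟩
    simp only [if_true] at h1
    rw [← h1]
    refine Finset.sum_congr rfl fun i _ => ?_
    rw [cc_smul D (hmem i)]
    have := cc_R1_mul D (ha i) (bM.mem i) (ha1 i) c (D.h_pos c)
    rw [sub_add_cancel] at this
    rw [this, one_mul]
  have hrk := LinearMap.finrank_range_add_finrank_ker CT
  rw [LinearMap.range_eq_top.mpr hsurj, finrank_top, Module.finrank_fintype_fun_eq_card, hker,
    (Submodule.comapSubtypeEquivOfLe (SF_le_MF N K)).finrank_eq] at hrk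
  omega

end Fermat.Agent.S20
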