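import Fermat.Agent.S20.EllipticCore
import Fermat.Agent.S20.Forms
import Fermat.Agent.S20.GradedBasis
import Fermat.Agent.S20.Eval

/-!
# S20, module H1/H2 : traces at the elliptic points

`weight_even`, `card_fixedBy_S_eq`, `card_fixedBy_ST_eq` (the definition `rho` and all the real
work live in `EllipticCore.lean`).
-/

set_option autoImplicit false

namespace Fermat.Agent.S20

open UpperHalfPlane ModularForm MatrixGroups CongruenceSubgroup Matrix.SpecialLinearGroup Filter
open scoped Topology Manifold

variable {N : ℕ} [NeZero N]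

theorem weight_even (b : HomBasis (MF N)) (i : b.ι) : Even (b.k i) ∧ 0 ≤ b.k i := by
  have hv := b.v_ne_zero i
  have hm := b.mem i
  constructor
  · by_contra h
    rw [Int.not_even_iff_odd] at h
    rw [MF_odd h, Submodule.mem_bot] at hm
    exact hv hm
  · by_contra h
    rw [MF_neg (not_le.mp h), Submodule.mem_bot] at hm
    exact hv hm

theorem card_fixedBy_S_eq (b : HomBasis (MF N)) :
    (Nat.card (MulAction.fixedBy (X N) ModularGroup.S) : ℂ) = ∑ i, (-1 : ℂ) ^ (b.k i / 2) :=
  card_fixedBy_S_eq_of b (fun i x => comp_smul (b.mem i) _ x) (eval_bijective_MF b I)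
    (fun i => (weight_even b i).1)

theorem card_fixedBy_ST_eq (b : HomBasis (MF N)) :
    (Nat.card (MulAction.fixedBy (X N) (ModularGroup.S * ModularGroup.T)) : ℂ) =
      ∑ i, rho ^ (b.k i / 2) :=
  card_fixedBy_ST_eq_of b (fun i x => comp_smul (b.mem i) _ x) (eval_bijective_MF b rhoH)
    (fun i => (weight_even b i).1)

end Fermat.Agent.S20
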