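import Fermat.Agent.S20.Defs
import Fermat.Agent.S20.Level1
import Fermat.Agent.S20.Forms
import Fermat.Agent.S20.GradedBasis
import Fermat.Agent.S20.Separation
import Fermat.Agent.S20.Eval
import Fermat.Agent.S20.CuspData
import Fermat.Agent.S20.Cusps
import Fermat.Agent.S20.Duality
import Fermat.Agent.S20.Elliptic
import Fermat.Agent.S20.ConstTerms
import Fermat.Agent.Lib.Gamma0CuspCount
import Fermat.Agent.Lib.Gamma0Elliptic
import Fermat.Agent.Lib.Gamma0Cosets

/-!
# S20, final assembly: `dim S₂(Γ₀(N)) = genusFormula N`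

Graded duality over `ℂ[E₄, E₆]` (route of report #146): homogeneous bases of `⊕ MF N K` and
`⊕ SF N K`, weight matching `k' = 12 - k`, traces at `i`, `ρ`, and the count of cusps.
-/

set_option autoImplicit false

namespace Fermat.Agent.S20

open UpperHalfPlane ModularForm MatrixGroups CongruenceSubgroup Matrix.SpecialLinearGroup Filter
open scoped Topology Manifold

variable {N : ℕ} [NeZero N]

/-- the graded family `MF N` has a finite homogeneous basis. -/
theorem Final.exists_homBasis_MF (N : ℕ) [NeZero N] : Nonempty (HomBasis (MF N)) := by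
  refine exists_homBasis (MF N) (finiteDimensional_MF N) (fun K hK => MF_neg hK)
    (fun K hK => MF_odd hK) ?_ ?_ ?_ ?_
  · intro m K a f ha hf
    exact MF_mul (R1_le_MF N m ha) hf
  · intro K f hf h
    exact E4f_mul_cancel (MF_mdiff hf).continuous h
  · intro K f g hf hg h
    exact MF_div hf hg h
  · refine ⟨Nat.card (X N), 1, fun K => ?_⟩
    refine (finrank_MF_le N K).trans ?_
    have : K * Nat.card (X N) / 12 ≤ K * Nat.card (X N) := Nat.div_le_self _ _
    nlinarith [this]

theorem Final.mul_mem_SF {m K : ℤ} {a f : ℍ → ℂ} (ha : a ∈ R1 m) (hf : f ∈ SF N K) :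
    a * f ∈ SF N (m + K) := by
  have := SF_mul_MF hf (R1_le_MF N m ha)
  rwa [mul_comm, add_comm] at this

/-- the graded family `SF N` has a finite homogeneous basis. -/
theorem Final.exists_homBasis_SF (N : ℕ) [NeZero N] : Nonempty (HomBasis (SF N)) := by
  have hfinM := finiteDimensional_MF N
  refine exists_homBasis (SF N) (fun K => ?_) (fun K hK => SF_nonpos hK.le)
    (fun K hK => ?_) ?_ ?_ ?_ ?_
  · haveI := hfinM K
    exact Submodule.finiteDimensional_of_le (SF_le_MF N K)
  · exact le_bot_iff.mp ((SF_le_MF N K).trans (MF_odd hK).le)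
  · intro m K a f ha hf
    exact Final.mul_mem_SF ha hf
  · intro K f hf h
    exact E4f_mul_cancel (MF_mdiff (SF_le_MF N K hf)).continuous h
  · intro K f g hf hg h
    exact SF_div hf hg h
  · refine ⟨Nat.card (X N), 1, fun K => ?_⟩
    haveI := hfinM K
    refine (Submodule.finrank_mono (SF_le_MF N K)).trans ((finrank_MF_le N K).trans ?_)
    have : K * Nat.card (X N) / 12 ≤ K * Nat.card (X N) := Nat.div_le_self _ _
    nlinarith [this]

end Fermat.Agent.S20

namespace Fermat.Agent.S20

open UpperHalfPlane ModularForm MatrixGroups CongruenceSubgroup Matrix.SpecialLinearGroup Filter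
open scoped Topology Manifold

variable {N : ℕ} [NeZero N]

theorem Final.sum_by_weight {ι : Type} [Fintype ι] (k : ι → ℤ) (S : Finset ℤ)
    (hk : ∀ i, k i ∈ S) {A : Type} [AddCommMonoid A] (F : ℤ → A) :
    ∑ i, F (k i) = ∑ j ∈ S, (Finset.univ.filter (fun i => k i = j)).card • F j := by
  classical
  rw [← Finset.sum_fiberwise_of_maps_to (g := k) (t := S) (fun i _ => hk i)]
  refine Finset.sum_congr rfl fun j _ => ?_
  rw [Finset.sum_congr rfl (fun i hi => by rw [(Finset.mem_filter.mp hi).2] : ∀ i ∈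
    Finset.univ.filter (fun i => k i = j), F (k i) = F j), Finset.sum_const]

theorem Final.rho_sq : rho ^ 2 = -1 / 2 - (Real.sqrt 3 / 2) * Complex.I := by
  have h3 : (Real.sqrt 3 : ℂ) ^ 2 = 3 := by
    rw [← Complex.ofReal_pow, Real.sq_sqrt (by norm_num : (0:ℝ) ≤ 3)]; norm_num
  unfold rho
  linear_combination ((Real.sqrt 3 : ℂ) ^ 2 / 4) * Complex.I_sq - (1 / 4 : ℂ) * h3

theorem Final.rho_cube : rho ^ 3 = 1 := by
  have h3 : (Real.sqrt 3 : ℂ) ^ 2 = 3 := by
    rw [← Complex.ofReal_pow, Real.sq_sqrt (by norm_num : (0:ℝ) ≤ 3)]; norm_num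
  rw [pow_succ, Final.rho_sq]
  unfold rho
  linear_combination (-((Real.sqrt 3 : ℂ) ^ 2) / 4) * Complex.I_sq + (1 / 4 : ℂ) * h3

theorem Final.rho_re : rho.re = -1 / 2 := by
  simp [rho]

theorem Final.rho_sq_re : (rho ^ 2).re = -1 / 2 := by
  rw [Final.rho_sq]; simp

/-- the level-one Hilbert function. -/
noncomputable def Final.hilb (k : ℤ) : ℕ := Module.finrank ℂ (R1 k)

/-- values of the level-one Hilbert function that are needed. -/
theorem Final.hilb_vals :
    (∀ k : ℤ, k < 0 → Final.hilb k = 0) ∧ Final.hilb 0 = 1 ∧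
    Final.hilb 12 = 2 ∧ Final.hilb 14 = 1 ∧ Final.hilb 16 = 2 ∧ Final.hilb 18 = 2 ∧
    Final.hilb 20 = 2 ∧ Final.hilb 22 = 2 ∧ Final.hilb 24 = 3 := by
  unfold Final.hilb
  refine ⟨fun k hk => by rw [R1_neg hk]; simp, ?_, ?_, ?_, ?_, ?_, ?_, ?_, ?_⟩
  · simpa using finrank_R1 0 (by decide)
  · simpa using finrank_R1 12 (by decide)
  · simpa using finrank_R1 14 (by decide)
  · simpa using finrank_R1 16 (by decide)
  · simpa using finrank_R1 18 (by decide)
  · simpa using finrank_R1 20 (by decide)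
  · simpa using finrank_R1 22 (by decide)
  · simpa using finrank_R1 24 (by decide)

theorem Final.finrank_MF_zero (N : ℕ) [NeZero N] : Module.finrank ℂ (MF N 0) = 1 := by
  have h1 : (1 : ℍ → ℂ) ∈ MF N 0 := R1_le_MF N 0 one_mem_R1
  have : MF N 0 = Submodule.span ℂ {(1 : ℍ → ℂ)} := by
    apply le_antisymm
    · intro f hf
      obtain ⟨c, rfl⟩ := MF_zero hf
      rw [Submodule.mem_span_singleton]
      exact ⟨c, by ext z; simp⟩
    · rw [Submodule.span_le, Set.singleton_subset_iff]; exact h1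
  rw [this, finrank_span_singleton]
  intro h
  have := congrFun h UpperHalfPlane.I
  simp at this

theorem Final.main (N : ℕ) [NeZero N] :
    (Module.finrank ℂ (SF N 2) : ℚ) = ModularCurve.genusFormula N := by
  classical
  obtain ⟨bM⟩ := Final.exists_homBasis_MF N
  obtain ⟨bS⟩ := Final.exists_homBasis_SF N
  obtain ⟨e, he⟩ := exists_weight_matching bM bS
  obtain ⟨D, hD⟩ := exists_cuspData N
  obtain ⟨pneg, p0, p12, p14, p16, p18, p20, p22, p24⟩ := Final.hilb_vals
  have hmulM : ∀ (m K : ℤ) (a f : ℍ → ℂ), a ∈ R1 m → f ∈ MF N K → a * f ∈ MF N (m + K) :=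
    fun m K a f ha hf => MF_mul (R1_le_MF N m ha) hf
  have hmulS : ∀ (m K : ℤ) (a f : ℍ → ℂ), a ∈ R1 m → f ∈ SF N K → a * f ∈ SF N (m + K) :=
    fun m K a f ha hf => Final.mul_mem_SF ha hf
  -- the weights
  set S : Finset ℤ := {0, 2, 4, 6, 8, 10} with hS
  have hk : ∀ i, bM.k i ∈ S := by
    intro i
    obtain ⟨⟨r, hr⟩, h0⟩ := weight_even bM i
    have hpos : 0 < bS.k (e i) := by
      by_contra hneg
      have := bS.mem (e i)
      rw [SF_nonpos (not_lt.mp hneg)] at this
      exact bS.v_ne_zero (e i) ((Submodule.mem_bot ℂ).mp this)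
    rw [he i] at hpos
    have h1 : 0 ≤ r := by omega
    have h2 : r ≤ 5 := by omega
    rw [hr, hS]
    interval_cases r <;> simp
  let n : ℤ → ℕ := fun j => (Finset.univ.filter (fun i => bM.k i = j)).card
  have hsumN : ∀ F : ℤ → ℕ, ∑ i, F (bM.k i) =
      n 0 * F 0 + n 2 * F 2 + n 4 * F 4 + n 6 * F 6 + n 8 * F 8 + n 10 * F 10 := by
    intro F
    rw [Final.sum_by_weight bM.k S hk F, hS]
    simp [Finset.sum_insert, n]
    ring
  have hsumC : ∀ F : ℤ → ℂ, ∑ i, F (bM.k i) =
      n 0 * F 0 + n 2 * F 2 + n 4 * F 4 + n 6 * F 6 + n 8 * F 8 + n 10 * F 10 := by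
    intro F
    rw [Final.sum_by_weight bM.k S hk F, hS]
    simp [Finset.sum_insert, n]
    ring
  -- Hilbert functions
  have hM : ∀ K : ℤ, Module.finrank ℂ (MF N K) = ∑ i, Final.hilb (K - bM.k i) :=
    fun K => bM.finrank_eq hmulM K
  have hSf : ∀ K : ℤ, Module.finrank ℂ (SF N K) = ∑ i, Final.hilb (K - (12 - bM.k i)) := by
    intro K
    rw [bS.finrank_eq hmulS K, ← Equiv.sum_comp e]
    exact Finset.sum_congr rfl fun i _ => by rw [he i]; rfl
  -- (a) total number
  have ha : n 0 + n 2 + n 4 + n 6 + n 8 + n 10 = ModularCurve.dedekindPsi N := by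
    have h1 := hsumN (fun _ => 1)
    simp only [Finset.sum_const, Finset.card_univ, smul_eq_mul, mul_one] at h1
    rw [← Fermat.Agent.Lib.card_quotient_Gamma0 N, ← card_homBasis_MF bM, h1]
  -- (b) n 0 = 1
  have hb : n 0 = 1 := by
    have h1 := hM 0
    rw [Final.finrank_MF_zero, hsumN (fun j => Final.hilb (0 - j))] at h1
    norm_num at h1
    rw [p0, pneg _ (by norm_num), pneg _ (by norm_num), pneg _ (by norm_num),
      pneg _ (by norm_num), pneg _ (by norm_num)] at h1
    omega
  -- (f) the answer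
  have hf : Module.finrank ℂ (SF N 2) = n 10 := by
    rw [hSf 2, hsumN (fun j => Final.hilb (2 - (12 - j)))]
    norm_num
    rw [pneg _ (by norm_num), pneg _ (by norm_num), pneg _ (by norm_num), pneg _ (by norm_num),
      pneg _ (by norm_num), p0]
    omega
  -- (e) constant terms
  have hcusp : n 0 + n 2 = n 10 + ModularCurve.cuspCount N := by
    have h1 := finrank_MF_eq_finrank_SF_add D (K := 24) (by decide) (by norm_num)
    rw [hD, Fermat.Agent.Lib.card_orbits_T N, hM 24, hSf 24,
      hsumN (fun j => Final.hilb (24 - j)),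
      hsumN (fun j => Final.hilb (24 - (12 - j)))] at h1
    norm_num at h1
    rw [p24, p22, p20, p18, p16, p14, p12] at h1
    omega
  -- (c) trace at `i`
  have hc : (ModularCurve.nuTwo N : ℂ) = n 0 - n 2 + n 4 - n 6 + n 8 - n 10 := by
    have h1 := card_fixedBy_S_eq bM
    rw [Fermat.Agent.Lib.card_fixedBy_S N, hsumC (fun j => (-1 : ℂ) ^ (j / 2))] at h1
    rw [h1]
    norm_num [zpow_ofNat]
    ring
  -- (d) trace at `ρ`
  have hd : (ModularCurve.nuThree N : ℂ) =
      (n 0 + n 6) + (n 2 + n 8) * rho + (n 4 + n 10) * rho ^ 2 := by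
    have h1 := card_fixedBy_ST_eq bM
    rw [Fermat.Agent.Lib.card_fixedBy_ST N, hsumC (fun j => rho ^ (j / 2))] at h1
    rw [h1]
    have r4 : rho ^ 4 = rho := by
      calc rho ^ 4 = rho ^ 3 * rho := by ring
        _ = rho := by rw [Final.rho_cube, one_mul]
    have r5 : rho ^ 5 = rho ^ 2 := by
      calc rho ^ 5 = rho ^ 3 * rho ^ 2 := by ring
        _ = rho ^ 2 := by rw [Final.rho_cube, one_mul]
    norm_num [zpow_ofNat]
    rw [Final.rho_cube, r4, r5]
    ring
  -- real parts
  have hcR : (ModularCurve.nuTwo N : ℝ) = n 0 - n 2 + n 4 - n 6 + n 8 - n 10 := by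
    have := congrArg Complex.re hc
    simpa using this
  have hdR : (ModularCurve.nuThree N : ℝ) =
      (n 0 + n 6) - ((n 2 + n 8) + (n 4 + n 10)) / 2 := by
    have := congrArg Complex.re hd
    simp only [Complex.add_re, Complex.mul_re, Complex.natCast_re, Complex.natCast_im,
      Final.rho_re, Final.rho_sq_re, zero_mul, sub_zero, Complex.add_im, add_zero] at this
    rw [this]; ring
  -- conclusion
  have haR : ((n 0 : ℝ) + n 2 + n 4 + n 6 + n 8 + n 10) = ModularCurve.dedekindPsi N := by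
    exact_mod_cast ha
  have hbR : (n 0 : ℝ) = 1 := by exact_mod_cast hb
  have heR : ((n 0 : ℝ) + n 2) = n 10 + ModularCurve.cuspCount N := by exact_mod_cast hcusp
  have key : ((Module.finrank ℂ (SF N 2) : ℚ) : ℝ) = ((ModularCurve.genusFormula N : ℚ) : ℝ) := by
    rw [hf, ModularCurve.genusFormula]
    push_cast
    linarith
  exact_mod_cast key

end Fermat.Agent.S20
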