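import Mathlib
import Fermat.Prelude.Def_ModularCurve_GenusNumerics

/-!
# S20 (dimension of `S₂(Γ₀(N))` = genus formula): shared definitions

Route: graded duality over the ring of level-one forms (`ℂ[E₄, E₆]`).
Everything is phrased on plain functions `ℍ → ℂ`:

* `MF N k`, `SF N k` : the spaces of (functions underlying) modular / cusp forms of weight `k`
  on `Γ₀(N)`; `R1 k` : level-one modular forms of weight `k`.
* `X N := SL(2, ℤ) ⧸ Γ₀(N)` (left cosets) and `comp N k f x := f ∣[k] (x.out)⁻¹`, the component of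
  `f` at the coset `x`.
* `HomBasis M` : a finite homogeneous basis of the graded family `M` over level-one forms.
-/

set_option autoImplicit false

namespace Fermat.Agent.S20

open UpperHalfPlane ModularForm MatrixGroups CongruenceSubgroup Matrix.SpecialLinearGroup

/-- `Γ₀(N)` as a subgroup of `GL(2, ℝ)`: exactly the group appearing in the frozen statement. -/
abbrev G0 (N : ℕ) : Subgroup (GL (Fin 2) ℝ) := (Gamma0 N).map (mapGL ℝ)

/-- Coercion to functions, as a linear map (modular forms). -/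
def mfCoe (Γ : Subgroup (GL (Fin 2) ℝ)) [Γ.HasDetOne] (k : ℤ) : ModularForm Γ k →ₗ[ℂ] (ℍ → ℂ) where
  toFun f := ⇑f
  map_add' _ _ := rfl
  map_smul' _ _ := rfl

/-- Coercion to functions, as a linear map (cusp forms). -/
def cfCoe (Γ : Subgroup (GL (Fin 2) ℝ)) [Γ.HasDetOne] (k : ℤ) : CuspForm Γ k →ₗ[ℂ] (ℍ → ℂ) where
  toFun f := ⇑f
  map_add' _ _ := rfl
  map_smul' _ _ := rfl

/-- Functions underlying modular forms of weight `k` on `Γ₀(N)`. -/
def MF (N : ℕ) (k : ℤ) : Submodule ℂ (ℍ → ℂ) := LinearMap.range (mfCoe (G0 N) k)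

/-- Functions underlying cusp forms of weight `k` on `Γ₀(N)`. -/
def SF (N : ℕ) (k : ℤ) : Submodule ℂ (ℍ → ℂ) := LinearMap.range (cfCoe (G0 N) k)

/-- Functions underlying level-one modular forms of weight `k`. -/
def R1 (k : ℤ) : Submodule ℂ (ℍ → ℂ) := LinearMap.range (mfCoe 𝒮ℒ k)

lemma mem_MF {N : ℕ} {k : ℤ} {f : ℍ → ℂ} : f ∈ MF N k ↔ ∃ g : ModularForm (G0 N) k, ⇑g = f :=
  Iff.rfl

lemma mem_SF {N : ℕ} {k : ℤ} {f : ℍ → ℂ} : f ∈ SF N k ↔ ∃ g : CuspForm (G0 N) k, ⇑g = f :=
  Iff.rfl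

lemma mem_R1 {k : ℤ} {f : ℍ → ℂ} : f ∈ R1 k ↔ ∃ g : ModularForm 𝒮ℒ k, ⇑g = f :=
  Iff.rfl

/-- `E₄` as a function. -/
noncomputable def E4f : ℍ → ℂ := ⇑ModularForm.E₄

/-- `E₆` as a function. -/
noncomputable def E6f : ℍ → ℂ := ⇑ModularForm.E₆

/-- The discriminant `Δ` as a function. -/
noncomputable def Df : ℍ → ℂ := ModularForm.discriminant

/-- The coset space `SL(2, ℤ) ⧸ Γ₀(N)` (left cosets `g Γ₀(N)`). `SL(2, ℤ)` acts by left
multiplication (Mathlib's `MulAction.quotient`). -/
abbrev X (N : ℕ) : Type := SL(2, ℤ) ⧸ Gamma0 N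

noncomputable instance instFintypeX (N : ℕ) [NeZero N] : Fintype (X N) := Fintype.ofFinite _

/-- Component of `f` (weight `k`) at the coset `x = g Γ₀(N)`: the function `f ∣[k] g⁻¹`
(for the chosen representative `g = x.out`; independent of the choice when `f ∈ MF N k`). -/
noncomputable def comp (N : ℕ) (k : ℤ) (f : ℍ → ℂ) (x : X N) : ℍ → ℂ :=
  f ∣[k] ((Quotient.out x : SL(2, ℤ))⁻¹)

/-- A finite homogeneous basis of a graded family `M` of spaces of functions over the ring of
level-one modular forms: elements `v i ∈ M (k i)` such that every `f ∈ M K` is uniquely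
`∑ i, a i * v i` with `a i ∈ R1 (K - k i)`. -/
structure HomBasis (M : ℤ → Submodule ℂ (ℍ → ℂ)) where
  /-- index type -/
  ι : Type
  /-- finiteness of the index type -/
  fin : Fintype ι
  /-- weights -/
  k : ι → ℤ
  /-- basis elements -/
  v : ι → ℍ → ℂ
  mem : ∀ i, v i ∈ M (k i)
  exists_unique : ∀ (K : ℤ) (f : ℍ → ℂ), f ∈ M K →
    ∃! a : ι → ℍ → ℂ, (∀ i, a i ∈ R1 (K - k i)) ∧ f = ∑ i, a i * v i

attribute [instance] HomBasis.fin

/-- Decomposition of the coset space into orbits of `T` ("cusps" with their widths):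
`(c, s) ↦ T ^ s • rep c` is a bijection `Σ c, Fin (h c) ≃ X N`, and `T ^ (h c)` fixes `rep c`. -/
structure CuspData (N : ℕ) where
  /-- index type (the cusps) -/
  C : Type
  /-- finiteness -/
  fin : Fintype C
  /-- decidable equality -/
  dec : DecidableEq C
  /-- a representative coset for each cusp -/
  rep : C → X N
  /-- the width of each cusp -/
  h : C → ℕ
  h_pos : ∀ c, 0 < h c
  period : ∀ c, (ModularGroup.T ^ h c) • rep c = rep c
  bij : Function.Bijective (fun p : (Σ c, Fin (h c)) => (ModularGroup.T ^ (p.2 : ℕ)) • rep p.1)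

attribute [instance] CuspData.fin CuspData.dec

/-- The `n`-th coefficient of the expansion of the component of `f` at the cusp `c`, in the local
parameter `q_c = exp(2 π i z / h c)`. -/
noncomputable def cc {N : ℕ} (D : CuspData N) (K : ℤ) (f : ℍ → ℂ) (c : D.C) (n : ℕ) : ℂ :=
  (qExpansion (D.h c : ℝ) (comp N K f (D.rep c))).coeff n

end Fermat.Agent.S20
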