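import Fermat.Agent.S20.Defs

/-!
# S20, module H1/H2 (core) : traces at the elliptic points

Stub-free part of `Elliptic.lean` (imports `Defs` only).

* `card_fixed_eq_sum_of_intertwine` : if a bijective "evaluation" matrix `V` intertwines a self-map
  `σ` of a finite set with a diagonal matrix `D`, then the number of fixed points of `σ` is the
  trace `∑ i, D i`.
* the elliptic points `I` and `rhoH`, fixed by `S⁻¹` resp. `(S * T)⁻¹`, and the automorphy factors
  `-I`, `-rho` there.
* `card_fixedBy_eq_sum_denom` : the trace identity for a homogeneous basis, with the two inputs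
  (`comp_smul` from `Forms`, `eval_bijective_MF` from `Eval`) as hypotheses.
-/

set_option autoImplicit false

namespace Fermat.Agent.S20

open UpperHalfPlane ModularForm MatrixGroups CongruenceSubgroup Matrix.SpecialLinearGroup Filter
open scoped Topology Manifold

/-! ## The abstract trace lemma -/

/-- If `c ↦ (x ↦ ∑ i, c i * V x i)` is bijective and `V (σ x) i = D i * V x i`, then the number of
fixed points of `σ` equals `∑ i, D i` (trace of a "permutation matrix" conjugate to a diagonal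
one). -/
theorem card_fixed_eq_sum_of_intertwine {X ι : Type*} [Fintype X] [Fintype ι]
    (V : X → ι → ℂ) (σ : X → X) (D : ι → ℂ)
    (hbij : Function.Bijective (fun (c : ι → ℂ) (x : X) => ∑ i, c i * V x i))
    (hV : ∀ x i, V (σ x) i = D i * V x i) :
    (Nat.card {x : X // σ x = x} : ℂ) = ∑ i, D i := by
  classical
  let E : (ι → ℂ) →ₗ[ℂ] (X → ℂ) :=
    { toFun := fun c x => ∑ i, c i * V x i
      map_add' := by
        intro c c'
        funext x
        simp [add_mul, Finset.sum_add_distrib]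
      map_smul' := by
        intro a c
        funext x
        simp [Finset.mul_sum, mul_assoc] }
  let e : (ι → ℂ) ≃ₗ[ℂ] (X → ℂ) := LinearEquiv.ofBijective E hbij
  let P : (X → ℂ) →ₗ[ℂ] (X → ℂ) :=
    { toFun := fun φ x => φ (σ x)
      map_add' := by intros; rfl
      map_smul' := by intros; rfl }
  let Dm : (ι → ℂ) →ₗ[ℂ] (ι → ℂ) :=
    { toFun := fun c i => D i * c i
      map_add' := by
        intro c c'
        funext i
        simp [mul_add]
      map_smul' := by
        intro a c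
        funext i
        simp only [Pi.smul_apply, smul_eq_mul, RingHom.id_apply]
        ring }
  have hconj : e.conj Dm = P := by
    apply LinearMap.ext
    intro φ
    obtain ⟨c, rfl⟩ := e.surjective φ
    rw [LinearEquiv.conj_apply_apply, LinearEquiv.symm_apply_apply]
    funext x
    change ∑ i, (D i * c i) * V x i = ∑ i, c i * V (σ x) i
    refine Finset.sum_congr rfl fun i _ => ?_
    rw [hV]
    ring
  have h1 : LinearMap.trace ℂ (X → ℂ) P = LinearMap.trace ℂ (ι → ℂ) Dm := by
    rw [← hconj, LinearMap.trace_conj']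
  have h2 : LinearMap.trace ℂ (X → ℂ) P = (Nat.card {x : X // σ x = x} : ℂ) := by
    rw [LinearMap.trace_eq_matrix_trace ℂ (Pi.basisFun ℂ X), Matrix.trace,
      LinearMap.toMatrix_eq_toMatrix']
    simp only [Matrix.diag_apply, LinearMap.toMatrix'_apply]
    change ∑ x, (Pi.single x (1 : ℂ) : X → ℂ) (σ x) = _
    simp only [Pi.single_apply]
    rw [Finset.sum_boole, Nat.card_eq_fintype_card, Fintype.card_subtype]
  have h3 : LinearMap.trace ℂ (ι → ℂ) Dm = ∑ i, D i := by
    rw [LinearMap.trace_eq_matrix_trace ℂ (Pi.basisFun ℂ ι), Matrix.trace,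
      LinearMap.toMatrix_eq_toMatrix']
    simp only [Matrix.diag_apply, LinearMap.toMatrix'_apply]
    change ∑ i, D i * (Pi.single i (1 : ℂ) : ι → ℂ) i = _
    simp
  rw [← h2, h1, h3]

/-! ## The elliptic points -/

/-- the primitive cube root of unity `exp(2πi/3)` -/
noncomputable def rho : ℂ := -1 / 2 + (Real.sqrt 3 / 2) * Complex.I

theorem rho_im : rho.im = Real.sqrt 3 / 2 := by
  simp [rho]

theorem rho_sq_add : rho ^ 2 + rho + 1 = 0 := by
  have h3 : ((Real.sqrt 3 : ℝ) : ℂ) ^ 2 = 3 := by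
    norm_cast
    exact Real.sq_sqrt (by norm_num)
  have hI : Complex.I ^ 2 = -1 := Complex.I_sq
  unfold rho
  linear_combination (1 / 4 : ℂ) * Complex.I ^ 2 * h3 + (3 / 4 : ℂ) * hI

theorem rho_cube : rho ^ 3 = 1 := by
  linear_combination (rho - 1) * rho_sq_add

theorem rho_ne_zero : rho ≠ 0 := by
  intro h
  have := rho_cube
  rw [h] at this
  norm_num at this

/-- the elliptic point `ρ` as a point of the upper half plane -/
noncomputable def rhoH : ℍ := ⟨rho, by rw [rho_im]; positivity⟩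

theorem coe_rhoH : (rhoH : ℂ) = rho := rfl

theorem S_inv_val :
    ((ModularGroup.S⁻¹ : SL(2, ℤ)) : Matrix (Fin 2) (Fin 2) ℤ) = !![0, 1; -1, 0] := by
  rw [Matrix.SpecialLinearGroup.coe_inv, ModularGroup.coe_S, Matrix.adjugate_fin_two]
  simp

theorem ST_inv_val :
    (((ModularGroup.S * ModularGroup.T)⁻¹ : SL(2, ℤ)) : Matrix (Fin 2) (Fin 2) ℤ)
      = !![1, 1; -1, 0] := by
  rw [Matrix.SpecialLinearGroup.coe_inv, Matrix.SpecialLinearGroup.coe_mul, ModularGroup.coe_S,
    ModularGroup.coe_T, Matrix.mul_fin_two, Matrix.adjugate_fin_two]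
  simp

/-- `S⁻¹` fixes `i`. -/
theorem S_inv_smul_I : (ModularGroup.S⁻¹ : SL(2, ℤ)) • (I : ℍ) = I := by
  rw [UpperHalfPlane.ext_iff, coe_specialLinearGroup_apply, S_inv_val]
  simp

theorem denom_S_inv_I : denom (ModularGroup.S⁻¹ : SL(2, ℤ)) I = -Complex.I := by
  rw [ModularGroup.denom_apply, S_inv_val]
  simp

/-- `(S T)⁻¹` fixes `ρ`. -/
theorem ST_inv_smul_rhoH : ((ModularGroup.S * ModularGroup.T)⁻¹ : SL(2, ℤ)) • rhoH = rhoH := by
  rw [UpperHalfPlane.ext_iff, coe_specialLinearGroup_apply, ST_inv_val]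
  simp only [coe_rhoH]
  have h := rho_sq_add
  have h0 := rho_ne_zero
  simp
  field_simp
  linear_combination (-1 : ℂ) * h

theorem denom_ST_inv_rhoH :
    denom ((ModularGroup.S * ModularGroup.T)⁻¹ : SL(2, ℤ)) rhoH = -rho := by
  rw [ModularGroup.denom_apply, ST_inv_val]
  simp [coe_rhoH]

/-- the automorphy factor at `i` : `(-i)^(-k) = (-1)^(k/2)` for even `k`. -/
theorem neg_I_zpow_neg {k : ℤ} (hk : Even k) : (-Complex.I) ^ (-k) = (-1 : ℂ) ^ (k / 2) := by
  obtain ⟨m, rfl⟩ := hk
  have h1 : (m + m) / 2 = m := by omega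
  have h2 : -(m + m) = 2 * (-m) := by ring
  have h3 : (-Complex.I) ^ (2 : ℤ) = -1 := by
    rw [zpow_ofNat, neg_sq, Complex.I_sq]
  rw [h1, h2, zpow_mul, h3, ← inv_zpow', inv_neg_one]

/-- the automorphy factor at `ρ` : `(-ρ)^(-k) = ρ^(k/2)` for even `k`. -/
theorem neg_rho_zpow_neg {k : ℤ} (hk : Even k) : (-rho) ^ (-k) = rho ^ (k / 2) := by
  obtain ⟨m, rfl⟩ := hk
  have h1 : (m + m) / 2 = m := by omega
  have h2 : -(m + m) = 2 * (-m) := by ring
  have h3 : (-rho) ^ (2 : ℤ) = rho ^ 2 := by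
    rw [zpow_ofNat, neg_sq]
  have h4 : (rho ^ 2)⁻¹ = rho := by
    apply inv_eq_of_mul_eq_one_right
    linear_combination rho_cube
  rw [h1, h2, zpow_mul, h3, ← inv_zpow', h4]

/-! ## The trace identity -/

/-- Trace identity at a point `z₀` fixed by `g⁻¹` : the number of fixed points of `g` on
`X N = SL(2,ℤ) ⧸ Γ₀(N)` is the sum of the automorphy factors `denom g⁻¹ z₀ ^ (-k i)` over a
homogeneous basis of `MF N`.  The hypotheses `hcomp` and `hbij` are `comp_smul` (module `Forms`)
and `eval_bijective_MF` (module `Eval`). -/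
theorem card_fixedBy_eq_sum_denom {N : ℕ} [NeZero N] (b : HomBasis (MF N)) (g : SL(2, ℤ)) (z₀ : ℍ)
    (hfix : g⁻¹ • z₀ = z₀)
    (hcomp : ∀ i x, comp N (b.k i) (b.v i) (g • x) = comp N (b.k i) (b.v i) x ∣[b.k i] g⁻¹)
    (hbij : Function.Bijective
      (fun (c : b.ι → ℂ) (x : X N) => ∑ i, c i * comp N (b.k i) (b.v i) x z₀)) :
    (Nat.card (MulAction.fixedBy (X N) g) : ℂ) = ∑ i, denom (g⁻¹ : SL(2, ℤ)) z₀ ^ (-(b.k i)) := by
  refine card_fixed_eq_sum_of_intertwine (fun x i => comp N (b.k i) (b.v i) x z₀) (fun x => g • x)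
    (fun i => denom (g⁻¹ : SL(2, ℤ)) z₀ ^ (-(b.k i))) hbij ?_
  intro x i
  rw [hcomp, SL_slash_apply, hfix, mul_comm]

/-- Trace identity for `S` at `i`, given `comp_smul`, `eval_bijective_MF` and evenness of the
weights. -/
theorem card_fixedBy_S_eq_of {N : ℕ} [NeZero N] (b : HomBasis (MF N))
    (hcomp : ∀ i x, comp N (b.k i) (b.v i) (ModularGroup.S • x)
      = comp N (b.k i) (b.v i) x ∣[b.k i] ModularGroup.S⁻¹)
    (hbij : Function.Bijective
      (fun (c : b.ι → ℂ) (x : X N) => ∑ i, c i * comp N (b.k i) (b.v i) x I))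
    (heven : ∀ i, Even (b.k i)) :
    (Nat.card (MulAction.fixedBy (X N) ModularGroup.S) : ℂ) = ∑ i, (-1 : ℂ) ^ (b.k i / 2) := by
  rw [card_fixedBy_eq_sum_denom b ModularGroup.S I S_inv_smul_I hcomp hbij]
  refine Finset.sum_congr rfl fun i _ => ?_
  rw [denom_S_inv_I]
  exact neg_I_zpow_neg (heven i)

/-- Trace identity for `S * T` at `ρ`, given `comp_smul`, `eval_bijective_MF` and evenness of the
weights. -/
theorem card_fixedBy_ST_eq_of {N : ℕ} [NeZero N] (b : HomBasis (MF N))
    (hcomp : ∀ i x, comp N (b.k i) (b.v i) ((ModularGroup.S * ModularGroup.T) • x)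
      = comp N (b.k i) (b.v i) x ∣[b.k i] (ModularGroup.S * ModularGroup.T)⁻¹)
    (hbij : Function.Bijective
      (fun (c : b.ι → ℂ) (x : X N) => ∑ i, c i * comp N (b.k i) (b.v i) x rhoH))
    (heven : ∀ i, Even (b.k i)) :
    (Nat.card (MulAction.fixedBy (X N) (ModularGroup.S * ModularGroup.T)) : ℂ) =
      ∑ i, rho ^ (b.k i / 2) := by
  rw [card_fixedBy_eq_sum_denom b (ModularGroup.S * ModularGroup.T) rhoH ST_inv_smul_rhoH hcomp
    hbij]
  refine Finset.sum_congr rfl fun i _ => ?_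
  rw [denom_ST_inv_rhoH]
  exact neg_rho_zpow_neg (heven i)

end Fermat.Agent.S20
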