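import Mathlib
import Fermat.Prelude.Thm_UpperHalfPlane_qExpansion_coeff_nat_mul

/-!
# S20, module INF (helper16): analysis at the cusp `i∞` for functions with period `N`

Everything is stated for plain functions `ℍ → ℂ`.
-/

set_option autoImplicit false

namespace Fermat.Agent.S20

open UpperHalfPlane Complex Filter Function Asymptotics
open scoped Real Manifold Topology ModularForm MatrixGroups

/-- `F` is holomorphic on `ℍ`, has period `h` and is bounded at `i∞`. -/
structure NicePer (h : ℝ) (F : ℍ → ℂ) : Prop where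
  per : Periodic (F ∘ ofComplex) h
  hol : MDiff F
  bdd : IsBoundedAtImInfty F

/-- The `n`-th coefficient of the expansion of `F` in the parameter `exp (2 π i τ / h)`. -/
noncomputable def qc (h : ℝ) (F : ℍ → ℂ) (n : ℕ) : ℂ := (qExpansion h F).coeff n

/-- Translation by `1`. -/
def shiftOne (F : ℍ → ℂ) : ℍ → ℂ := fun τ ↦ F ((1 : ℝ) +ᵥ τ)

lemma periodic_comp_ofComplex_of_vadd {h : ℝ} {F : ℍ → ℂ}
    (hF : ∀ τ : ℍ, F (h +ᵥ τ) = F τ) : Periodic (F ∘ ofComplex) h := by
  intro w
  by_cases! hw : 0 < im w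
  · have : 0 < im (w + h) := by simp [hw]
    simp only [comp_apply, ofComplex_apply_of_im_pos this, ofComplex_apply_of_im_pos hw]
    rw [← hF ⟨w, hw⟩]
    congr 1
    ext
    simp [add_comm]
  · have : im (w + h) ≤ 0 := by simpa using hw
    simp [ofComplex_apply_of_im_nonpos this, ofComplex_apply_of_im_nonpos hw]

lemma vadd_of_periodic_comp_ofComplex {h : ℝ} {F : ℍ → ℂ}
    (hF : Periodic (F ∘ ofComplex) h) (τ : ℍ) : F (h +ᵥ τ) = F τ := by
  have h1 := hF (τ : ℂ)
  have hpos : 0 < im ((τ : ℂ) + h) := by simpa using τ.im_pos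
  simp only [comp_apply, ofComplex_apply_of_im_pos hpos, ofComplex_apply] at h1
  rw [← h1]
  congr 1
  ext
  simp [add_comm]

namespace NicePer

variable {h : ℝ} {F G : ℍ → ℂ}

lemma analyticAt (hh : 0 < h) (hF : NicePer h F) : AnalyticAt ℂ (cuspFunction h F) 0 :=
  analyticAt_cuspFunction_zero hh hF.per hF.hol hF.bdd

lemma hasSum (hh : 0 < h) (hF : NicePer h F) (τ : ℍ) :
    HasSum (fun m : ℕ ↦ qc h F m • Periodic.qParam h τ ^ m) (F τ) :=
  hasSum_qExpansion hh hF.per hF.hol hF.bdd τ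

lemma vadd (hF : NicePer h F) (τ : ℍ) : F (h +ᵥ τ) = F τ :=
  vadd_of_periodic_comp_ofComplex hF.per τ

lemma mul (hF : NicePer h F) (hG : NicePer h G) : NicePer h (F * G) where
  per := by
    have : (F * G) ∘ ofComplex = (F ∘ ofComplex) * (G ∘ ofComplex) := rfl
    rw [this]
    exact hF.per.mul hG.per
  hol := hF.hol.mul hG.hol
  bdd := hF.bdd.mul hG.bdd

lemma add (hF : NicePer h F) (hG : NicePer h G) : NicePer h (F + G) where
  per := by
    have : (F + G) ∘ ofComplex = (F ∘ ofComplex) + (G ∘ ofComplex) := rfl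
    rw [this]
    exact hF.per.add hG.per
  hol := hF.hol.add hG.hol
  bdd := hF.bdd.add hG.bdd

lemma zero : NicePer h (0 : ℍ → ℂ) where
  per := fun _ ↦ rfl
  hol := mdifferentiable_const
  bdd := zero_form_isBoundedAtImInfty

lemma sum {ι : Type*} (s : Finset ι) {F : ι → ℍ → ℂ} (hF : ∀ i ∈ s, NicePer h (F i)) :
    NicePer h (∑ i ∈ s, F i) := by
  classical
  induction s using Finset.induction_on with
  | empty => simpa using zero
  | insert a s ha ih =>
    rw [Finset.sum_insert ha]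
    exact (hF a (Finset.mem_insert_self a s)).add
      (ih fun i hi ↦ hF i (Finset.mem_insert_of_mem hi))

lemma nat_mul (hF : NicePer h F) (n : ℕ) : NicePer (n * h) F where
  per := by
    have := hF.per.nat_mul n
    simpa using this
  hol := hF.hol
  bdd := hF.bdd

end NicePer


/-! ### Constant term -/

lemma qc_zero_eq_valueAtInfty {h : ℝ} {F : ℍ → ℂ} (hh : 0 < h) (hF : NicePer h F) :
    qc h F 0 = valueAtInfty F :=
  qExpansion_coeff_zero hh (hF.analyticAt hh) hF.per

lemma tendsto_qc_zero {h : ℝ} {F : ℍ → ℂ} (hh : 0 < h) (hF : NicePer h F) :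
    Tendsto F atImInfty (𝓝 (qc h F 0)) := by
  have h1 : (cuspFunction h F ∘ fun τ : ℍ ↦ Periodic.qParam h τ) = F := by
    funext τ
    simpa using eq_cuspFunction τ hh.ne' hF.per
  have h2 := (hF.analyticAt hh).continuousAt.tendsto.comp (qParam_tendsto_atImInfty hh)
  rw [h1] at h2
  have h3 : qc h F 0 = cuspFunction h F 0 := by
    simp [qc, qExpansion_coeff]
  rw [h3]
  exact h2

lemma isZeroAtImInfty_iff_qc_zero {h : ℝ} {F : ℍ → ℂ} (hh : 0 < h) (hF : NicePer h F) :
    IsZeroAtImInfty F ↔ qc h F 0 = 0 := by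
  constructor
  · intro hz
    exact tendsto_nhds_unique (tendsto_qc_zero hh hF) hz
  · intro h0
    have := tendsto_qc_zero hh hF
    rw [h0] at this
    exact this

/-! ### Vanishing order and growth -/

lemma isBigO_of_qc_eq_zero {h : ℝ} {F : ℍ → ℂ} (hh : 0 < h) (hF : NicePer h F) (m : ℕ)
    (h0 : ∀ n < m, qc h F n = 0) :
    F =O[atImInfty] fun τ : ℍ ↦ Real.exp (-2 * π * τ.im / h) ^ m := by
  have hps : HasFPowerSeriesAt (cuspFunction h F)
      (FormalMultilinearSeries.ofScalars ℂ fun m ↦ qc h F m) 0 :=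
    (hasFPowerSeriesOnBall_cuspFunction hh (hF.analyticAt hh) (hF.hasSum hh)).hasFPowerSeriesAt
  have hO := hps.isBigO_sub_partialSum_pow m
  have hpart : ∀ y : ℂ,
      (FormalMultilinearSeries.ofScalars ℂ fun m ↦ qc h F m).partialSum m y = 0 := by
    intro y
    rw [FormalMultilinearSeries.partialSum]
    refine Finset.sum_eq_zero fun k hk ↦ ?_
    have hk' : k < m := Finset.mem_range.mp hk
    simp [FormalMultilinearSeries.ofScalars, h0 k hk']
  simp only [hpart, sub_zero, zero_add] at hO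
  have hcomp := hO.comp_tendsto (qParam_tendsto_atImInfty hh)
  refine (hcomp.congr' ?_ ?_)
  · refine Eventually.of_forall fun τ ↦ ?_
    simpa using eq_cuspFunction τ hh.ne' hF.per
  · refine Eventually.of_forall fun τ ↦ ?_
    simp only [comp_apply]
    rw [Periodic.norm_qParam]
    simp


lemma exp_pow_eq {N : ℕ} (hN : 0 < N) (y : ℝ) :
    Real.exp (-2 * π * y / N) ^ N = Real.exp (-2 * π * y) := by
  rw [← Real.exp_nat_mul]
  congr 1
  have : (N : ℝ) ≠ 0 := Nat.cast_ne_zero.mpr hN.ne'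
  field_simp

/-- If the first `N` coefficients of the `q_N`-expansion vanish, then `F / Δ` is bounded at `i∞`. -/
lemma isBoundedAtImInfty_div_discriminant {N : ℕ} (hN : 0 < N) {F : ℍ → ℂ} (hF : NicePer N F)
    (h0 : ∀ n < N, qc N F n = 0) :
    IsBoundedAtImInfty (fun τ ↦ F τ / ModularForm.discriminant τ) := by
  have h1 := isBigO_of_qc_eq_zero (Nat.cast_pos.mpr hN) hF N h0
  simp only [exp_pow_eq hN] at h1
  obtain ⟨c, hc⟩ := (h1.trans ModularForm.exp_isBigO_discriminant).bound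
  refine IsBigO.of_bound c ?_
  filter_upwards [hc] with τ hτ
  have hΔ : 0 < ‖ModularForm.discriminant τ‖ := norm_pos_iff.mpr (ModularForm.discriminant_ne_zero τ)
  rw [norm_div, div_le_iff₀ hΔ]
  simpa using hτ

/-- If the coefficients `0, …, N` of the `q_N`-expansion vanish, then `F / Δ` is zero at `i∞`. -/
lemma isZeroAtImInfty_div_discriminant {N : ℕ} (hN : 0 < N) {F : ℍ → ℂ} (hF : NicePer N F)
    (h0 : ∀ n ≤ N, qc N F n = 0) :
    IsZeroAtImInfty (fun τ ↦ F τ / ModularForm.discriminant τ) := by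
  have h1 := isBigO_of_qc_eq_zero (Nat.cast_pos.mpr hN) hF (N + 1)
    (fun n hn ↦ h0 n (Nat.lt_succ_iff.mp hn))
  simp only [pow_succ, exp_pow_eq hN] at h1
  have h2 : (fun τ : ℍ ↦ Real.exp (-2 * π * τ.im) * Real.exp (-2 * π * τ.im / N))
      =O[atImInfty] fun τ : ℍ ↦ ModularForm.discriminant τ * (Real.exp (-2 * π * τ.im / N) : ℂ) :=
    ModularForm.exp_isBigO_discriminant.mul (by
      refine IsBigO.of_bound 1 (Eventually.of_forall fun τ ↦ ?_)
      rw [one_mul, Complex.norm_real])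
  obtain ⟨c, hc⟩ := (h1.trans h2).bound
  have h3 : (fun τ ↦ F τ / ModularForm.discriminant τ)
      =O[atImInfty] fun τ : ℍ ↦ Real.exp (-2 * π * τ.im / N) := by
    refine IsBigO.of_bound c ?_
    filter_upwards [hc] with τ hτ
    have hΔ : 0 < ‖ModularForm.discriminant τ‖ :=
      norm_pos_iff.mpr (ModularForm.discriminant_ne_zero τ)
    rw [norm_div, div_le_iff₀ hΔ]
    rw [norm_mul] at hτ
    simp only [Complex.norm_real] at hτ
    linarith [hτ, mul_comm (‖ModularForm.discriminant τ‖) ‖Real.exp (-2 * π * τ.im / N)‖,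
      mul_assoc c ‖Real.exp (-2 * π * τ.im / N)‖ ‖ModularForm.discriminant τ‖,
      mul_assoc c ‖ModularForm.discriminant τ‖ ‖Real.exp (-2 * π * τ.im / N)‖]
  refine h3.trans_tendsto ?_
  have h4 : Tendsto (fun y : ℝ ↦ Real.exp (-2 * π * y / N)) atTop (𝓝 0) := by
    have hc : 0 < 2 * π / N := by positivity
    have := Real.tendsto_exp_neg_atTop_nhds_zero.comp (tendsto_id.const_mul_atTop hc)
    refine this.congr fun y ↦ ?_
    simp only [comp_apply, id]
    congr 1
    ring
  exact h4.comp tendsto_comap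

/-! ### Translation by one -/

lemma shiftOne_eq_slash (F : ℍ → ℂ) (k : ℤ) : shiftOne F = F ∣[k] ModularGroup.T := by
  ext τ
  have hd : denom ModularGroup.T τ = 1 := by
    simp [denom, ModularGroup.coe_T]
  rw [ModularForm.SL_slash_apply, UpperHalfPlane.modular_T_smul, hd]
  simp [shiftOne]

lemma NicePer.shiftOne {h : ℝ} {F : ℍ → ℂ} (hF : NicePer h F) : NicePer h (shiftOne F) where
  per := by
    refine periodic_comp_ofComplex_of_vadd fun τ ↦ ?_
    simp only [Fermat.Agent.S20.shiftOne]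
    rw [vadd_vadd, add_comm, ← vadd_vadd, hF.vadd]
  hol := by
    rw [shiftOne_eq_slash F 0]
    exact hF.hol.slash 0 _
  bdd := by
    obtain ⟨M, A, hMA⟩ := isBoundedAtImInfty_iff.mp hF.bdd
    refine isBoundedAtImInfty_iff.mpr ⟨M, A, fun z hz ↦ ?_⟩
    exact hMA _ (by simpa using hz)

/-- The primitive `N`-th root of unity `exp (2 π i / N)`. -/
noncomputable def zetaN (N : ℕ) : ℂ := Complex.exp (2 * π * Complex.I / N)

lemma qParam_vadd_one (h : ℝ) (τ : ℍ) :
    Periodic.qParam h (((1 : ℝ) +ᵥ τ : ℍ) : ℂ) = Complex.exp (2 * π * Complex.I / h) * Periodic.qParam h τ := by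
  simp only [Periodic.qParam, coe_vadd, ← Complex.exp_add]
  congr 1
  push_cast
  ring

lemma qc_unique {h : ℝ} {F : ℍ → ℂ} (hh : 0 < h) (hF : NicePer h F) {c : ℕ → ℂ}
    (hc : ∀ τ : ℍ, HasSum (fun m ↦ c m • Periodic.qParam h τ ^ m) (F τ)) (m : ℕ) :
    c m = qc h F m := by
  have h1 := (hasFPowerSeriesOnBall_cuspFunction hh (hF.analyticAt hh) hc).hasFPowerSeriesAt
  have h2 := (hasFPowerSeriesOnBall_cuspFunction hh (hF.analyticAt hh)
    (hF.hasSum hh)).hasFPowerSeriesAt
  simpa using congr_arg (FormalMultilinearSeries.coeff · m) (h1.eq_formalMultilinearSeries h2)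

lemma qc_shiftOne {N : ℕ} (hN : 0 < N) {F : ℍ → ℂ} (hF : NicePer N F) (n : ℕ) :
    qc N (shiftOne F) n = zetaN N ^ n * qc N F n := by
  have hh : (0 : ℝ) < N := Nat.cast_pos.mpr hN
  symm
  refine qc_unique hh hF.shiftOne (c := fun n ↦ zetaN N ^ n * qc N F n) (fun τ ↦ ?_) n
  have := hF.hasSum hh ((1 : ℝ) +ᵥ τ)
  rw [qParam_vadd_one] at this
  have heq : (fun m : ℕ ↦ (zetaN N ^ m * qc N F m) • Periodic.qParam (N : ℝ) (τ : ℂ) ^ m) =
      fun m : ℕ ↦ qc N F m • (Complex.exp (2 * π * Complex.I / (N : ℝ)) *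
        Periodic.qParam (N : ℝ) (τ : ℂ)) ^ m := by
    funext m
    simp only [smul_eq_mul, zetaN, mul_pow]
    push_cast
    ring
  rw [heq]
  exact this

end Fermat.Agent.S20
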