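import Fermat.Agent.S20.Defs
import Fermat.Agent.S20.Level1
import Fermat.Agent.S20.Forms
import Fermat.Agent.S20.CuspData
import Fermat.Agent.S20.Helper16Infty

/-!
# S20, module E (`Cusps`), part 1 (helper16): expansions at the cusps

Exports (exact signatures of the `Cusps` interface): `cc_add`, `cc_smul`, `cc_R1_mul`,
`cc_R1_mul_SF`, `mem_SF_iff`, `MF_div_Df`, `SF_div_Df`.

For `f ∈ MF N K` and a cusp `c`: `F := comp N K f (D.rep c)` is holomorphic, bounded at `∞` and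
`F (z + h c) = F z`; `comp N K f (T^s • rep c) z = F (z - s)`.
-/

set_option autoImplicit false

namespace Fermat.Agent.S20

open UpperHalfPlane ModularForm MatrixGroups CongruenceSubgroup Matrix.SpecialLinearGroup Filter
open scoped Topology Manifold

variable {N : ℕ} [NeZero N]

/-! ### Translations -/

/-- Slash by `T ^ n` is translation by `n`. -/
lemma Cusps_slash_T_zpow (F : ℍ → ℂ) (k : ℤ) (n : ℤ) :
    F ∣[k] (ModularGroup.T ^ n) = fun τ : ℍ ↦ F ((n : ℝ) +ᵥ τ) := by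
  ext τ
  have hd : denom ((ModularGroup.T ^ n : SL(2, ℤ)) : GL (Fin 2) ℝ) τ = 1 := by
    rw [ModularGroup.denom_apply]
    simp [ModularGroup.coe_T_zpow, -map_zpow]
  rw [ModularForm.SL_slash_apply, UpperHalfPlane.modular_T_zpow_smul, hd]
  simp

lemma Cusps_tendsto_vadd (x : ℝ) : Tendsto (fun τ : ℍ ↦ x +ᵥ τ) atImInfty atImInfty := by
  rw [atImInfty, tendsto_comap_iff]
  have : (im ∘ fun τ : ℍ ↦ x +ᵥ τ) = im := by
    ext τ
    simp
  rw [this]
  exact tendsto_comap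

lemma Cusps_isZeroAtImInfty_vadd {F : ℍ → ℂ} (hF : IsZeroAtImInfty F) (x : ℝ) :
    IsZeroAtImInfty (fun τ : ℍ ↦ F (x +ᵥ τ)) :=
  Tendsto.comp hF (Cusps_tendsto_vadd x)

lemma Cusps_isBoundedAtImInfty_vadd {F : ℍ → ℂ} (hF : IsBoundedAtImInfty F) (x : ℝ) :
    IsBoundedAtImInfty (fun τ : ℍ ↦ F (x +ᵥ τ)) := by
  obtain ⟨M, A, hMA⟩ := isBoundedAtImInfty_iff.mp hF
  refine isBoundedAtImInfty_iff.mpr ⟨M, A, fun z hz ↦ ?_⟩
  exact hMA _ (by simpa using hz)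

/-! ### Components at the cusps -/

/-- the component at `T ^ s • x` is the translate by `-s` of the component at `x`. -/
lemma Cusps_comp_T_zpow {K : ℤ} {f : ℍ → ℂ} (hf : f ∈ MF N K) (s : ℤ) (x : X N) :
    comp N K f (ModularGroup.T ^ s • x) = fun τ : ℍ ↦ comp N K f x (((-s : ℤ) : ℝ) +ᵥ τ) := by
  rw [comp_smul hf, ← zpow_neg, Cusps_slash_T_zpow]

lemma Cusps_nicePer (D : CuspData N) {K : ℤ} {f : ℍ → ℂ} (hf : f ∈ MF N K) (c : D.C) :
    NicePer (D.h c : ℝ) (comp N K f (D.rep c)) where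
  per := by
    refine periodic_comp_ofComplex_of_vadd fun τ ↦ ?_
    have h1 := Cusps_comp_T_zpow hf (D.h c : ℤ) (D.rep c)
    rw [zpow_natCast, D.period c] at h1
    have h2 := congrFun h1 ((D.h c : ℝ) +ᵥ τ)
    rw [h2]
    congr 1
    ext
    simp
  hol := comp_mdiff hf _
  bdd := comp_isBoundedAtImInfty hf _

lemma Cusps_R1_nicePer {m : ℤ} {a : ℍ → ℂ} (ha : a ∈ R1 m) : NicePer 1 a := by
  obtain ⟨g, rfl⟩ := mem_R1.mp ha
  exact ⟨by simpa using SlashInvariantFormClass.periodic_comp_ofComplex g one_mem_strictPeriods_SL,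
    ModularFormClass.holo g, ModularFormClass.bdd_at_infty g⟩

/-- every slash of `f` by an element of `SL(2, ℤ)` is an integer translate of a component at a
cusp representative. -/
lemma Cusps_slash_eq (D : CuspData N) {K : ℤ} {f : ℍ → ℂ} (hf : f ∈ MF N K) (γ : SL(2, ℤ)) :
    ∃ (c : D.C) (s : ℤ), f ∣[K] γ = fun τ : ℍ ↦ comp N K f (D.rep c) ((s : ℝ) +ᵥ τ) := by
  obtain ⟨⟨c, s⟩, hcs⟩ := D.bij.2 ((γ⁻¹ : SL(2, ℤ)) : X N)
  refine ⟨c, -((s : ℕ) : ℤ), ?_⟩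
  have h1 := comp_mk hf γ⁻¹
  rw [inv_inv] at h1
  rw [← h1, ← hcs]
  simp only
  rw [← zpow_natCast, Cusps_comp_T_zpow hf]

/-! ### Coefficients -/

theorem cc_add (D : CuspData N) {K : ℤ} {f g : ℍ → ℂ} (hf : f ∈ MF N K) (hg : g ∈ MF N K)
    (c : D.C) (n : ℕ) : cc D K (f + g) c n = cc D K f c n + cc D K g c n := by
  have hh : (0 : ℝ) < D.h c := Nat.cast_pos.mpr (D.h_pos c)
  unfold cc
  rw [comp_add, qExpansion_add ((Cusps_nicePer D hf c).analyticAt hh)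
    ((Cusps_nicePer D hg c).analyticAt hh), map_add]

theorem cc_smul (D : CuspData N) {K : ℤ} {f : ℍ → ℂ} (hf : f ∈ MF N K) (a : ℂ)
    (c : D.C) (n : ℕ) : cc D K (a • f) c n = a * cc D K f c n := by
  have hh : (0 : ℝ) < D.h c := Nat.cast_pos.mpr (D.h_pos c)
  unfold cc
  rw [comp_const_smul, qExpansion_smul ((Cusps_nicePer D hf c).analyticAt hh),
    PowerSeries.coeff_smul, smul_eq_mul]

lemma Cusps_qc_R1 {h : ℕ} (hh : 0 < h) {a : ℍ → ℂ} (ha : NicePer 1 a) (i : ℕ) :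
    qc (h : ℝ) a i = if h ∣ i then qc 1 a (i / h) else 0 := by
  have := UpperHalfPlane.qExpansion_coeff_nat_mul (h := 1) one_pos ha.per ha.hol ha.bdd hh i
  rw [mul_one] at this
  exact this

lemma Cusps_qc_mul {h : ℕ} (hh : 0 < h) {a F : ℍ → ℂ} (ha : NicePer 1 a) (hF : NicePer (h : ℝ) F)
    {a0 : ℂ} (ha0 : Tendsto a atImInfty (𝓝 a0)) {n : ℕ} (hn : n ≤ h)
    (hF0 : n = h → qc (h : ℝ) F 0 = 0) :
    qc (h : ℝ) (a * F) n = a0 * qc (h : ℝ) F n := by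
  have hh' : (0 : ℝ) < h := Nat.cast_pos.mpr hh
  have ha' : NicePer (h : ℝ) a := by simpa using ha.nat_mul h
  have h0 : qc (h : ℝ) a 0 = a0 := tendsto_nhds_unique (tendsto_qc_zero hh' ha') ha0
  unfold qc
  rw [qExpansion_mul (ha'.analyticAt hh') (hF.analyticAt hh'), PowerSeries.coeff_mul]
  rw [Finset.sum_eq_single (0, n)]
  · exact congrArg (· * _) h0
  · rintro ⟨i, j⟩ hij hne
    rw [Finset.HasAntidiagonal.mem_antidiagonal] at hij
    simp only at hij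
    have hi : i ≠ 0 := by
      rintro rfl
      apply hne
      simp only [zero_add] at hij
      rw [hij]
    change qc (h : ℝ) a i * qc (h : ℝ) F j = 0
    rw [Cusps_qc_R1 hh ha]
    split_ifs with hdvd
    · have hih : h ≤ i := Nat.le_of_dvd (Nat.pos_of_ne_zero hi) hdvd
      have hnh : n = h := by omega
      have hj : j = 0 := by omega
      rw [hj, hF0 hnh, mul_zero]
    · rw [zero_mul]
  · intro hnot
    exact absurd (Finset.HasAntidiagonal.mem_antidiagonal.mpr (zero_add n)) hnot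

/-- multiplying by a level-one form does not change the first `h c` coefficients,
up to its value at `∞`. -/
theorem cc_R1_mul (D : CuspData N) {m K : ℤ} {a f : ℍ → ℂ} (ha : a ∈ R1 m) (hf : f ∈ MF N K)
    {a0 : ℂ} (ha0 : Tendsto a atImInfty (𝓝 a0)) (c : D.C) {n : ℕ} (hn : n < D.h c) :
    cc D (m + K) (a * f) c n = a0 * cc D K f c n := by
  unfold cc
  rw [comp_mul, comp_R1 ha]
  exact Cusps_qc_mul (D.h_pos c) (Cusps_R1_nicePer ha) (Cusps_nicePer D hf c) ha0 hn.le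
    (fun h ↦ absurd h hn.ne)

/-- same for cusp forms, one more coefficient. -/
theorem cc_R1_mul_SF (D : CuspData N) {m K : ℤ} {a f : ℍ → ℂ} (ha : a ∈ R1 m) (hf : f ∈ SF N K)
    {a0 : ℂ} (ha0 : Tendsto a atImInfty (𝓝 a0)) (c : D.C) {n : ℕ} (hn : n ≤ D.h c) :
    cc D (m + K) (a * f) c n = a0 * cc D K f c n := by
  have hf' : f ∈ MF N K := SF_le_MF N K hf
  have hh : (0 : ℝ) < D.h c := Nat.cast_pos.mpr (D.h_pos c)
  unfold cc
  rw [comp_mul, comp_R1 ha]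
  exact Cusps_qc_mul (D.h_pos c) (Cusps_R1_nicePer ha) (Cusps_nicePer D hf' c) ha0 hn
    (fun _ ↦ (isZeroAtImInfty_iff_qc_zero hh (Cusps_nicePer D hf' c)).mp
      (comp_isZeroAtImInfty hf _))

/-! ### Cusp forms and division by `Δ` -/

theorem mem_SF_iff (D : CuspData N) {K : ℤ} {f : ℍ → ℂ} (hf : f ∈ MF N K) :
    f ∈ SF N K ↔ ∀ c, cc D K f c 0 = 0 := by
  constructor
  · intro hs c
    exact (isZeroAtImInfty_iff_qc_zero (Nat.cast_pos.mpr (D.h_pos c)) (Cusps_nicePer D hf c)).mp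
      (comp_isZeroAtImInfty hs _)
  · intro h0
    have key : ∀ γ : SL(2, ℤ), IsZeroAtImInfty (f ∣[K] γ) := by
      intro γ
      obtain ⟨c, s, hcs⟩ := Cusps_slash_eq D hf γ
      rw [hcs]
      exact Cusps_isZeroAtImInfty_vadd
        ((isZeroAtImInfty_iff_qc_zero (Nat.cast_pos.mpr (D.h_pos c)) (Cusps_nicePer D hf c)).mpr
          (h0 c)) _
    obtain ⟨g, rfl⟩ := mem_MF.mp hf
    refine mem_SF.mpr ⟨
      { toSlashInvariantForm := g.toSlashInvariantForm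
        holo' := g.holo'
        zero_at_cusps' := ?_ }, rfl⟩
    intro c hc
    rw [Subgroup.IsArithmetic.isCusp_iff_isCusp_SL2Z] at hc
    rw [OnePoint.isZeroAt_iff_forall_SL2Z hc]
    intro γ _
    exact key γ

lemma Cusps_Df_slash (γ : SL(2, ℤ)) : Df ∣[(12 : ℤ)] γ = Df := by
  have hγ : (γ : GL (Fin 2) ℝ) ∈ 𝒮ℒ := ⟨γ, rfl⟩
  change (⇑CuspForm.discriminant) ∣[(12 : ℤ)] γ = ⇑CuspForm.discriminant
  rw [SL_slash, SlashInvariantForm.slash_action_eqn _ _ hγ]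

lemma Cusps_Df_vadd (s : ℤ) (τ : ℍ) : Df ((s : ℝ) +ᵥ τ) = Df τ := by
  have h1 := Cusps_Df_slash (ModularGroup.T ^ s)
  rw [Cusps_slash_T_zpow] at h1
  exact congrFun h1 τ

lemma Cusps_div_slash_eq (D : CuspData N) {K : ℤ} {f : ℍ → ℂ} (hf : f ∈ MF N K) (γ : SL(2, ℤ)) :
    ∃ (c : D.C) (s : ℤ), (fun z ↦ f z / Df z) ∣[K - 12] γ =
      fun τ : ℍ ↦ (fun z ↦ comp N K f (D.rep c) z / Df z) ((s : ℝ) +ᵥ τ) := by
  obtain ⟨c, s, hcs⟩ := Cusps_slash_eq D hf γ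
  refine ⟨c, s, ?_⟩
  change (f / Df) ∣[K - 12] γ = _
  rw [div_slash_SL2, hcs, Cusps_Df_slash]
  ext τ
  simp [Cusps_Df_vadd]

omit [NeZero N] in
lemma Cusps_div_slash_G0 {K : ℤ} {f : ℍ → ℂ} (hf : f ∈ MF N K) (γ : GL (Fin 2) ℝ)
    (hγ : γ ∈ G0 N) : (fun z ↦ f z / Df z) ∣[K - 12] γ = fun z ↦ f z / Df z := by
  obtain ⟨g, rfl⟩ := mem_MF.mp hf
  obtain ⟨γ', hγ', rfl⟩ := hγ
  have hmem : ((γ' : SL(2, ℤ)) : GL (Fin 2) ℝ) ∈ G0 N := ⟨γ', hγ', rfl⟩
  change (⇑g / Df) ∣[K - 12] γ' = ⇑g / Df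
  rw [div_slash_SL2, Cusps_Df_slash, SL_slash, SlashInvariantForm.slash_action_eqn g _ hmem]

lemma Cusps_div_mdiff {K : ℤ} {f : ℍ → ℂ} (hf : f ∈ MF N K) : MDiff (fun z ↦ f z / Df z) :=
  (MF_mdiff hf).div CuspForm.discriminant.holo' ModularForm.discriminant_ne_zero

/-- a form vanishing to order `≥ h c` at every cusp is divisible by `Δ`. -/
theorem MF_div_Df (D : CuspData N) {K : ℤ} {f : ℍ → ℂ} (hf : f ∈ MF N K)
    (h0 : ∀ c, ∀ n < D.h c, cc D K f c n = 0) : ∃ g ∈ MF N (K - 12), f = Df * g := by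
  refine ⟨fun z ↦ f z / Df z, ?_, ?_⟩
  · refine mem_MF.mpr ⟨
      { toFun := fun z ↦ f z / Df z
        slash_action_eq' := Cusps_div_slash_G0 hf
        holo' := Cusps_div_mdiff hf
        bdd_at_cusps' := ?_ }, rfl⟩
    intro c hc
    rw [Subgroup.IsArithmetic.isCusp_iff_isCusp_SL2Z] at hc
    rw [OnePoint.isBoundedAt_iff_forall_SL2Z hc]
    intro γ _
    obtain ⟨c', s, hcs⟩ := Cusps_div_slash_eq D hf γ
    rw [hcs]
    exact Cusps_isBoundedAtImInfty_vadd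
      (isBoundedAtImInfty_div_discriminant (D.h_pos c') (Cusps_nicePer D hf c') (h0 c')) _
  · ext z
    simp only [Pi.mul_apply]
    rw [mul_div_cancel₀ _ (Df_ne_zero z)]

/-- a cusp form vanishing to order `≥ h c + 1` at every cusp is `Δ` times a cusp form. -/
theorem SF_div_Df (D : CuspData N) {K : ℤ} {f : ℍ → ℂ} (hf : f ∈ SF N K)
    (h0 : ∀ c, ∀ n ≤ D.h c, cc D K f c n = 0) : ∃ g ∈ SF N (K - 12), f = Df * g := by
  have hf' : f ∈ MF N K := SF_le_MF N K hf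
  refine ⟨fun z ↦ f z / Df z, ?_, ?_⟩
  · refine mem_SF.mpr ⟨
      { toFun := fun z ↦ f z / Df z
        slash_action_eq' := Cusps_div_slash_G0 hf'
        holo' := Cusps_div_mdiff hf'
        zero_at_cusps' := ?_ }, rfl⟩
    intro c hc
    rw [Subgroup.IsArithmetic.isCusp_iff_isCusp_SL2Z] at hc
    rw [OnePoint.isZeroAt_iff_forall_SL2Z hc]
    intro γ _
    obtain ⟨c', s, hcs⟩ := Cusps_div_slash_eq D hf' γ
    rw [hcs]
    exact Cusps_isZeroAtImInfty_vadd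
      (isZeroAtImInfty_div_discriminant (D.h_pos c') (Cusps_nicePer D hf' c') (h0 c')) _
  · ext z
    simp only [Pi.mul_apply]
    rw [mul_div_cancel₀ _ (Df_ne_zero z)]

end Fermat.Agent.S20
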