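import Mathlib

/-!
# S20 helper (helper18): uniqueness for linear holomorphic ODE systems on convex open sets

If finitely many holomorphic functions `w i` on a convex open set `S ⊆ ℂ` satisfy a linear system
`(w i)' = ∑ j, B i j * w j` with continuous coefficients and all vanish at one point of `S`,
they vanish identically on `S`.  Consequence on the upper half plane for the normalised derivative
`D = (2πi)⁻¹ d/dz`.
-/

set_option autoImplicit false

open UpperHalfPlane Derivative Filter Set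
open scoped Manifold Topology

namespace Fermat.Agent.S20

theorem h18_ode_unique_aux {ι : Type*} [Fintype ι] {S : Set ℂ} (hS : Convex ℝ S)
    (hSo : IsOpen S) (w : ι → ℂ → ℂ) (B : ι → ι → ℂ → ℂ)
    (hw : ∀ i, DifferentiableOn ℂ (w i) S)
    (hB : ∀ i j, ContinuousOn (B i j) S)
    (hode : ∀ i, ∀ z ∈ S, deriv (w i) z = ∑ j, B i j z * w j z)
    {z₀ : ℂ} (hz₀ : z₀ ∈ S) (h0 : ∀ i, w i z₀ = 0) :
    ∀ z ∈ S, ∀ i, w i z = 0 := by
  intro z hz
  set γ : ℝ → ℂ := fun t => z₀ + (t : ℂ) * (z - z₀) with hγ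
  have hγS : ∀ t ∈ Icc (0 : ℝ) 1, γ t ∈ S := by
    intro t ht
    have := hS.add_smul_sub_mem hz₀ hz ht
    simpa [hγ, Complex.real_smul] using this
  have hγd : ∀ t : ℝ, HasDerivAt γ (z - z₀) t := by
    intro t
    have h1 : HasDerivAt (fun t : ℝ => (t : ℂ)) 1 t := Complex.ofRealCLM.hasDerivAt
    have h2 := (h1.mul_const (z - z₀)).const_add z₀
    simpa [hγ] using h2
  have hγc : Continuous γ := by
    simp only [hγ]; fun_prop
  set f : ℝ → (ι → ℂ) := fun t i => w i (γ t) with hf
  set f' : ℝ → (ι → ℂ) := fun t i => (z - z₀) * ∑ j, B i j (γ t) * w j (γ t) with hf'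
  have hfd : ∀ t ∈ Icc (0 : ℝ) 1, HasDerivAt f (f' t) t := by
    intro t ht
    rw [hasDerivAt_pi]
    intro i
    have hwi : HasDerivAt (w i) (deriv (w i) (γ t)) (γ t) :=
      ((hw i).differentiableAt (hSo.mem_nhds (hγS t ht))).hasDerivAt
    have := HasDerivAt.scomp t hwi (hγd t)
    rw [hode i _ (hγS t ht)] at this
    simpa [hf, hf', Function.comp_def, smul_eq_mul] using this
  have hfc : ContinuousOn f (Icc 0 1) := fun t ht => (hfd t ht).continuousAt.continuousWithinAt
  -- bounds for the coefficients along the path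
  have hbound : ∀ i j, ∃ C : ℝ, ∀ t ∈ Icc (0 : ℝ) 1, ‖B i j (γ t)‖ ≤ C := by
    intro i j
    have hc : ContinuousOn (fun t => B i j (γ t)) (Icc (0 : ℝ) 1) :=
      (hB i j).comp hγc.continuousOn (fun t ht => hγS t ht)
    exact isCompact_Icc.exists_bound_of_continuousOn hc
  choose C hC using hbound
  set K : ℝ := ‖z - z₀‖ * ∑ i, ∑ j, |C i j| with hK
  have hKbound : ∀ t ∈ Ico (0 : ℝ) 1, ‖f' t‖ ≤ K * ‖f t‖ := by
    intro t ht
    have ht' : t ∈ Icc (0 : ℝ) 1 := Ico_subset_Icc_self ht
    have hKnn : 0 ≤ K * ‖f t‖ := by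
      apply mul_nonneg _ (norm_nonneg _)
      exact mul_nonneg (norm_nonneg _)
        (Finset.sum_nonneg fun i _ => Finset.sum_nonneg fun j _ => abs_nonneg _)
    rw [pi_norm_le_iff_of_nonneg hKnn]
    intro i
    have h1 : ‖∑ j, B i j (γ t) * w j (γ t)‖ ≤ ∑ j, |C i j| * ‖f t‖ := by
      refine (norm_sum_le _ _).trans (Finset.sum_le_sum fun j _ => ?_)
      rw [norm_mul]
      have hb : ‖B i j (γ t)‖ ≤ |C i j| := (hC i j t ht').trans (le_abs_self _)
      have hwj : ‖w j (γ t)‖ ≤ ‖f t‖ := norm_le_pi_norm (f t) j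
      exact mul_le_mul hb hwj (norm_nonneg _) (abs_nonneg _)
    have h2 : ∑ j, |C i j| * ‖f t‖ ≤ (∑ i, ∑ j, |C i j|) * ‖f t‖ := by
      rw [← Finset.sum_mul]
      apply mul_le_mul_of_nonneg_right _ (norm_nonneg _)
      exact Finset.single_le_sum (f := fun i => ∑ j, |C i j|)
        (fun i _ => Finset.sum_nonneg fun j _ => abs_nonneg _) (Finset.mem_univ i)
    calc ‖f' t i‖ = ‖z - z₀‖ * ‖∑ j, B i j (γ t) * w j (γ t)‖ := by
          simp [hf']
      _ ≤ ‖z - z₀‖ * ((∑ i, ∑ j, |C i j|) * ‖f t‖) :=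
          mul_le_mul_of_nonneg_left (h1.trans h2) (norm_nonneg _)
      _ = K * ‖f t‖ := by rw [hK]; ring
  have hfa : f 0 = 0 := by
    funext i
    simp [hf, hγ, h0 i]
  have key := eq_zero_of_abs_deriv_le_mul_abs_self_of_eq_zero_right hfc
    (fun t ht => (hfd t (Ico_subset_Icc_self ht)).hasDerivWithinAt) hfa hKbound 1
    (right_mem_Icc.mpr zero_le_one)
  intro i
  have := congrFun key i
  simpa [hf, hγ] using this

/-- Uniqueness for linear systems `D w = B w` on the upper half plane: a solution vanishing at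
one point vanishes identically. -/
theorem h18_ode_unique {ι : Type*} [Fintype ι] (w : ι → ℍ → ℂ) (B : ι → ι → ℍ → ℂ)
    (hw : ∀ i, MDiff (w i)) (hB : ∀ i j, Continuous (B i j))
    (hode : ∀ i z, D (w i) z = ∑ j, B i j z * w j z)
    (z₀ : ℍ) (h0 : ∀ i, w i z₀ = 0) (z : ℍ) (i : ι) : w i z = 0 := by
  have hconv : Convex ℝ upperHalfPlaneSet := by
    have : upperHalfPlaneSet = Complex.im ⁻¹' Ioi (0 : ℝ) := rfl
    rw [this]
    exact (convex_Ioi (0 : ℝ)).is_linear_preimage Complex.imLm.isLinear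
  have key := h18_ode_unique_aux hconv isOpen_upperHalfPlaneSet
    (fun i => w i ∘ ofComplex)
    (fun i j x => 2 * (Real.pi : ℂ) * Complex.I * B i j (ofComplex x))
    (fun i => UpperHalfPlane.mdifferentiable_iff.mp (hw i))
    (fun i j => by
      have hc : ContinuousOn (fun x : ℂ => B i j (ofComplex x)) upperHalfPlaneSet := by
        refine (hB i j).comp_continuousOn ?_
        intro x hx
        have : ContinuousAt ofComplex x :=
          (UpperHalfPlane.mdifferentiableAt_ofComplex hx).continuousAt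
        exact this.continuousWithinAt
      exact continuousOn_const.mul hc)
    (fun i x hx => by
      have h1 := hode i (ofComplex x)
      simp only [normalizedDerivOfComplex] at h1
      have hx' : ((ofComplex x : ℍ) : ℂ) = x := by
        rw [ofComplex_apply_of_im_pos hx]
      rw [hx'] at h1
      have hpi : (2 * (Real.pi : ℂ) * Complex.I) ≠ 0 := by
        simp [Real.pi_ne_zero]
      have h2 : deriv (w i ∘ ofComplex) x
          = 2 * (Real.pi : ℂ) * Complex.I * ∑ j, B i j (ofComplex x) * w j (ofComplex x) := by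
        rw [← h1]; field_simp
      rw [h2, Finset.mul_sum]
      refine Finset.sum_congr rfl fun j _ => ?_
      simp only [Function.comp_apply]; ring)
    (z₀ := (z₀ : ℂ)) z₀.im_pos (fun i => by simp [h0 i]) (z : ℂ) z.im_pos i
  simpa using key

end Fermat.Agent.S20
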