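import Mathlib
import Fermat.Agent.S20.Helper18ODE

/-!
# S20 helper (helper18): column independence of the component matrix propagates along `ℍ`

Given "basis data" `(k i, v i)` closed under the Serre derivative with level-one coefficients,
the matrix `((v i) ∣[k i] (g x)) z` (rows `i`, columns `x`) has linearly independent columns at
every point of `ℍ` as soon as it has at one point.
-/

set_option autoImplicit false

open UpperHalfPlane ModularForm Derivative Filter Set
open scoped MatrixGroups Manifold Topology ModularForm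

namespace Fermat.Agent.S20

/-- `D` commutes with finite linear combinations with constant coefficients. -/
theorem h18_D_sum {κ : Type*} [Fintype κ] (c : κ → ℂ) (F : κ → ℍ → ℂ) (hF : ∀ x, MDiff (F x))
    (z : ℍ) : D (fun z' => ∑ x, c x * F x z') z = ∑ x, c x * D (F x) z := by
  classical
  simp only [normalizedDerivOfComplex]
  have h1 : ∀ x, HasDerivAt (fun y : ℂ => c x * (F x ∘ ofComplex) y)
      (c x * deriv (F x ∘ ofComplex) z) z := fun x =>
    ((UpperHalfPlane.mdifferentiableAt_iff.mp (hF x z)).hasDerivAt).const_mul (c x)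
  have h2 : HasDerivAt (fun y : ℂ => ∑ x, c x * (F x ∘ ofComplex) y)
      (∑ x, c x * deriv (F x ∘ ofComplex) z) z := HasDerivAt.fun_sum fun x _ => h1 x
  have h3 : ((fun z' => ∑ x, c x * F x z') ∘ ofComplex)
      = fun y : ℂ => ∑ x, c x * (F x ∘ ofComplex) y := rfl
  rw [h3, h2.deriv, Finset.mul_sum]
  refine Finset.sum_congr rfl fun x _ => ?_
  ring

/-- Pointwise form of the slash-equivariance of the Serre derivative, for basis data. -/
theorem h18_D_slash_basis {ι : Type*} [Fintype ι] (k : ι → ℤ) (v : ι → ℍ → ℂ)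
    (hv : ∀ i, MDiff (v i)) (a : ι → ι → ℍ → ℂ)
    (hainv : ∀ i j (γ : SL(2, ℤ)), a i j ∣[k i + 2 - k j] γ = a i j)
    (hserre : ∀ i, serreDerivative (k i) (v i) = fun z => ∑ j, a i j z * v j z)
    (γ : SL(2, ℤ)) (i : ι) (z : ℍ) :
    D (v i ∣[k i] γ) z = ∑ j, a i j z * (v j ∣[k j] γ) z
      + (k i : ℂ) * 12⁻¹ * EisensteinSeries.E2 z * (v i ∣[k i] γ) z := by
  have hd : denom γ z ≠ 0 := denom_ne_zero γ z
  have h1 := congrFun (serreDerivative_slash_equivariant (k := k i) (F := v i) (hv i) (γ := γ)) z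
  rw [hserre i] at h1
  simp only [serreDerivative_apply] at h1
  have h2 : ((fun z => ∑ j, a i j z * v j z) ∣[k i + 2] γ) z
      = ∑ j, a i j z * (v j ∣[k j] γ) z := by
    rw [ModularForm.SL_slash_apply, Finset.sum_mul]
    refine Finset.sum_congr rfl fun j _ => ?_
    have h3 := congrFun (hainv i j γ) z
    rw [ModularForm.SL_slash_apply] at h3
    rw [ModularForm.SL_slash_apply, ← h3]
    have h4 : denom γ z ^ (-(k i + 2 - k j)) * denom γ z ^ (-(k j)) = denom γ z ^ (-(k i + 2)) := by
      rw [← zpow_add₀ hd]; congr 1; ring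
    rw [← h4]; ring
  rw [h2] at h1
  linear_combination -h1

/-- **Propagation of column independence.** -/
theorem h18_cols_indep {ι κ : Type*} [Fintype ι] [Fintype κ] (k : ι → ℤ) (v : ι → ℍ → ℂ)
    (hv : ∀ i, MDiff (v i)) (a : ι → ι → ℍ → ℂ) (ha : ∀ i j, Continuous (a i j))
    (hainv : ∀ i j (γ : SL(2, ℤ)), a i j ∣[k i + 2 - k j] γ = a i j)
    (hserre : ∀ i, serreDerivative (k i) (v i) = fun z => ∑ j, a i j z * v j z)
    (g : κ → SL(2, ℤ)) (z₁ : ℍ)
    (h1 : ∀ c : κ → ℂ, (∀ i, ∑ x, c x * (v i ∣[k i] g x) z₁ = 0) → c = 0) (z : ℍ) :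
    ∀ c : κ → ℂ, (∀ i, ∑ x, c x * (v i ∣[k i] g x) z = 0) → c = 0 := by
  classical
  intro c hc
  apply h1 c
  have hsl : ∀ i x, MDiff (v i ∣[k i] g x) := by
    intro i x
    rw [ModularForm.SL_slash]
    exact (hv i).slash (k i) _
  set w : ι → ℍ → ℂ := fun i z' => ∑ x, c x * (v i ∣[k i] g x) z' with hw
  set B : ι → ι → ℍ → ℂ := fun i j z' =>
    a i j z' + if i = j then (k i : ℂ) * 12⁻¹ * EisensteinSeries.E2 z' else 0 with hB
  have hwd : ∀ i, MDiff (w i) := by
    intro i
    rw [UpperHalfPlane.mdifferentiable_iff]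
    have h3 : (w i ∘ ofComplex)
        = fun y : ℂ => ∑ x, c x * ((v i ∣[k i] g x) ∘ ofComplex) y := rfl
    rw [h3]
    refine DifferentiableOn.fun_sum fun x _ => ?_
    exact (UpperHalfPlane.mdifferentiable_iff.mp (hsl i x)).const_mul (c x)
  have hBc : ∀ i j, Continuous (B i j) := by
    intro i j
    by_cases hij : i = j
    · subst hij
      simp only [hB, if_true]
      exact (ha i i).add (continuous_const.mul E2_mdifferentiable.continuous)
    · simp only [hB, if_neg hij, add_zero]
      exact ha i j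
  have hode : ∀ i z', D (w i) z' = ∑ j, B i j z' * w j z' := by
    intro i z'
    have hR : ∑ j, B i j z' * w j z' = ∑ j, a i j z' * w j z'
        + (k i : ℂ) * 12⁻¹ * EisensteinSeries.E2 z' * w i z' := by
      simp only [hB, add_mul, Finset.sum_add_distrib, ite_mul, zero_mul, Finset.sum_ite_eq,
        Finset.mem_univ, if_true]
    have hL : ∑ x, c x * (∑ j, a i j z' * (v j ∣[k j] g x) z'
          + (k i : ℂ) * 12⁻¹ * EisensteinSeries.E2 z' * (v i ∣[k i] g x) z')
        = ∑ j, a i j z' * w j z' + (k i : ℂ) * 12⁻¹ * EisensteinSeries.E2 z' * w i z' := by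
      simp only [hw, mul_add, Finset.sum_add_distrib, Finset.mul_sum]
      congr 1
      · rw [Finset.sum_comm]
        refine Finset.sum_congr rfl fun j _ => Finset.sum_congr rfl fun x _ => ?_
        ring
      · refine Finset.sum_congr rfl fun x _ => ?_
        ring
    rw [hR, ← hL, show w i = fun z'' => ∑ x, c x * (v i ∣[k i] g x) z'' from rfl,
      h18_D_sum c (fun x => v i ∣[k i] g x) (fun x => hsl i x) z']
    refine Finset.sum_congr rfl fun x _ => ?_
    rw [h18_D_slash_basis k v hv a hainv hserre]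
  intro i
  exact h18_ode_unique w B hwd hBc hode z (fun i => hc i) z₁ i

end Fermat.Agent.S20
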