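import Fermat.Agent.S20.Defs
import Fermat.Agent.S20.Level1

/-!
# S20, module B (backup part): the `comp_*` block on plain functions

Components `comp N K f x = f ∣[K] (x.out)⁻¹` of a level-`N` form at the cosets of
`SL(2, ℤ) ⧸ Γ₀(N)`; all names are prefixed `h18_`.
-/

set_option autoImplicit false

namespace Fermat.Agent.S20

open UpperHalfPlane ModularForm MatrixGroups CongruenceSubgroup Matrix.SpecialLinearGroup Filter
open scoped Topology Manifold

variable {N : ℕ}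

/-- a form on `Γ₀(N)` is invariant under the slash action of `Γ₀(N)`. -/
theorem h18_MF_slash {K : ℤ} {f : ℍ → ℂ} (hf : f ∈ MF N K) {γ : SL(2, ℤ)} (hγ : γ ∈ Gamma0 N) :
    f ∣[K] γ = f := by
  obtain ⟨F, rfl⟩ := hf
  rw [ModularForm.SL_slash]
  exact SlashInvariantForm.slash_action_eqn F _ ⟨γ, hγ, rfl⟩

theorem h18_R1_slash {m : ℤ} {a : ℍ → ℂ} (ha : a ∈ R1 m) (γ : SL(2, ℤ)) : a ∣[m] γ = a := by
  obtain ⟨F, rfl⟩ := ha
  rw [ModularForm.SL_slash]
  exact SlashInvariantForm.slash_action_eqn F _ ⟨γ, rfl⟩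

theorem h18_SF_le_MF (N : ℕ) (K : ℤ) : SF N K ≤ MF N K := by
  rintro f ⟨F, rfl⟩
  exact ⟨⟨F.toSlashInvariantForm, F.holo',
    fun hc g hg => (F.zero_at_cusps' hc g hg).boundedAtFilter⟩, rfl⟩

theorem h18_MF_mdiff {K : ℤ} {f : ℍ → ℂ} (hf : f ∈ MF N K) : MDiff f := by
  obtain ⟨F, rfl⟩ := hf
  exact F.holo'

/-- components are independent of the representative. -/
theorem h18_comp_mk {K : ℤ} {f : ℍ → ℂ} (hf : f ∈ MF N K) (g : SL(2, ℤ)) :
    comp N K f (g : X N) = f ∣[K] g⁻¹ := by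
  obtain ⟨γ, hγ⟩ := QuotientGroup.mk_out_eq_mul (Gamma0 N) g
  unfold comp
  have h1 : (Quotient.out (g : X N) : SL(2, ℤ)) = g * γ := hγ
  rw [h1, mul_inv_rev, SlashAction.slash_mul, h18_MF_slash hf (inv_mem γ.2)]

theorem h18_comp_smul {K : ℤ} {f : ℍ → ℂ} (hf : f ∈ MF N K) (g : SL(2, ℤ)) (x : X N) :
    comp N K f (g • x) = comp N K f x ∣[K] g⁻¹ := by
  obtain ⟨y, rfl⟩ := QuotientGroup.mk_surjective x
  have h1 : g • (y : X N) = ((g * y : SL(2, ℤ)) : X N) := rfl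
  rw [h1, h18_comp_mk hf, h18_comp_mk hf, mul_inv_rev, SlashAction.slash_mul]

theorem h18_comp_add (K : ℤ) (f g : ℍ → ℂ) (x : X N) :
    comp N K (f + g) x = comp N K f x + comp N K g x := by
  unfold comp
  exact SlashAction.add_slash _ _ _ _

theorem h18_comp_const_smul (K : ℤ) (c : ℂ) (f : ℍ → ℂ) (x : X N) :
    comp N K (c • f) x = c • comp N K f x := by
  unfold comp
  exact ModularForm.SL_smul_slash _ _ _ _

theorem h18_comp_mul (K K' : ℤ) (f g : ℍ → ℂ) (x : X N) :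
    comp N (K + K') (f * g) x = comp N K f x * comp N K' g x := by
  unfold comp
  exact ModularForm.mul_slash_SL2 _ _ _ _ _

theorem h18_comp_R1 {m : ℤ} {a : ℍ → ℂ} (ha : a ∈ R1 m) (x : X N) : comp N m a x = a := by
  unfold comp
  exact h18_R1_slash ha _

theorem h18_comp_mdiff {K : ℤ} {f : ℍ → ℂ} (hf : f ∈ MF N K) (x : X N) :
    MDiff (comp N K f x) := by
  unfold comp
  rw [ModularForm.SL_slash]
  exact (h18_MF_mdiff hf).slash _ _

theorem h18_comp_isBoundedAtImInfty [NeZero N] {K : ℤ} {f : ℍ → ℂ} (hf : f ∈ MF N K) (x : X N) :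
    IsBoundedAtImInfty (comp N K f x) := by
  obtain ⟨F, rfl⟩ := hf
  unfold comp
  exact ModularFormClass.bdd_at_infty_slash F _

theorem h18_comp_isZeroAtImInfty [NeZero N] {K : ℤ} {f : ℍ → ℂ} (hf : f ∈ SF N K) (x : X N) :
    IsZeroAtImInfty (comp N K f x) := by
  obtain ⟨F, rfl⟩ := hf
  unfold comp
  exact CuspFormClass.zero_at_infty_slash F _

end Fermat.Agent.S20
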