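import Mathlib

/-!
# S20 helper (helper18): the Serre derivative preserves modular forms on arithmetic subgroups

`serreDerivative k f` for `f ∈ M_k(Γ)` is again a modular form, of weight `k + 2`.
-/

set_option autoImplicit false

open UpperHalfPlane ModularForm Derivative Filter Asymptotics
open scoped MatrixGroups Manifold ModularForm Topology

namespace Fermat.Agent.S20

/-- `D F` is bounded at `i∞` if `F` is holomorphic and bounded at `i∞` (Cauchy estimate). -/
theorem h18_isBoundedAtImInfty_D {F : ℍ → ℂ} (hF : MDiff F) (hb : IsBoundedAtImInfty F) :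
    IsBoundedAtImInfty (D F) := by
  rw [isBoundedAtImInfty_iff] at hb ⊢
  obtain ⟨M, A, hMA⟩ := hb
  refine ⟨‖(2 * (Real.pi : ℂ) * Complex.I)⁻¹‖ * (M / 1), max A 0 + 2, fun z hz => ?_⟩
  have hdiff : DifferentiableOn ℂ (F ∘ ofComplex) upperHalfPlaneSet :=
    UpperHalfPlane.mdifferentiable_iff.mp hF
  have hsub : Metric.closedBall (z : ℂ) 1 ⊆ upperHalfPlaneSet := by
    intro w hw
    have h1 : |(w - (z : ℂ)).im| ≤ 1 :=
      (Complex.abs_im_le_norm _).trans (by simpa [dist_eq_norm] using hw)
    have h2 : (w - (z : ℂ)).im = w.im - z.im := by simp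
    rw [h2, abs_le] at h1
    have h3 : 0 ≤ max A 0 := le_max_right _ _
    show 0 < w.im
    have : (z : ℂ).im = z.im := rfl
    linarith [h1.1]
  have hsphere : ∀ w ∈ Metric.sphere (z : ℂ) 1, ‖(F ∘ ofComplex) w‖ ≤ M := by
    intro w hw
    have hwU : w ∈ upperHalfPlaneSet := hsub (Metric.sphere_subset_closedBall hw)
    have h1 : |(w - (z : ℂ)).im| ≤ 1 :=
      (Complex.abs_im_le_norm _).trans (by
        have := Metric.sphere_subset_closedBall hw
        simpa [dist_eq_norm] using this)
    have h2 : (w - (z : ℂ)).im = w.im - z.im := by simp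
    rw [h2, abs_le] at h1
    have h3 : A ≤ max A 0 := le_max_left _ _
    have him : A ≤ (ofComplex w).im := by
      rw [ofComplex_apply_of_im_pos hwU]
      show A ≤ w.im
      linarith [h1.1]
    exact hMA _ him
  have hderiv := Complex.norm_deriv_le_of_forall_mem_sphere_norm_le one_pos
    (hdiff.diffContOnCl_ball hsub) hsphere
  show ‖(2 * (Real.pi : ℂ) * Complex.I)⁻¹ * deriv (F ∘ ofComplex) z‖ ≤ _
  rw [norm_mul]
  exact mul_le_mul_of_nonneg_left hderiv (norm_nonneg _)

/-- The Serre derivative of a holomorphic function bounded at `i∞` is bounded at `i∞`. -/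
theorem h18_isBoundedAtImInfty_serre (k : ℂ) {F : ℍ → ℂ} (hF : MDiff F)
    (hb : IsBoundedAtImInfty F) : IsBoundedAtImInfty (serreDerivative k F) := by
  have h1 : IsBoundedAtImInfty (D F) := h18_isBoundedAtImInfty_D hF hb
  have h2 : IsBoundedAtImInfty (fun z => k * 12⁻¹ * EisensteinSeries.E2 z * F z) := by
    have hE := EisensteinSeries.isBoundedAtImInfty_E2
    have h3 : IsBoundedAtImInfty (fun z => EisensteinSeries.E2 z * F z) := hE.mul hb
    have h4 : IsBoundedAtImInfty (fun z => (k * 12⁻¹) * (EisensteinSeries.E2 z * F z)) :=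
      h3.const_mul_left (k * 12⁻¹)
    have h5 : (fun z => k * 12⁻¹ * EisensteinSeries.E2 z * F z)
        = (fun z => (k * 12⁻¹) * (EisensteinSeries.E2 z * F z)) := by
      funext z; ring
    rw [h5]; exact h4
  exact h1.sub h2

/-- The Serre derivative of a modular form of weight `k` on (the image in `GL(2, ℝ)` of) a
subgroup of `SL(2, ℤ)` which is arithmetic is a modular form of weight `k + 2`. -/
noncomputable def h18_serreMF {Γ : Subgroup SL(2, ℤ)}
    [(Γ.map (Matrix.SpecialLinearGroup.mapGL ℝ)).IsArithmetic] {k : ℤ}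
    (f : ModularForm (Γ.map (Matrix.SpecialLinearGroup.mapGL ℝ)) k) :
    ModularForm (Γ.map (Matrix.SpecialLinearGroup.mapGL ℝ)) (k + 2) where
  toFun := serreDerivative k f
  slash_action_eq' := by
    rintro _ ⟨γ, hγ, rfl⟩
    have h1 : (f : ℍ → ℂ) ∣[k] γ = f := by
      rw [ModularForm.SL_slash]
      exact f.slash_action_eq' _ ⟨γ, hγ, rfl⟩
    have h2 := serreDerivative_slash_invariant (k := k) (F := f) f.holo' (γ := γ) h1
    rw [ModularForm.SL_slash] at h2
    exact h2
  holo' := serreDerivative_mdifferentiable k f.holo'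
  bdd_at_cusps' := by
    intro c hc
    rw [Subgroup.IsArithmetic.isCusp_iff_isCusp_SL2Z] at hc
    rw [OnePoint.isBoundedAt_iff_forall_SL2Z hc]
    intro γ _
    show IsBoundedAtImInfty (serreDerivative (k : ℂ) (f : ℍ → ℂ) ∣[k + 2] γ)
    have hf : MDiff (f : ℍ → ℂ) := f.holo'
    rw [serreDerivative_slash_equivariant (k := k) (F := (f : ℍ → ℂ)) hf (γ := γ)]
    have hs : MDiff ((f : ℍ → ℂ) ∣[k] γ) := by
      rw [ModularForm.SL_slash]
      exact hf.slash k _
    exact h18_isBoundedAtImInfty_serre k hs (ModularFormClass.bdd_at_infty_slash f γ)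

@[simp]
theorem h18_serreMF_coe {Γ : Subgroup SL(2, ℤ)}
    [(Γ.map (Matrix.SpecialLinearGroup.mapGL ℝ)).IsArithmetic] {k : ℤ}
    (f : ModularForm (Γ.map (Matrix.SpecialLinearGroup.mapGL ℝ)) k) :
    (h18_serreMF f : ℍ → ℂ) = serreDerivative k f := rfl

end Fermat.Agent.S20
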